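import Fermat.Agent.Switch.Generators
import Fermat.Agent.FrobTrace.Det
import Fermat.Agent.LocalEC.VarChange
import Fermat.Prelude.Def_FLTPrelim_ModularRep

/-!
# The Galois action on the five torsion of a curve with a Klein parameter
-/

set_option autoImplicit false
set_option linter.style.haveILetI false

noncomputable section

open scoped Classical WeierstrassCurve.Affine
open WeierstrassCurve WeierstrassCurve.Affine WeierstrassCurve.Affine.Point Matrix

namespace FLTAgent.Switch

local notation "QQb" => AlgebraicClosure ℚ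
local notation "GG" => (AlgebraicClosure ℚ ≃ₐ[ℚ] AlgebraicClosure ℚ)

/-- A Galois element as a ring homomorphism. -/
def gal (σ : GG) : QQb →+* QQb := (σ : QQb →+* QQb)

theorem gal_apply (σ : GG) (x : QQb) : gal σ x = σ x := rfl

theorem gal_mul (σ τ : GG) : gal (σ * τ) = (gal σ).comp (gal τ) := rfl

theorem gal_one : gal 1 = RingHom.id QQb := rfl

theorem gal_intCast (σ : GG) (n : ℤ) : gal σ (n : QQb) = (n : QQb) := map_intCast _ n

theorem gal_ratCast (σ : GG) (n : ℚ) : gal σ (n : QQb) = (n : QQb) := map_ratCast _ n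

variable (W : WeierstrassCurve ℤ)

/-- The change of variables to the short model. -/
def toShort :
    LocalEC.PointChange (FrobTrace.barCurve W)
      (crv ((W.c₄ : ℤ) : QQb) ((W.c₆ : ℤ) : QQb)).toAffine where
  u := 1 / 6
  r := -(W.b₂ : QQb) / 12
  s := -(W.a₁ : QQb) / 2
  t := -((W.a₁ : QQb) * (-(W.b₂ : QQb) / 12) + (W.a₃ : QQb)) / 2
  hu := by norm_num
  h₁ := by simp [crv, WeierstrassCurve.map]; ring
  h₂ := by simp [crv, WeierstrassCurve.map, WeierstrassCurve.b₂]; ring
  h₃ := by simp [crv, WeierstrassCurve.map]; ring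
  h₄ := by
    simp [crv, WeierstrassCurve.map, WeierstrassCurve.b₂, WeierstrassCurve.b₄,
      WeierstrassCurve.c₄]
    ring
  h₆ := by
    simp [crv, WeierstrassCurve.map, WeierstrassCurve.b₂, WeierstrassCurve.b₄,
      WeierstrassCurve.b₆, WeierstrassCurve.c₆]
    ring

/-- The transport to the short model commutes with Galois. -/
theorem toShort_smul (σ : GG)
    (P : (crv ((W.c₄ : ℤ) : QQb) ((W.c₆ : ℤ) : QQb)).toAffine.Point) :
    σ • ((toShort W).pointMap P : FrobTrace.barCurve W |>.Point) =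
      (toShort W).pointMap (mapPt (gal σ) (gal_intCast σ _) (gal_intCast σ _) P) := by
  rcases P with _ | ⟨x, y, h⟩
  · rfl
  · rw [LocalEC.PointChange.pointMap_some, algEquiv_smul_def, Point.map_some]
    show _ = Point.some _ _ _
    simp only [Point.some.injEq]
    constructor <;>
      simp [toShort, LocalEC.PointChange.X, LocalEC.PointChange.Y, gal, map_ofNat]

variable {W}

theorem isElliptic_rat (hΔ : W.Δ ≠ 0) :
    WeierstrassCurve.IsElliptic (W.map (Int.castRingHom ℚ)) :=
  ⟨by rw [WeierstrassCurve.map_Δ]; exact isUnit_iff_ne_zero.mpr (by simpa using hΔ)⟩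

variable {e : QQb} {he : IsPrimitiveRoot e 5} {q : Fin 2 → QQb}

/-- The level structure on the given model. -/
def levTor (hq : IsLev ((W.c₄ : ℤ) : QQb) ((W.c₆ : ℤ) : QQb) (q 0) (q 1))
    (he : IsPrimitiveRoot e 5) :
    (Fin 2 → ZMod 5) →ₗ[ZMod 5] Submodule.torsionBy ℤ (FrobTrace.barCurve W).Point (5 : ℕ) :=
  AddMonoidHom.toZModLinearMap 5
    (((toShort W).pointMap.comp (hq.lev he)).codRestrict
      (Submodule.torsionBy ℤ (FrobTrace.barCurve W).Point ((5 : ℕ) : ℤ)).toAddSubgroup fun a => by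
      rw [Submodule.mem_toAddSubgroup, Submodule.mem_torsionBy_iff, AddMonoidHom.comp_apply,
        ← map_zsmul, Nat.cast_ofNat, hq.five_zsmul_lev, _root_.map_zero])

theorem levTor_coe (hq : IsLev ((W.c₄ : ℤ) : QQb) ((W.c₆ : ℤ) : QQb) (q 0) (q 1))
    (he : IsPrimitiveRoot e 5) (a : Fin 2 → ZMod 5) :
    (levTor hq he a : (FrobTrace.barCurve W).Point) = (toShort W).pointMap (hq.lev he a) :=
  rfl

theorem levTor_bijective (hΔ : W.Δ ≠ 0)
    (hq : IsLev ((W.c₄ : ℤ) : QQb) ((W.c₆ : ℤ) : QQb) (q 0) (q 1))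
    (he : IsPrimitiveRoot e 5) : Function.Bijective (levTor hq he) := by
  haveI := isElliptic_rat hΔ
  haveI : Finite (Submodule.torsionBy ℤ (FrobTrace.barCurve W).Point ((5 : ℕ) : ℤ)) :=
    Torsion.finite_torsionBy_rat (W.map (Int.castRingHom ℚ)) (by norm_num)
  haveI := Fintype.ofFinite (Submodule.torsionBy ℤ (FrobTrace.barCurve W).Point ((5 : ℕ) : ℤ))
  rw [Fintype.bijective_iff_injective_and_card]
  refine ⟨fun a b h => hq.lev_injective he ((toShort W).pointMap_injective ?_), ?_⟩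
  · simpa only [levTor_coe] using congrArg Subtype.val h
  · rw [← Nat.card_eq_fintype_card (α := Submodule.torsionBy ℤ _ ((5 : ℕ) : ℤ))]
    exact (Torsion.card_torsionBy_rat (W.map (Int.castRingHom ℚ)) (n := 5) (by norm_num)).symm

/-- The matrix of a Galois element in the basis of a level structure. -/
theorem exists_galois_matrix (hΔ : W.Δ ≠ 0)
    (hq : IsLev ((W.c₄ : ℤ) : QQb) ((W.c₆ : ℤ) : QQb) (q 0) (q 1))
    (he : IsPrimitiveRoot e 5) (σ : GG) :
    ∃ M : Matrix (Fin 2) (Fin 2) (ZMod 5), ∀ a,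
      (V he q a).map (Prod.map (gal σ) (gal σ)) = V he q (M *ᵥ a) := by
  let L := LinearEquiv.ofBijective (levTor hq he) (levTor_bijective hΔ hq he)
  let f : (Fin 2 → ZMod 5) →ₗ[ZMod 5] (Fin 2 → ZMod 5) :=
    L.symm.toLinearMap ∘ₗ galoisRepModuleEnd ℚ (W.map (Int.castRingHom ℚ)) 5 σ ∘ₗ L.toLinearMap
  refine ⟨LinearMap.toMatrix' f, fun a => ?_⟩
  rw [V_eq he hq, V_eq he hq, ← coord_mapPt (gal σ) (gal_intCast σ _) (gal_intCast σ _),
    LinearMap.toMatrix'_mulVec]
  refine congrArg coord ((toShort W).pointMap_injective ?_)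
  rw [← toShort_smul]
  have : L (f a) = galoisRepModuleEnd ℚ (W.map (Int.castRingHom ℚ)) 5 σ (L a) := by
    simp [f]
  exact (congrArg Subtype.val this).symm

/-- A matrix describing a Galois element has the determinant and trace of the torsion
representation. -/
theorem det_trace_galois_matrix (hΔ : W.Δ ≠ 0)
    (hq : IsLev ((W.c₄ : ℤ) : QQb) ((W.c₆ : ℤ) : QQb) (q 0) (q 1))
    (he : IsPrimitiveRoot e 5) (σ : GG) (M : Matrix (Fin 2) (Fin 2) (ZMod 5))
    (hM : ∀ a, (V he q a).map (Prod.map (gal σ) (gal σ)) = V he q (M *ᵥ a)) :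
    LinearMap.det (galoisRepModuleEnd (K := QQb) ℚ (W.map (Int.castRingHom ℚ)) 5 σ) = M.det ∧
      LinearMap.trace (ZMod 5) _
        (galoisRepModuleEnd (K := QQb) ℚ (W.map (Int.castRingHom ℚ)) 5 σ) = M.trace := by
  let L := LinearEquiv.ofBijective (levTor hq he) (levTor_bijective hΔ hq he)
  have key : galoisRepModuleEnd (K := QQb) ℚ (W.map (Int.castRingHom ℚ)) 5 σ =
      L.conj (Matrix.toLin' M) := by
    refine LinearMap.ext fun x => ?_
    obtain ⟨a, rfl⟩ := L.surjective x
    rw [LinearEquiv.conj_apply_apply, L.symm_apply_apply, Matrix.toLin'_apply]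
    refine Subtype.ext ?_
    show σ • ((toShort W).pointMap (hq.lev he a)) = (toShort W).pointMap (hq.lev he (M *ᵥ a))
    rw [toShort_smul]
    refine congrArg _ (coord_injective ?_)
    rw [coord_mapPt, ← V_eq he hq, ← V_eq he hq, hM]
  rw [key]
  refine ⟨?_, ?_⟩
  · rw [LinearEquiv.conj_apply, LinearMap.comp_assoc, LinearMap.det_conj, LinearMap.det_toLin']
  · rw [LinearMap.trace_conj', Matrix.trace_toLin'_eq]

/-- Galois elements act on fifth roots of unity through the determinant. -/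
theorem galois_root (hΔ : W.Δ ≠ 0)
    (hq : IsLev ((W.c₄ : ℤ) : QQb) ((W.c₆ : ℤ) : QQb) (q 0) (q 1))
    (he : IsPrimitiveRoot e 5) (σ : GG) (M : Matrix (Fin 2) (Fin 2) (ZMod 5))
    (hM : ∀ a, (V he q a).map (Prod.map (gal σ) (gal σ)) = V he q (M *ᵥ a)) :
    gal σ e = e ^ M.det.val := by
  haveI : Fact (Nat.Prime 5) := ⟨by norm_num⟩
  have hn : Nat.card (rootsOfUnity 5 QQb) = 5 := by
    rw [HasEnoughRootsOfUnity.natCard_rootsOfUnity]
  have hd := (det_trace_galois_matrix hΔ hq he σ M hM).1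
  rw [FrobTrace.det_eq_cyclotomic W hΔ hn σ] at hd
  have ht : (he.isUnit (by norm_num)).unit ∈ rootsOfUnity 5 QQb := by
    rw [mem_rootsOfUnity, Units.ext_iff, Units.val_pow_eq_pow_val, IsUnit.unit_spec,
      he.pow_eq_one, Units.val_one]
  rw [← hd]
  exact modularCyclotomicCharacter.spec (L := QQb) (hn := hn) (σ : QQb ≃+* QQb) ht

end FLTAgent.Switch

end
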