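import Fermat.Agent.Switch.NoPolyRoot
import Fermat.Agent.Switch.Galois5

/-!
# A reducible mod three representation gives an integral root of the division polynomial
-/

set_option autoImplicit false
set_option linter.style.haveILetI false

noncomputable section

open scoped Classical WeierstrassCurve.Affine
open WeierstrassCurve WeierstrassCurve.Affine WeierstrassCurve.Affine.Point Polynomial

namespace FLTAgent.Switch

local notation "QQb" => AlgebraicClosure ℚ
local notation "GG" => (AlgebraicClosure ℚ ≃ₐ[ℚ] AlgebraicClosure ℚ)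

/-- The abscissa of a point of order three is a zero of the division polynomial. -/
theorem psi3_of_order_three {k : Type*} [Field k] [CharZero k] [DecidableEq k] {H T X Y : k}
    (h : (crv H T).toAffine.Nonsingular X Y)
    (h3 : Point.some X Y h + Point.some X Y h = -Point.some X Y h) :
    psi3 (-27 * H) (-54 * T) (3 * X) = 0 := by
  have hy : Y ≠ (crv H T).toAffine.negY X Y := by
    intro hy
    rw [Point.add_self_of_Y_eq hy, eq_comm, neg_eq_zero] at h3
    exact Point.some_ne_zero _ h3
  rw [Point.add_self_of_Y_ne hy, Point.neg_some, Point.some.injEq] at h3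
  have hx := h3.1
  have heq := (Affine.equation_iff _ _).mp h.left
  rw [Affine.slope_of_Y_ne rfl hy] at hx
  simp only [Affine.negY, crv] at hy
  simp only [Affine.addX, Affine.negY, crv, zero_mul, mul_zero, sub_zero, add_zero] at hx
  simp only [crv, zero_mul, add_zero] at heq
  have hY : Y - -Y ≠ 0 := fun h0 => hy (by linear_combination h0)
  rw [div_pow, sub_sub, sub_eq_iff_eq_add, div_eq_iff (pow_ne_zero 2 hY)] at hx
  simp only [psi3]
  linear_combination -27 * hx - 324 * X * heq

theorem zmod_three_cases : ∀ c : ZMod 3, c = 0 ∨ c = 1 ∨ c = -1 := by decide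

/-- If the mod three representation is reducible, the division polynomial has an integral
root. -/
theorem exists_root_of_not_irreducible (W : WeierstrassCurve ℤ) (hΔ : W.Δ ≠ 0)
    (h : ¬W.ModRepIsIrreducible 3) :
    ∃ y : ℤ, psi3 (-27 * W.c₄) (-54 * W.c₆) y = 0 := by
  haveI : Algebra.IsAlgebraic ℚ QQb := AlgebraicClosure.isAlgebraic ℚ
  haveI : IsAlgClosure ℚ QQb := ⟨inferInstance, inferInstance⟩
  haveI : IsGalois ℚ QQb := { to_normal := IsAlgClosure.normal ℚ QQb }
  haveI : Fact (Nat.Prime 3) := ⟨Nat.prime_three⟩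
  haveI := isElliptic_rat hΔ
  let TT := Submodule.torsionBy ℤ (FrobTrace.barCurve W).Point ((3 : ℕ) : ℤ)
  haveI : Finite TT :=
    Torsion.finite_torsionBy_rat (W.map (Int.castRingHom ℚ)) (by norm_num)
  have hcard : Nat.card TT = 3 ^ 2 :=
    Torsion.card_torsionBy_rat (W.map (Int.castRingHom ℚ)) (n := 3) (by norm_num)
  haveI : Module.Finite (ZMod 3) TT := Module.Finite.of_finite
  have hfin : Module.finrank (ZMod 3) TT = 2 := by
    have := Module.natCard_eq_pow_finrank (K := ZMod 3) (V := TT)
    rw [hcard, Nat.card_zmod] at this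
    exact (Nat.pow_right_injective (le_refl 2 |>.trans (by norm_num)) this).symm
  have hnt : Nontrivial TT := Finite.one_lt_card_iff_nontrivial.mp (by rw [hcard]; norm_num)
  rw [WeierstrassCurve.ModRepIsIrreducible, GaloisRepIsIrreducible, not_and] at h
  have h' := h hnt
  push Not at h'
  obtain ⟨N, hN, hbot, htop⟩ := h'
  have hN1 : Module.finrank (ZMod 3) N = 1 := by
    have h1 := Submodule.finrank_lt htop
    rw [hfin] at h1
    have h0 : Module.finrank (ZMod 3) N ≠ 0 := fun h0 => hbot (Submodule.finrank_eq_zero.mp h0)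
    omega
  obtain ⟨x, hx0, hx⟩ := finrank_eq_one_iff'.mp hN1
  rcases hP : ((x : TT) : (FrobTrace.barCurve W).Point) with _ | ⟨X', Y', hXY⟩
  · exact absurd (Subtype.ext (Subtype.ext hP)) hx0
  obtain ⟨X, Y, hs, hX, hY⟩ := (toShort W).exists_preimage hXY.left
  have hs' : (crv ((W.c₄ : ℤ) : QQb) ((W.c₆ : ℤ) : QQb)).toAffine.Nonsingular X Y :=
    (toShort W).nonsingular_of_map hs (by rw [hX, hY]; exact hXY)
  set P := Point.some X Y hs' with hPdef
  have hCP : (toShort W).pointMap P = ((x : TT) : (FrobTrace.barCurve W).Point) := by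
    rw [hP, hPdef, LocalEC.PointChange.pointMap_some, Point.some.injEq]
    exact ⟨hX, hY⟩
  have h3 : P + P = -P := by
    apply (toShort W).pointMap_injective
    rw [_root_.map_add, _root_.map_neg, hCP, eq_neg_iff_add_eq_zero]
    have := (Submodule.mem_torsionBy_iff _ _).mp (x : TT).2
    have hz : ∀ z : (FrobTrace.barCurve W).Point, z + z + z = (3 : ℤ) • z := fun z => by abel
    exact (hz _).trans this
  have hfixX : ∀ σ : GG, σ X = X := by
    intro σ
    obtain ⟨c, hc⟩ := hx ⟨σ • (x : TT), hN σ _ x.2⟩
    have hc' : σ • ((x : TT) : (FrobTrace.barCurve W).Point) =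
        ((c • (x : TT) : TT) : (FrobTrace.barCurve W).Point) :=
      congrArg (fun z : N => ((z : TT) : (FrobTrace.barCurve W).Point)) hc.symm
    have hmap := (toShort_smul W σ P).symm.trans ((congrArg (σ • ·) hCP).trans hc')
    rcases zmod_three_cases c with rfl | rfl | rfl
    · rw [zero_smul, ZeroMemClass.coe_zero] at hc'
      exact absurd (hP.symm.trans ((smul_eq_zero_iff_eq σ).mp hc')) (Point.some_ne_zero hXY)
    · rw [one_smul, ← hCP] at hmap
      have := (toShort W).pointMap_injective hmap
      simp only [hPdef, mapPt, AddMonoidHom.coe_mk, ZeroHom.coe_mk, Point.some.injEq] at this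
      exact this.1
    · rw [neg_one_smul, NegMemClass.coe_neg, ← hCP, ← _root_.map_neg] at hmap
      have := (toShort W).pointMap_injective hmap
      simp only [hPdef, mapPt, AddMonoidHom.coe_mk, ZeroHom.coe_mk, Point.neg_some,
        Point.some.injEq] at this
      exact this.1
  obtain ⟨r, hr⟩ := (InfiniteGalois.mem_range_algebraMap_iff_fixed X).mpr hfixX
  have hroot := psi3_of_order_three hs' h3
  have hq : psi3 (-27 * (W.c₄ : ℚ)) (-54 * (W.c₆ : ℚ)) (3 * r) = 0 := by
    apply (algebraMap ℚ QQb).injective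
    rw [map_psi3, _root_.map_zero]
    simpa [← hr] using hroot
  set P0 : ℤ[X] := psi3 (C (-27 * W.c₄)) (C (-54 * W.c₆)) Polynomial.X with hP0
  have hmon : P0.Monic := by
    have e : P0 = Polynomial.X ^ (3 + 1) + (C (18 * (-27 * W.c₄)) * Polynomial.X ^ 2 +
        C (108 * (-54 * W.c₆)) * Polynomial.X - C (27 * (-27 * W.c₄) ^ 2)) := by
      simp only [hP0, psi3, _root_.map_mul, map_pow, map_ofNat]; ring
    rw [e]
    refine monic_X_pow_add (lt_of_le_of_lt degree_le_natDegree (Nat.cast_lt.mpr (Nat.lt_succ_of_le ?_)))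
    compute_degree <;> omega
  have hint : _root_.IsIntegral ℤ (3 * r) := ⟨P0, hmon, by
    rw [hP0, ← coe_eval₂RingHom, map_psi3]
    simp only [coe_eval₂RingHom, eval₂_C, eval₂_X]
    simpa using hq⟩
  obtain ⟨y, hy⟩ := IsIntegrallyClosed.isIntegral_iff.mp hint
  refine ⟨y, (algebraMap ℤ ℚ).injective_int ?_⟩
  rw [map_psi3, hy, _root_.map_zero]
  simpa using hq

end FLTAgent.Switch

end
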