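import Fermat.Agent.Switch.IntRoot
import Fermat.Agent.Switch.Three
import Mathlib.NumberTheory.Padics.PadicIntegers
import Mathlib.FieldTheory.IsAlgClosed.AlgebraicClosure

/-!
# The three-five switch
-/

set_option autoImplicit false

noncomputable section

open scoped Classical
open WeierstrassCurve Polynomial

namespace FLTAgent.Switch

/-- A semistable curve has a semistable companion congruent modulo five whose mod three
representation is irreducible. -/
theorem exists_switch (W : WeierstrassCurve ℤ) (hΔ : W.Δ ≠ 0) (hW : W.IsSemistableModel) :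
    ∃ W' : WeierstrassCurve ℤ, W'.Δ ≠ 0 ∧ W'.IsSemistableModel ∧ W'.ModRepIsIrreducible 3 ∧
      ∀ ℓ : ℕ, ℓ.Prime → W.IsGoodPrimeFor ℓ → W'.IsGoodPrimeFor ℓ → ℓ ≠ 5 →
        (5 : ℤ) ∣ (W'.apOfModel ℓ - W.apOfModel ℓ) := by
  obtain ⟨A, B, N, a, b, hN, hfam, hab, h0, hmod⟩ := exists_models hΔ hW
  have hNq : (N : ℚ) ≠ 0 := Int.cast_ne_zero.mpr hN
  have hmap : ∀ (c : ℤ[X]) (P : ℚ[X]),
      (∀ m : ℤ, ((c.eval m : ℤ) : ℚ) = P.eval ((N * m : ℤ) : ℚ)) →
      c.map (Int.castRingHom ℚ) = P.comp (C (N : ℚ) * Polynomial.X) := by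
    intro c P h
    refine Polynomial.eq_of_infinite_eval_eq _ _
      ((Set.infinite_range_of_injective (Int.cast_injective (α := ℚ))).mono ?_)
    rintro _ ⟨m, rfl⟩
    show _ = _
    rw [← eq_intCast (Int.castRingHom ℚ) m, eval_map_apply, eval_comp, eval_mul, eval_C, eval_X]
    simpa using h m
  have ha := hmap a A fun m => (hab m).1
  have hb := hmap b B fun m => (hab m).2
  have hdeg : ∀ (c : ℤ[X]) (P : ℚ[X]),
      c.map (Int.castRingHom ℚ) = P.comp (C (N : ℚ) * Polynomial.X) →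
      c.natDegree ≤ P.natDegree := fun c P h => by
    rw [← natDegree_map_eq_of_injective (Int.castRingHom ℚ).injective_int c, h, natDegree_comp,
      natDegree_C_mul hNq, natDegree_X, mul_one]
  have hB30 : B.natDegree ≤ 30 := by
    obtain ⟨F, hF, -, hcard, -⟩ := hfam.disc
    have hD : (A ^ 3 - B ^ 2).natDegree ≤ 60 := by
      rw [← natDegree_map_eq_of_injective (algebraMap ℚ (AlgebraicClosure ℚ)).injective, hF]
      refine (natDegree_C_mul_le _ _).trans ((natDegree_pow_le_of_le 5 (m := 12) ?_).trans le_rfl)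
      rw [← hcard, (IsAlgClosed.splits F).natDegree_eq_card_roots]
    have hB2 : (B ^ 2).natDegree ≤ 60 := by
      rw [show B ^ 2 = A ^ 3 - (A ^ 3 - B ^ 2) by ring]
      exact (natDegree_sub_le _ _).trans
        (max_le ((natDegree_pow_le_of_le 3 hfam.degA).trans le_rfl) hD)
    rw [natDegree_pow] at hB2
    omega
  have hD0 : A ^ 3 - B ^ 2 ≠ 0 := hfam.disc_ne
  set aa : ℤ[X] := C (-27) * a with haa
  set bb : ℤ[X] := C (-54) * b with hbb
  have hP : ∀ (p : ℕ) [Fact p.Prime] (P : ℤ_[p][X]),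
      psi3 (aa.map (Int.castRingHom ℤ_[p])) (bb.map (Int.castRingHom ℤ_[p])) P ≠ 0 := by
    intro p _ P hPz
    set K := AlgebraicClosure ℚ_[p]
    set ι : ℤ_[p] →+* K := (algebraMap ℚ_[p] K).comp PadicInt.Coe.ringHom
    set φ : ℤ_[p][X] →+* K[X] :=
      (compRingHom (C ((N : K)⁻¹) * Polynomial.X)).comp (mapRingHom ι)
    have key : ∀ (c : ℤ[X]) (P : ℚ[X]),
        c.map (Int.castRingHom ℚ) = P.comp (C (N : ℚ) * Polynomial.X) →
        φ (c.map (Int.castRingHom ℤ_[p])) = P.map (algebraMap ℚ K) := by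
      intro c P h
      have e : (c.map (Int.castRingHom ℤ_[p])).map ι =
          (c.map (Int.castRingHom ℚ)).map (algebraMap ℚ K) := by
        rw [Polynomial.map_map, Polynomial.map_map]
        exact congrArg (Polynomial.map · c) (RingHom.ext_int _ _)
      have hNK : (N : K) ≠ 0 := Int.cast_ne_zero.mpr hN
      simp only [φ, RingHom.comp_apply, coe_mapRingHom, coe_compRingHom_apply, e, h,
        Polynomial.map_comp, comp_assoc]
      simp only [Polynomial.map_mul, map_C, map_X, eq_ratCast, Rat.cast_intCast]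
      rw [mul_comp, C_comp, X_comp, ← mul_assoc, ← map_mul, mul_inv_cancel₀ hNK, map_one, one_mul,
        comp_X]
    have h1 := congrArg φ hPz
    rw [map_psi3, map_zero, haa, hbb, Polynomial.map_mul, Polynomial.map_mul, map_C, map_C,
      map_mul, map_mul, key a A ha, key b B hb] at h1
    refine psi3_ne_zero hfam (K := K) (φ P) ?_
    simpa [φ, map_ofNat] using h1
  obtain ⟨M, hM⟩ : ∃ M : ℕ, ∀ m : ℕ, M < m →
      A.eval ((N * m : ℤ) : ℚ) ^ 3 - B.eval ((N * m : ℤ) : ℚ) ^ 2 ≠ 0 := by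
    have hfin : Set.Finite {m : ℕ | (A ^ 3 - B ^ 2).IsRoot ((N * m : ℤ) : ℚ)} :=
      (finite_setOfPred_isRoot hD0).preimage
        (fun x _ y _ hxy => by simpa [hN] using hxy)
    obtain ⟨M, hM⟩ := hfin.bddAbove
    refine ⟨M, fun m hm h => absurd (hM ?_) (not_le.mpr hm)⟩
    simpa [IsRoot.def] using h
  have hD : 4 * aa.eval 0 ^ 3 + 27 * bb.eval 0 ^ 2 ≠ 0 := by
    simp only [haa, hbb, eval_mul, eval_C]
    intro h
    exact h0 (mul_left_cancel₀ (show (-78732 : ℤ) ≠ 0 by norm_num) (by linear_combination h))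
  obtain ⟨m, hm, hroot⟩ := exists_no_root aa bb
    ((natDegree_C_mul_le _ _).trans ((hdeg a A ha).trans hfam.degA))
    ((natDegree_C_mul_le _ _).trans ((hdeg b B hb).trans hB30)) hD hP M
  obtain ⟨W', hW', hss, h4, h6, hcong⟩ := hmod m (hM m hm)
  refine ⟨W', hW', hss, ?_, hcong⟩
  by_contra hirr
  obtain ⟨y, hy⟩ := exists_root_of_not_irreducible W' hW' hirr
  refine hroot y ?_
  rw [← (hab m).1, Int.cast_inj] at h4
  rw [← (hab m).2, Int.cast_inj] at h6
  simpa [haa, hbb, ← h4, ← h6] using hy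

end FLTAgent.Switch

end
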