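import Fermat.Agent.Switch.Twist
import Fermat.Agent.Frobenius.Exists
import Mathlib.RingTheory.Localization.Integral

/-!
# Semistable members of the family
-/

set_option autoImplicit false
set_option linter.style.haveILetI false

noncomputable section

open scoped Classical
open WeierstrassCurve WeierstrassCurve.Affine.Point Polynomial

namespace FLTAgent.Switch

local notation "QQb" => AlgebraicClosure ℚ
local notation "GG" => (AlgebraicClosure ℚ ≃ₐ[ℚ] AlgebraicClosure ℚ)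

/-- The facts about a family used by the irreducibility argument. -/
structure FamilyData (A B : ℚ[X]) : Prop where
  degA : A.natDegree ≤ 20
  disc : ∃ F : QQb[X], (A ^ 3 - B ^ 2).map (algebraMap ℚ QQb) = C 1728 * F ^ 5 ∧
    F.roots.Nodup ∧ Multiset.card F.roots = 12 ∧
      ∀ x, F.eval x = 0 → (A.map (algebraMap ℚ QQb)).eval x ≠ 0

theorem FamilyData.isCoprime {A B : ℚ[X]} (h : FamilyData A B) :
    IsCoprime A (A ^ 3 - B ^ 2) := by
  obtain ⟨F, hF, -, -, hx⟩ := h.disc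
  rw [isCoprime_iff_aeval_ne_zero_of_isAlgClosed ℚ QQb]
  intro x
  by_contra hcon
  rw [not_or, not_not, not_not] at hcon
  obtain ⟨h1, h2⟩ := hcon
  rw [aeval_def, ← eval_map] at h1 h2
  rw [hF, eval_mul, eval_C, eval_pow, mul_eq_zero, or_iff_right (by norm_num)] at h2
  exact hx x (pow_eq_zero_iff (by norm_num) |>.mp h2) h1

theorem FamilyData.disc_ne {A B : ℚ[X]} (h : FamilyData A B) : A ^ 3 - B ^ 2 ≠ 0 := by
  obtain ⟨F, hF, -, hc, -⟩ := h.disc
  intro h0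
  rw [h0, Polynomial.map_zero, eq_comm, mul_eq_zero, C_eq_zero,
    or_iff_right (by norm_num), pow_eq_zero_iff (by norm_num)] at hF
  simp [hF] at hc

/-- Clearing denominators. -/
theorem exists_int_multiple (A : ℚ[X]) :
    ∃ (d : ℤ) (P : ℤ[X]), d ≠ 0 ∧ ∀ n : ℤ, ((P.eval n : ℤ) : ℚ) = d * A.eval (n : ℚ) := by
  obtain ⟨b, hb0, hb⟩ := IsLocalization.integerNormalization_spec (nonZeroDivisors ℤ) A
  refine ⟨b, IsLocalization.integerNormalization (nonZeroDivisors ℤ) A,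
    nonZeroDivisors.ne_zero hb0, fun n => ?_⟩
  have := eval_map_apply (f := algebraMap ℤ ℚ) (p := IsLocalization.integerNormalization
    (nonZeroDivisors ℤ) A) n
  rw [show (IsLocalization.integerNormalization (nonZeroDivisors ℤ) A).map (algebraMap ℤ ℚ) =
    C (b : ℚ) * A from ?_] at this
  · simpa using this.symm
  · rw [hb, zsmul_eq_mul, C_eq_intCast]

/-- An integral polynomial interpolating along an arithmetic progression. -/
theorem exists_model (A : ℚ[X]) (a₀ : ℤ) (h0 : A.eval 0 = a₀) :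
    ∃ (d : ℤ) (P : ℤ[X]), d ≠ 0 ∧ P.eval 0 = a₀ ∧
      ∀ n : ℤ, ((P.eval n : ℤ) : ℚ) = A.eval ((d * n : ℤ) : ℚ) := by
  obtain ⟨d, P, hd, hP⟩ := exists_int_multiple A
  obtain ⟨Q, hQ⟩ : X ∣ P - C (P.eval 0) := X_dvd_iff.mpr (by simp [coeff_zero_eq_eval_zero])
  refine ⟨d, C a₀ + X * Q.comp (C d * X), hd, by simp, fun n => ?_⟩
  apply mul_left_cancel₀ (Int.cast_ne_zero.mpr hd : (d : ℚ) ≠ 0)
  have e1 := congrArg (eval (d * n)) hQ
  simp only [eval_sub, eval_C, eval_mul, eval_X] at e1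
  have e1' : ((P.eval (d * n) : ℤ) : ℚ) - (P.eval 0 : ℤ) =
      ((d * n : ℤ) : ℚ) * (Q.eval (d * n) : ℤ) := by
    exact_mod_cast e1
  rw [hP, hP, Int.cast_zero, h0] at e1'
  simp only [eval_add, eval_C, eval_mul, eval_X, eval_comp]
  push_cast at e1' ⊢
  linear_combination -e1'

variable {W : WeierstrassCurve ℤ}

theorem c₄_ne_zero (hW : W.IsSemistableModel) : W.c₄ ≠ 0 := by
  intro h
  have h1 : W.Δ.natAbs = 1 := by
    by_contra hne
    obtain ⟨p, hp, hdvd⟩ := Nat.exists_prime_and_dvd hne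
    exact hW p hp (Int.natCast_dvd.mpr hdvd) (h ▸ dvd_zero _)
  have hr := W.c_relation
  rw [h] at hr
  have hlt : -2 ^ 2 * 432 ≤ -(W.c₆ ^ 2) := by
    rcases Int.natAbs_eq W.Δ with he | he <;> rw [he, h1] at hr <;> push_cast at hr <;> linarith
  have hb : W.c₆ ^ 2 = 1728 := by
    rcases Int.natAbs_eq W.Δ with he | he <;> rw [he, h1] at hr <;> push_cast at hr
    · nlinarith [sq_nonneg W.c₆]
    · linarith
  have h1' : W.c₆.natAbs ^ 2 = 1728 := by
    zify; rw [sq_abs]; exact hb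
  have : W.c₆.natAbs ≤ 42 := by nlinarith
  interval_cases W.c₆.natAbs <;> simp_all

theorem c₆_ne_zero (hW : W.IsSemistableModel) : W.c₆ ≠ 0 := by
  intro h
  have hr := W.c_relation
  rw [h] at hr
  have h1 : W.Δ.natAbs = 1 := by
    by_contra hne
    obtain ⟨p, hp, hdvd⟩ := Nat.exists_prime_and_dvd hne
    refine hW p hp (Int.natCast_dvd.mpr hdvd) ((Nat.prime_iff_prime_int.mp hp).dvd_of_dvd_pow
      (n := 3) ?_)
    rw [show W.c₄ ^ 3 = 1728 * W.Δ by linear_combination -hr]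
    exact dvd_mul_of_dvd_right (Int.natCast_dvd.mpr hdvd) _
  have hc : W.c₄ ^ 3 = 12 ^ 3 ∨ W.c₄ ^ 3 = (-12) ^ 3 := by
    rcases Int.natAbs_eq W.Δ with he | he <;> rw [he, h1] at hr <;> push_cast at hr
    · left; linarith
    · right; linarith
  have hodd : Odd 3 := ⟨1, rfl⟩
  have hc' : W.c₄ = 12 ∨ W.c₄ = -12 :=
    hc.imp (fun h => hodd.strictMono_pow.injective h) (fun h => hodd.strictMono_pow.injective h)
  have hev : (2 : ℤ) ∣ W.a₁ := by
    have h12 : ((W.c₄ : ℤ) : ZMod 2) = 0 := by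
      rcases hc' with h | h <;> rw [h] <;> decide
    simp only [WeierstrassCurve.c₄, WeierstrassCurve.b₂, WeierstrassCurve.b₄] at h12
    push_cast at h12
    have key : ∀ x : ZMod 2, (x ^ 2 + 4 * (W.a₂ : ZMod 2)) ^ 2 -
        24 * (2 * (W.a₄ : ZMod 2) + x * (W.a₃ : ZMod 2)) = 0 → x = 0 := by
      intro x hx
      simp only [show (4 : ZMod 2) = 0 by decide, show (24 : ZMod 2) = 0 by decide, zero_mul,
        add_zero, sub_zero, ← pow_mul] at hx
      exact pow_eq_zero_iff (by norm_num) |>.mp hx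
    exact (ZMod.intCast_zmod_eq_zero_iff_dvd _ 2).mp (key _ h12)
  obtain ⟨c, hc1⟩ := hev
  have h16 : (16 : ℤ) ∣ W.c₄ := ⟨(c ^ 2 + W.a₂) ^ 2 - 3 * (W.a₄ + c * W.a₃), by
    simp only [WeierstrassCurve.c₄, WeierstrassCurve.b₂, WeierstrassCurve.b₄, hc1]; ring⟩
  omega

/-- Semistable members of the family, congruent to `W` modulo five. -/
theorem exists_models (hΔ : W.Δ ≠ 0) (hW : W.IsSemistableModel) :
    ∃ (A B : ℚ[X]) (N : ℤ) (a b : ℤ[X]), N ≠ 0 ∧ FamilyData A B ∧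
      (∀ m : ℤ, ((a.eval m : ℤ) : ℚ) = A.eval ((N * m : ℤ) : ℚ) ∧
        ((b.eval m : ℤ) : ℚ) = B.eval ((N * m : ℤ) : ℚ)) ∧
      a.eval 0 ^ 3 - b.eval 0 ^ 2 ≠ 0 ∧ ∀ m : ℤ,
      A.eval ((N * m : ℤ) : ℚ) ^ 3 - B.eval ((N * m : ℤ) : ℚ) ^ 2 ≠ 0 →
      ∃ W' : WeierstrassCurve ℤ, W'.Δ ≠ 0 ∧ W'.IsSemistableModel ∧
        (W'.c₄ : ℚ) = A.eval ((N * m : ℤ) : ℚ) ∧ (W'.c₆ : ℚ) = B.eval ((N * m : ℤ) : ℚ) ∧
        ∀ ℓ : ℕ, ℓ.Prime → W.IsGoodPrimeFor ℓ → W'.IsGoodPrimeFor ℓ → ℓ ≠ 5 →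
          (5 : ℤ) ∣ (W'.apOfModel ℓ - W.apOfModel ℓ) := by
  obtain ⟨A, B, F, hA0, hB0, hdeg, hF, hnd, hcard, hco, htr⟩ :=
    exists_twist hΔ (c₄_ne_zero hW) (c₆_ne_zero hW)
  have hfam : FamilyData A B := ⟨hdeg, F, hF, hnd, hcard, hco⟩
  obtain ⟨U, V', hUV⟩ := hfam.isCoprime
  obtain ⟨du, PU, hdu, hPU⟩ := exists_int_multiple U
  obtain ⟨dv, PV, hdv, hPV⟩ := exists_int_multiple V'
  obtain ⟨dA, PA, hdA, hPA0, hPA⟩ := exists_model A W.c₄ hA0
  obtain ⟨dB, PB, hdB, hPB0, hPB⟩ := exists_model B W.c₆ hB0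
  set S : ℤ := W.Δ * (du * dv) with hS
  have hS0 : S ≠ 0 := mul_ne_zero hΔ (mul_ne_zero hdu hdv)
  set M : ℤ := 48 * 864 * S with hM
  refine ⟨A, B, dA * dB * M, PA.comp (C (dB * M) * X), PB.comp (C (dA * M) * X),
    mul_ne_zero (mul_ne_zero hdA hdB) (mul_ne_zero (by norm_num) hS0),
    hfam, fun m => ⟨?_, ?_⟩, ?_, fun m hm => ?_⟩
  · rw [eval_comp, eval_mul, eval_C, eval_X, hPA, show dA * (dB * M * m) = dA * dB * M * m by ring]
  · rw [eval_comp, eval_mul, eval_C, eval_X, hPB, show dB * (dA * M * m) = dA * dB * M * m by ring]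
  · simp only [eval_comp, eval_mul, eval_C, eval_X, mul_zero, hPA0, hPB0]
    rw [← W.c_relation]
    exact mul_ne_zero (by norm_num) hΔ
  obtain ⟨a, ha'⟩ : (M : ℤ) ∣ PA.eval (dB * M * m) - W.c₄ := by
    rw [← hPA0]
    exact dvd_trans ((Dvd.intro_left dB rfl).mul_right m)
      (by simpa using sub_dvd_eval_sub (dB * M * m) 0 PA)
  obtain ⟨b, hb'⟩ : (M : ℤ) ∣ PB.eval (dA * M * m) - W.c₆ := by
    rw [← hPB0]
    exact dvd_trans ((Dvd.intro_left dA rfl).mul_right m)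
      (by simpa using sub_dvd_eval_sub (dA * M * m) 0 PB)
  have ha : A.eval ((dA * dB * M * m : ℤ) : ℚ) = W.c₄ + M * a := by
    rw [show dA * dB * M * m = dA * (dB * M * m) by ring, ← hPA, eq_add_of_sub_eq' ha']
    push_cast; ring
  have hb : B.eval ((dA * dB * M * m : ℤ) : ℚ) = W.c₆ + M * b := by
    rw [show dA * dB * M * m = dB * (dA * M * m) by ring, ← hPB, eq_add_of_sub_eq' hb']
    push_cast; ring
  set t : ℤ := dA * dB * M * m
  set δ : ℤ := -(864 * S * a) with hδ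
  set ε : ℤ := -(72 * W.b₂ * S * a) - 48 * S * b with hε
  let W' : WeierstrassCurve ℤ := ⟨W.a₁, W.a₂, W.a₃, W.a₄ + δ, W.a₆ + ε⟩
  have e4 : W'.c₄ = W.c₄ + M * a := by
    simp only [W', WeierstrassCurve.c₄, WeierstrassCurve.b₂, WeierstrassCurve.b₄, hM, hδ]; ring
  have e6 : W'.c₆ = W.c₆ + M * b := by
    simp only [W', WeierstrassCurve.c₆, WeierstrassCurve.b₂, WeierstrassCurve.b₄,
      WeierstrassCurve.b₆, hM, hδ, hε]
    ring
  have h4 : (W'.c₄ : ℚ) = A.eval (t : ℚ) := by rw [e4, ha]; push_cast; ring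
  have h6 : (W'.c₆ : ℚ) = B.eval (t : ℚ) := by rw [e6, hb]; push_cast; ring
  have hrel : (1728 : ℚ) * (W'.Δ : ℚ) = A.eval (t : ℚ) ^ 3 - B.eval (t : ℚ) ^ 2 := by
    rw [← h4, ← h6]; exact_mod_cast W'.c_relation
  have hΔ' : W'.Δ ≠ 0 := fun h0 => hm (by rw [← hrel, h0]; simp)
  refine ⟨W', hΔ', ?_, h4, h6, ?_⟩
  · intro p hp hpΔ hpc
    have hbez : ((PU.eval t * W'.c₄ * dv + PV.eval t * (1728 * W'.Δ) * du : ℤ) : ℚ) =
        ((du * dv : ℤ) : ℚ) := by
      have := congrArg (eval (t : ℚ)) hUV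
      simp only [eval_add, eval_mul, eval_sub, eval_pow, eval_one] at this
      push_cast
      rw [hPU, hPV, h4, hrel]
      linear_combination ((du : ℚ) * dv) * this
    have hpS : (p : ℤ) ∣ S := by
      refine dvd_mul_of_dvd_right ?_ _
      rw [← Int.cast_injective hbez]
      exact dvd_add (dvd_mul_of_dvd_left (dvd_mul_of_dvd_right hpc _) _)
        (dvd_mul_of_dvd_left (dvd_mul_of_dvd_right (dvd_mul_of_dvd_right hpΔ _) _) _)
    have hz : (S : ZMod p) = 0 := (ZMod.intCast_zmod_eq_zero_iff_dvd _ _).mpr hpS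
    have hmap : W'.map (Int.castRingHom (ZMod p)) = W.map (Int.castRingHom (ZMod p)) := by
      ext <;> simp [W', hδ, hε, hz]
    have eΔ : (W'.Δ : ZMod p) = (W.Δ : ZMod p) := by
      simpa using congrArg WeierstrassCurve.Δ hmap
    have ec : (W'.c₄ : ZMod p) = (W.c₄ : ZMod p) := by
      simpa using congrArg WeierstrassCurve.c₄ hmap
    rw [← ZMod.intCast_zmod_eq_zero_iff_dvd] at hpΔ hpc
    rw [eΔ, ZMod.intCast_zmod_eq_zero_iff_dvd] at hpΔ
    rw [ec, ZMod.intCast_zmod_eq_zero_iff_dvd] at hpc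
    exact hW p hp hpΔ hpc
  · intro ℓ hℓ hg hg' hne
    haveI : Fact ℓ.Prime := ⟨hℓ⟩
    haveI : Fact (Nat.Prime 5) := ⟨by norm_num⟩
    obtain ⟨V, hV⟩ := Frobenius.exists_liesOverPrime ℓ hℓ
    obtain ⟨τ, hτ⟩ := Frobenius.exists_isFrobeniusAt V ℓ hℓ hV
    have := htr (t : ℚ) W' hΔ' h4 h6 τ
    rw [(FrobTrace.trace_det_frobenius hg' (Ne.symm hne) hV hτ).1,
      (FrobTrace.trace_det_frobenius hg (Ne.symm hne) hV hτ).1,
      ZMod.intCast_eq_intCast_iff_dvd_sub] at this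
    have h' := (dvd_neg).mpr this
    simpa using h'

end FLTAgent.Switch

end
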