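import Fermat.Agent.Switch.Level
import Mathlib.Algebra.Field.ZMod

/-!
# The level five basis attached to a parameter
-/

set_option autoImplicit false

namespace FLTAgent.Switch

open WeierstrassCurve

variable {k : Type*} [Field k] [CharZero k] [DecidableEq k] {H T u v e : k}

namespace IsLev

/-- The distinguished point translated by `e ^ j`. -/
def trans (h : IsLev H T u v) (he : e ^ 5 = 1) (j : ℕ) : (crv H T).toAffine.Point :=
  (h.scale (e := e ^ j) (by rw [← pow_mul, mul_comm, pow_mul, he, one_pow])).par.pt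

omit [DecidableEq k] in
theorem trans_congr (h : IsLev H T u v) (he : e ^ 5 = 1) (j : ℕ) {B C : k}
    (hp : IsPar H T B C) (hB : bB (e ^ j * u) v = B) (hC : bC (e ^ j * u) v = C) :
    h.trans he j = hp.pt :=
  IsPar.pt_congr _ hp hB hC

omit [DecidableEq k] in
theorem trans_zero (h : IsLev H T u v) (he : e ^ 5 = 1) : h.trans he 0 = h.par.pt :=
  h.trans_congr he 0 h.par (by rw [pow_zero, one_mul]) (by rw [pow_zero, one_mul])

theorem five_zsmul_trans (h : IsLev H T u v) (he : e ^ 5 = 1) (j : ℕ) :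
    (5 : ℤ) • h.trans he j = 0 :=
  IsPar.five_zsmul_pt _

theorem trans_add_trans (h : IsLev H T u v) (he : IsPrimitiveRoot e 5) (j : ℕ) :
    h.trans he.pow_eq_one (j + 2) + h.trans he.pow_eq_one j =
      h.trans he.pow_eq_one (j + 1) + h.trans he.pow_eq_one (j + 1) := by
  have h5 := he.pow_eq_one
  have hw : (e ^ (j + 1)) ^ 5 = 1 := by rw [← pow_mul, mul_comm, pow_mul, h5, one_pow]
  have h' := h.scale hw
  have key := h'.pt_translates he
  rw [h.trans_congr h5 (j + 1) h'.par rfl rfl, IsPar.pt_add_self, ← key]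
  obtain ⟨a, b, c⟩ := pow_facts h5
  congr 1
  · refine h.trans_congr h5 (j + 2) _ ?_ ?_
    · rw [← bB_scale h5]; congr 1; ring
    · rw [← bC_scale]; congr 1; ring
  · have hu' : e ^ 4 * (e ^ (j + 1) * u) = e ^ j * u := by linear_combination e ^ j * u * h5
    have h45 : (e ^ 4) ^ 5 = 1 := by rw [← pow_mul, mul_comm, pow_mul, h5, one_pow]
    refine h.trans_congr h5 j _ ?_ ?_
    · rw [← hu', bB_scale h45, a, b, c]
    · rw [← hu', bC_scale, a, b, c]

theorem trans_eq (h : IsLev H T u v) (he : IsPrimitiveRoot e 5) (j : ℕ) :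
    h.trans he.pow_eq_one j =
      (1 - j : ℤ) • h.trans he.pow_eq_one 0 + (j : ℤ) • h.trans he.pow_eq_one 1 := by
  induction j using Nat.twoStepInduction with
  | zero => simp
  | one => simp
  | more n ih₀ ih₁ =>
    rw [eq_sub_of_add_eq (h.trans_add_trans he n), ih₀, ih₁]
    simp only [Nat.cast_ofNat, Nat.cast_add, Nat.cast_one]
    module

/-- The homomorphism `ZMod 5 → E` with a given value at `1`. -/
def zhom {A : Type*} [AddCommGroup A] (P : A) (hP : (5 : ℤ) • P = 0) : ZMod 5 →+ A :=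
  ZMod.lift 5 ⟨zmultiplesHom A P, hP⟩

theorem zhom_intCast {A : Type*} [AddCommGroup A] (P : A) (hP : (5 : ℤ) • P = 0) (m : ℤ) :
    zhom P hP (m : ZMod 5) = m • P :=
  ZMod.lift_coe _ _ _

/-- The level five structure attached to a parameter. -/
def lev (h : IsLev H T u v) (he : IsPrimitiveRoot e 5) :
    (Fin 2 → ZMod 5) →+ (crv H T).toAffine.Point :=
  (zhom _ (h.five_zsmul_trans he.pow_eq_one 0)).comp (Pi.evalAddMonoidHom _ 0) +
    (zhom _ (h.five_zsmul_trans he.pow_eq_one 1)).comp (Pi.evalAddMonoidHom _ 1)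

theorem lev_intCast (h : IsLev H T u v) (he : IsPrimitiveRoot e 5) (m n : ℤ) :
    h.lev he ![(m : ZMod 5), (n : ZMod 5)] =
      m • h.trans he.pow_eq_one 0 + n • h.trans he.pow_eq_one 1 := by
  simp [lev, zhom_intCast]

theorem lev_trans (h : IsLev H T u v) (he : IsPrimitiveRoot e 5) (j : ℕ) :
    h.lev he ![1 - (j : ZMod 5), (j : ZMod 5)] = h.trans he.pow_eq_one j := by
  rw [h.trans_eq he j, ← h.lev_intCast he]
  simp

theorem five_zsmul_lev (h : IsLev H T u v) (he : IsPrimitiveRoot e 5) (a : Fin 2 → ZMod 5) :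
    (5 : ℤ) • h.lev he a = 0 := by
  rw [← map_zsmul, show (5 : ℤ) • a = 0 from ?_, map_zero]
  funext i
  rw [Pi.smul_apply, zsmul_eq_mul, show ((5 : ℤ) : ZMod 5) = 0 by decide, zero_mul, Pi.zero_apply]

omit [CharZero k] [DecidableEq k] in
theorem coeff_v (he : IsPrimitiveRoot e 5) (u v : k) :
    bP 1 1 1 1 u v + e * bP e (e ^ 2) (e ^ 3) (e ^ 4) u v +
        e ^ 2 * bP (e ^ 2) (e ^ 4) e (e ^ 3) u v + e ^ 3 * bP (e ^ 3) e (e ^ 4) (e ^ 2) u v +
        e ^ 4 * bP (e ^ 4) (e ^ 3) (e ^ 2) e u v = 15 * (u ^ 4 * v) := by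
  have hc := cyc_of_prim he
  have h5 := he.pow_eq_one
  simp only [bP]
  linear_combination (u ^ 5 + 4 * u ^ 3 * v ^ 2 + 2 * u ^ 2 * v ^ 3 + u * v ^ 4) * hc +
    (12 * u ^ 4 * v + 4 * (e + e ^ 2) * u ^ 3 * v ^ 2 + 2 * (e + e ^ 2) * u ^ 2 * v ^ 3 +
      (e + e ^ 3) * u * v ^ 4) * h5

omit [DecidableEq k] in
/-- All translates of the distinguished point coincide only in the degenerate case. -/
theorem trans_not_const (h : IsLev H T u v) (he : IsPrimitiveRoot e 5) :
    ¬ ∀ j : ℕ, h.trans he.pow_eq_one j = h.trans he.pow_eq_one 0 := by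
  intro hall
  have hB : ∀ j : ℕ, bB (e ^ j * u) v = bB u v := fun j => by
    have := (IsPar.par_of_pt_eq _ _ (hall j)).1
    rwa [pow_zero, one_mul] at this
  have h5 := he.pow_eq_one
  have e0 : bP 1 1 1 1 u v = bB u v := by simp only [bP, bB]; ring
  have e1 : bP e (e ^ 2) (e ^ 3) (e ^ 4) u v = bB u v := by
    rw [← bB_scale h5]; simpa using hB 1
  have key : ∀ j, bB (e ^ j * u) v =
      bP (e ^ j) ((e ^ j) ^ 2) ((e ^ j) ^ 3) ((e ^ j) ^ 4) u v := fun j =>
    bB_scale (by rw [← pow_mul, mul_comm, pow_mul, h5, one_pow]) u v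
  obtain ⟨a, b, c⟩ := pow_facts h5
  have e2 : bP (e ^ 2) (e ^ 4) e (e ^ 3) u v = bB u v := by
    rw [← hB 2, key]; congr 1 <;> rw [← pow_mul]
    · linear_combination -e * h5
    · linear_combination -e ^ 3 * h5
  have e3 : bP (e ^ 3) e (e ^ 4) (e ^ 2) u v = bB u v := by
    rw [← hB 3, key]; congr 1 <;> rw [← pow_mul]
    · linear_combination -e * h5
    · linear_combination -e ^ 4 * h5
    · linear_combination -(e ^ 7 + e ^ 2) * h5
  have e4 : bP (e ^ 4) (e ^ 3) (e ^ 2) e u v = bB u v := by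
    rw [← hB 4, key, a, b, c]
  have := coeff_v he u v
  rw [e0, e1, e2, e3, e4] at this
  refine mul_ne_zero (show (15 : k) ≠ 0 by norm_num)
    (mul_ne_zero (pow_ne_zero 4 h.u_ne) h.v_ne) ?_
  linear_combination bB u v * cyc_of_prim he - this

theorem lev_injective (h : IsLev H T u v) (he : IsPrimitiveRoot e 5) :
    Function.Injective (h.lev he) := by
  have : Fact (Nat.Prime 5) := ⟨by decide⟩
  refine (injective_iff_map_eq_zero _).mpr fun a ha => ?_
  have hne : ∀ j : ℕ, h.trans he.pow_eq_one j ≠ 0 := fun j => IsPar.pt_ne_zero _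
  by_contra hab
  have hscale : ∀ c : ZMod 5, h.lev he (c • a) = 0 := by
    intro c
    obtain ⟨m, rfl⟩ := ZMod.intCast_surjective c
    rw [Int.cast_smul_eq_zsmul, map_zsmul, ha, smul_zero]
  by_cases h01 : a 0 + a 1 = 0
  · have ha1 : a 1 ≠ 0 := fun h1 => hab (funext fun i => by fin_cases i <;> simp_all)
    refine h.trans_not_const he fun j => ?_
    rw [← h.lev_trans he j, ← h.lev_trans he 0, ← sub_eq_zero, ← map_sub,
      ← hscale ((j : ZMod 5) * (a 1)⁻¹)]
    congr 1
    funext i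
    have h0 : a 0 = -a 1 := eq_neg_of_add_eq_zero_left h01
    fin_cases i <;> simp [h0] <;> field_simp
  · refine hne ((a 1) * (a 0 + a 1)⁻¹).val ?_
    rw [← h.lev_trans he, ← hscale ((a 0 + a 1)⁻¹)]
    congr 1
    funext i
    fin_cases i <;> simp [ZMod.natCast_val] <;> field_simp <;> ring

end IsLev

end FLTAgent.Switch
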