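import Fermat.Agent.Switch.Galois5

/-!
# The cocycle of a level structure
-/

set_option autoImplicit false

noncomputable section

open scoped Classical
open WeierstrassCurve Matrix

namespace FLTAgent.Switch

section General

variable {k : Type*} [Field k] [CharZero k] {e : k}

omit [CharZero k] in
theorem sum_pow_mul_bB (he : IsPrimitiveRoot e 5) (u v : k) :
    bP 1 1 1 1 u v + bP e (e ^ 2) (e ^ 3) (e ^ 4) u v + bP (e ^ 2) (e ^ 4) e (e ^ 3) u v +
      bP (e ^ 3) e (e ^ 4) (e ^ 2) u v + bP (e ^ 4) (e ^ 3) (e ^ 2) e u v = 5 * u ^ 5 := by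
  have hc := cyc_of_prim he
  simp only [bP]
  linear_combination (3 * u ^ 4 * v + 4 * u ^ 3 * v ^ 2 + 2 * u ^ 2 * v ^ 3 + u * v ^ 4) * hc

omit [CharZero k] in
theorem bB_translates (he : IsPrimitiveRoot e 5) (u v : k) :
    bP 1 1 1 1 u v = bB (e ^ 0 * u) v ∧ bP e (e ^ 2) (e ^ 3) (e ^ 4) u v = bB (e ^ 1 * u) v ∧
      bP (e ^ 2) (e ^ 4) e (e ^ 3) u v = bB (e ^ 2 * u) v ∧
      bP (e ^ 3) e (e ^ 4) (e ^ 2) u v = bB (e ^ 3 * u) v ∧
      bP (e ^ 4) (e ^ 3) (e ^ 2) e u v = bB (e ^ 4 * u) v := by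
  have h5 := he.pow_eq_one
  have key : ∀ j, bB (e ^ j * u) v =
      bP (e ^ j) ((e ^ j) ^ 2) ((e ^ j) ^ 3) ((e ^ j) ^ 4) u v := fun j =>
    bB_scale (by rw [← pow_mul, mul_comm, pow_mul, h5, one_pow]) u v
  obtain ⟨a, b, c⟩ := IsLev.pow_facts h5
  refine ⟨?_, ?_, ?_, ?_, ?_⟩ <;> rw [key]
  · simp
  · simp
  · congr 1 <;> rw [← pow_mul]
    · linear_combination -e * h5
    · linear_combination -e ^ 3 * h5
  · congr 1 <;> rw [← pow_mul]
    · linear_combination -e * h5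
    · linear_combination -e ^ 4 * h5
    · linear_combination -(e ^ 7 + e ^ 2) * h5
  · rw [a, b, c]

/-- Equal level structures have proportional parameters. -/
theorem eq_smul_of_V_eq (he : IsPrimitiveRoot e 5) {H T : k} {q q' : Fin 2 → k}
    (h : IsLev H T (q 0) (q 1)) (h' : IsLev H T (q' 0) (q' 1))
    (hV : ∀ a, V he q a = V he q' a) : ∃ ζ : k, ζ ^ 5 = 1 ∧ q' = ζ • q := by
  have hp : ∀ j : ℕ, bB (e ^ j * q 0) (q 1) = bB (e ^ j * q' 0) (q' 1) := fun j => by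
    have := hV ![1 - (j : ZMod 5), (j : ZMod 5)]
    rw [V_eq he h, V_eq he h', h.lev_trans, h'.lev_trans] at this
    exact (IsPar.par_of_pt_eq _ _ (coord_injective this)).1
  obtain ⟨a0, a1, a2, a3, a4⟩ := bB_translates he (q 0) (q 1)
  obtain ⟨b0, b1, b2, b3, b4⟩ := bB_translates he (q' 0) (q' 1)
  have hu : q 0 ^ 5 = q' 0 ^ 5 := by
    refine mul_left_cancel₀ (show (5 : k) ≠ 0 by norm_num) ?_
    rw [← sum_pow_mul_bB he _ (q 1), ← sum_pow_mul_bB he _ (q' 1), a0, a1, a2, a3, a4, b0, b1, b2,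
      b3, b4, hp, hp, hp, hp, hp]
  have hv : q 0 ^ 4 * q 1 = q' 0 ^ 4 * q' 1 := by
    refine mul_left_cancel₀ (show (15 : k) ≠ 0 by norm_num) ?_
    rw [← IsLev.coeff_v he, ← IsLev.coeff_v he, a0, a1, a2, a3, a4, b0, b1, b2,
      b3, b4, hp, hp, hp, hp, hp]
  have hu0 := h.u_ne
  have hu0' := h'.u_ne
  refine ⟨q' 0 / q 0, by rw [div_pow, hu, div_self (pow_ne_zero 5 hu0')], funext ?_⟩
  have h1 : q' 1 = q' 0 / q 0 * q 1 := by
    rw [div_mul_eq_mul_div, eq_div_iff hu0]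
    refine mul_left_cancel₀ (mul_ne_zero (pow_ne_zero 4 hu0') (pow_ne_zero 4 hu0)) ?_
    linear_combination -(q 0 ^ 5) * hv + q 0 ^ 4 * q 1 * hu
  intro i
  fin_cases i
  · simp [hu0]
  · simpa using h1

theorem V_smul (he : IsPrimitiveRoot e 5) {H T ζ : k} (hζ : ζ ^ 5 = 1) {q : Fin 2 → k}
    (h : IsLev H T (q 0) (q 1)) :
    IsLev H T ((ζ • q) 0) ((ζ • q) 1) ∧ ∀ a, V he (ζ • q) a = V he q a := by
  have hz : ζ ≠ 0 := fun h0 => by simp [h0] at hζ
  have h' : IsLev H T ((ζ • q) 0) ((ζ • q) 1) := by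
    simp only [Pi.smul_apply, smul_eq_mul]
    exact ⟨by rw [hh_smul, hζ, one_pow, one_mul, h.h4], by rw [tt_smul, hζ, one_pow, one_mul, h.h6],
      by rw [ff_smul]; exact mul_ne_zero (pow_ne_zero _ hz) h.disc⟩
  refine ⟨h', fun a => ?_⟩
  rw [V_eq he h', V_eq he h]
  congr 1
  have ht : ∀ j, h'.trans he.pow_eq_one j = h.trans he.pow_eq_one j := fun j => by
    refine IsPar.pt_congr _ _ ?_ ?_ <;> simp only [Pi.smul_apply, smul_eq_mul] <;>
      rw [mul_left_comm]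
    · rw [bB_smul, hζ, one_mul]
    · rw [bC_smul, hζ, one_mul]
  obtain ⟨m, hm⟩ := ZMod.intCast_surjective (a 0)
  obtain ⟨n, hn⟩ := ZMod.intCast_surjective (a 1)
  rw [show a = ![(m : ZMod 5), (n : ZMod 5)] by funext i; fin_cases i <;> simp [hm, hn],
    h'.lev_intCast, h.lev_intCast, ht, ht]

theorem Rel.smul {he : IsPrimitiveRoot e 5} {τ : k →+* k} {g : Matrix (Fin 2) (Fin 2) k}
    {M : Matrix (Fin 2) (Fin 2) (ZMod 5)} (r : Rel he τ g M) {ζ : k} (hζ : ζ ^ 5 = 1) :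
    Rel he τ (ζ • g) M := by
  have hz : ζ ≠ 0 := fun h0 => by simp [h0] at hζ
  have key : ∀ q : Fin 2 → k, (ζ • g) *ᵥ (τ ∘ q) = ζ • (g *ᵥ (τ ∘ q)) := fun q =>
    smul_mulVec _ _ _
  have hl := fun q (hq : ff (q 0) (q 1) ≠ 0) =>
    V_smul he hζ (IsLev.mk (r.inv4 q hq) (r.inv6 q hq) (r.good q hq))
  refine ⟨by rw [det_smul]; exact mul_ne_zero (pow_ne_zero _ hz) r.det, fun q hq => ?_,
    fun q hq => ?_, fun q hq => ?_, fun q hq a => ?_⟩
  · rw [key]; exact (hl q hq).1.disc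
  · rw [key]; exact (hl q hq).1.h4
  · rw [key]; exact (hl q hq).1.h6
  · rw [key, (hl q hq).2, r.pts q hq]

/-- A substitution inducing a given permutation is unique once one value is prescribed. -/
theorem Rel.unique {he : IsPrimitiveRoot e 5} {τ : k →+* k} (hτ : Function.Surjective τ)
    {g g' : Matrix (Fin 2) (Fin 2) k} {M M' : Matrix (Fin 2) (Fin 2) (ZMod 5)}
    (r : Rel he τ g M) (r' : Rel he τ g' M') {q₀ : Fin 2 → k} (hq₀ : ff (q₀ 0) (q₀ 1) ≠ 0)
    (h : g *ᵥ (τ ∘ q₀) = q₀) (h' : g' *ᵥ (τ ∘ q₀) = q₀) : M = M' ∧ g = g' := by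
  have hMM : M = M' := by
    refine Matrix.toLin'.injective (LinearMap.ext fun a => ?_)
    simp only [Matrix.toLin'_apply]
    have e1 := r.pts q₀ hq₀ a
    rw [r'.pts q₀ hq₀ a, h, h'] at e1
    have hl : IsLev (hh (q₀ 0) (q₀ 1)) (tt (q₀ 0) (q₀ 1)) (q₀ 0) (q₀ 1) := ⟨rfl, rfl, hq₀⟩
    rw [V_eq he hl, V_eq he hl] at e1
    exact (hl.lev_injective he (coord_injective e1)).symm
  refine ⟨hMM, ?_⟩
  subst hMM
  have hinj : Function.Injective (g'.mulVec) :=
    mulVec_injective_iff_isUnit.mpr ((isUnit_iff_isUnit_det g').mpr (isUnit_iff_ne_zero.mpr r'.det))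
  have key : ∀ x : Fin 2 → k, ff (x 0) (x 1) ≠ 0 → ∃ ζ : k, g *ᵥ x = ζ • (g' *ᵥ x) := by
    intro x hx
    choose q hq using fun i => hτ (x i)
    have hxq : τ ∘ q = x := funext hq
    have hq' : ff (q 0) (q 1) ≠ 0 := fun h0 => hx (by rw [← hq 0, ← hq 1, ← map_ff, h0, map_zero])
    obtain ⟨ζ, -, hζ⟩ := eq_smul_of_V_eq he (q := g' *ᵥ (τ ∘ q)) (q' := g *ᵥ (τ ∘ q))
      (IsLev.mk (r'.inv4 q hq') (r'.inv6 q hq') (r'.good q hq'))
      (IsLev.mk (r.inv4 q hq') (r.inv6 q hq') (r.good q hq')) fun a => by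
        have hdet : ∃ b, M *ᵥ b = a := by
          obtain ⟨b, hb⟩ := (Finite.injective_iff_surjective (f := M.mulVec)).mp (fun b c hbc => by
            have e1 := r.pts q hq' b
            rw [hbc, ← r.pts q hq' c] at e1
            have hl : IsLev (hh (q 0) (q 1)) (tt (q 0) (q 1)) (q 0) (q 1) := ⟨rfl, rfl, hq'⟩
            rw [V_eq he hl, V_eq he hl] at e1
            exact hl.lev_injective he (coord_injective
              (Option.map_injective (τ.injective.prodMap τ.injective) e1))) a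
          exact ⟨b, hb⟩
        obtain ⟨b, rfl⟩ := hdet
        rw [← r.pts q hq', ← r'.pts q hq']
    exact ⟨ζ, by rwa [hxq] at hζ⟩
  obtain ⟨za, ha⟩ := key ![1, 1] (by simp [ff])
  obtain ⟨zb, hb⟩ := key ![1, 2] (by simp [ff]; norm_num)
  obtain ⟨zc, hc⟩ := key ![1, -1] (by simp [ff]; norm_num)
  have h0 : g' *ᵥ ((2 * (zb - za)) • ![1, 2] + (zc - za) • ![1, -1]) = 0 := by
    have lin : (3 : k) • ![(1 : k), 1] = (2 : k) • ![1, 2] + ![1, -1] := by
      funext i; fin_cases i <;> norm_num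
    have e1 := congrArg (g *ᵥ ·) lin
    have e2 := congrArg (g' *ᵥ ·) lin
    simp only [mulVec_add, mulVec_smul, ha, hb, hc] at e1 e2 ⊢
    funext i
    have f1 := congrFun e1 i
    have f2 := congrFun e2 i
    simp only [Pi.add_apply, Pi.smul_apply, smul_eq_mul, Pi.zero_apply] at f1 f2 ⊢
    linear_combination za * f2 - f1
  have h1 := hinj (h0.trans (mulVec_zero g').symm)
  have f0 := congrFun h1 0
  have f1 := congrFun h1 1
  simp at f0 f1
  have hb' : zb = za := by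
    refine mul_left_cancel₀ (show (6 : k) ≠ 0 by norm_num) ?_
    linear_combination f0 + f1
  have hgg : g = za • g' := by
    refine Matrix.toLin'.injective (LinearMap.ext fun x => ?_)
    have hx : x = (2 * x 0 - x 1) • ![(1 : k), 1] + (x 1 - x 0) • ![(1 : k), 2] := by
      funext i; fin_cases i <;> simp <;> ring
    simp only [Matrix.toLin'_apply]
    rw [hx, mulVec_add, mulVec_add, mulVec_smul, mulVec_smul, mulVec_smul, mulVec_smul, ha, hb,
      smul_mulVec, smul_mulVec, hb']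
  have hz : za = 1 := by
    rw [hgg, smul_mulVec, h'] at h
    have := congrFun h 0
    simp only [Pi.smul_apply, smul_eq_mul] at this
    have hu : q₀ 0 ≠ 0 := fun h0 => hq₀ (by simp [h0, ff])
    exact mul_right_cancel₀ hu (by rw [this, one_mul])
  rw [hgg, hz, one_smul]

end General

section Rational

local notation "QQb" => AlgebraicClosure ℚ
local notation "GG" => (AlgebraicClosure ℚ ≃ₐ[ℚ] AlgebraicClosure ℚ)

variable {W : WeierstrassCurve ℤ} {e : QQb} {he : IsPrimitiveRoot e 5}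

/-- The substitution attached to a Galois element. -/
theorem exists_cocycle (hΔ : W.Δ ≠ 0) {q₀ : Fin 2 → QQb}
    (hq : IsLev ((W.c₄ : ℤ) : QQb) ((W.c₆ : ℤ) : QQb) (q₀ 0) (q₀ 1))
    (he : IsPrimitiveRoot e 5) (σ : GG) :
    ∃ (g : Matrix (Fin 2) (Fin 2) QQb) (M : Matrix (Fin 2) (Fin 2) (ZMod 5)),
      Rel he (gal σ) g M ∧ g *ᵥ (gal σ ∘ q₀) = q₀ := by
  obtain ⟨M, hM⟩ := exists_galois_matrix hΔ hq he σ
  have : Fact (Nat.Prime 5) := ⟨by norm_num⟩
  have hroot := galois_root hΔ hq he σ M hM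
  have hd : M.det ≠ 0 := by
    intro h0
    rw [h0, ZMod.val_zero, pow_zero] at hroot
    have := (gal σ).injective (hroot.trans (map_one (gal σ)).symm)
    exact he.ne_one (by norm_num) this
  have r1 := rel_hom he (gal σ) M.det.val hroot
  set D : Matrix (Fin 2) (Fin 2) (ZMod 5) :=
    !![1, 1 - (M.det.val : ZMod 5); 0, (M.det.val : ZMod 5)] with hD
  have hDdet : D.det = M.det := by simp [hD, det_fin_two_of]
  obtain ⟨g, r2⟩ := exists_rel he (M * D⁻¹) (by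
    rw [det_mul, det_nonsing_inv, hDdet, Ring.inverse_eq_inv', mul_inv_cancel₀ hd])
  have r := r1.comp r2
  rw [RingHom.id_comp, mul_assoc, nonsing_inv_mul D (by rw [hDdet]; exact isUnit_iff_ne_zero.mpr hd),
    mul_one, Matrix.map_one _ (_root_.map_zero _) (map_one _), mul_one] at r
  have h' : IsLev ((W.c₄ : ℤ) : QQb) ((W.c₆ : ℤ) : QQb) ((g *ᵥ (gal σ ∘ q₀)) 0)
      ((g *ᵥ (gal σ ∘ q₀)) 1) :=
    ⟨by rw [r.inv4 _ hq.disc, hq.h4, gal_intCast], by rw [r.inv6 _ hq.disc, hq.h6, gal_intCast],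
      r.good _ hq.disc⟩
  obtain ⟨ζ, hζ, hq'⟩ := eq_smul_of_V_eq he h' hq fun a => by
    obtain ⟨b, rfl⟩ : ∃ b, M *ᵥ b = a :=
      ⟨M⁻¹ *ᵥ a, by rw [mulVec_mulVec, mul_nonsing_inv M (isUnit_iff_ne_zero.mpr hd), one_mulVec]⟩
    rw [← r.pts _ hq.disc, hM]
  exact ⟨ζ • g, M, r.smul hζ, by rw [smul_mulVec, ← hq']⟩

end Rational

end FLTAgent.Switch

end
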