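import Fermat.Agent.Switch.Cocycle
import Mathlib.FieldTheory.Galois.Infinite

/-!
# A rational line of level structures
-/

set_option autoImplicit false
set_option linter.style.haveILetI false

noncomputable section

open scoped Classical
open WeierstrassCurve Matrix Polynomial

namespace FLTAgent.Switch

local notation "QQb" => AlgebraicClosure ℚ
local notation "GG" => (AlgebraicClosure ℚ ≃ₐ[ℚ] AlgebraicClosure ℚ)

/-- Every pair of invariants with nonzero `c₄`, `c₆` and discriminant has a Klein parameter. -/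
theorem exists_param {k : Type*} [Field k] [CharZero k] [IsAlgClosed k] {H T : k} (hH : H ≠ 0)
    (hT : T ≠ 0) (hd : H ^ 3 - T ^ 2 ≠ 0) : ∃ q : Fin 2 → k, IsLev H T (q 0) (q 1) := by
  set hX : k[X] := hh X 1
  set tX : k[X] := tt X 1
  set P : k[X] := C (T ^ 2) * hX ^ 3 - C (H ^ 3) * tX ^ 2
  have eh : hX = X ^ 20 + 228 * X ^ 15 + 494 * X ^ 10 - 228 * X ^ 5 + 1 := by
    show hh X 1 = _
    rw [hh_eq]; simp
  have et : tX = -(X ^ 30 - 522 * X ^ 25 - 10005 * X ^ 20 - 10005 * X ^ 10 + 522 * X ^ 5 + 1) := by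
    show tt X 1 = _
    rw [tt_eq]; simp
  have dh : hX.natDegree ≤ 20 := by rw [eh]; compute_degree
  have dt : tX.natDegree ≤ 30 := by rw [et]; compute_degree
  have ch : hX.coeff 20 = 1 := by rw [eh]; simp [coeff_one, coeff_X_pow]
  have ct : tX.coeff 30 = -1 := by rw [et]; simp [coeff_one, coeff_X_pow]
  have hc : P.coeff 60 ≠ 0 := by
    have c1 := coeff_pow_of_natDegree_le (m := 3) dh
    have c2 := coeff_pow_of_natDegree_le (m := 2) dt
    rw [ch] at c1
    rw [ct] at c2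
    simp only [Nat.reduceMul] at c1 c2
    simp only [P, coeff_sub, coeff_C_mul, c1, c2]
    intro h0
    exact hd (by linear_combination -h0)
  have hdeg : P.degree ≠ 0 := fun h0 => hc (coeff_eq_zero_of_degree_lt (by rw [h0]; norm_num))
  obtain ⟨r, hr⟩ := IsAlgClosed.exists_root P hdeg
  set h := hh r (1 : k) with hh'
  set t := tt r (1 : k) with ht'
  have hr' : T ^ 2 * h ^ 3 = H ^ 3 * t ^ 2 := by
    have e1 : hX.eval r = h := by
      show (evalRingHom r) (hh X 1) = _
      rw [map_hh]; simp [hh']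
    have e2 : tX.eval r = t := by
      show (evalRingHom r) (tt X 1) = _
      rw [map_tt]; simp [ht']
    simp only [P, IsRoot.def, eval_sub, eval_mul, eval_C, eval_pow, e1, e2, sub_eq_zero] at hr
    exact hr
  have hrel := hh_tt_relation r (1 : k)
  rw [← hh', ← ht'] at hrel
  have h0 : h ≠ 0 := by
    intro h0
    rw [h0, zero_pow (by norm_num), mul_zero, eq_comm, mul_eq_zero,
      or_iff_right (pow_ne_zero 3 hH)] at hr'
    have hf : ff r (1 : k) = 0 := by
      rw [h0, hr'] at hrel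
      simpa using hrel.symm
    exact one_ne_zero (eq_zero_of_hh_ff h0 hf).2
  have t0 : t ≠ 0 := by
    intro t0
    rw [t0, zero_pow (by norm_num), mul_zero, mul_eq_zero,
      or_iff_right (pow_ne_zero 2 hT)] at hr'
    exact h0 (pow_eq_zero_iff (by norm_num) |>.mp hr')
  have f0 : ff r (1 : k) ≠ 0 := by
    intro f0
    rw [f0, zero_pow (by norm_num), mul_zero, sub_eq_zero] at hrel
    rw [hrel] at hr'
    exact hd (by
      have := mul_right_cancel₀ (pow_ne_zero 2 t0) hr'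
      rw [this, sub_self])
  obtain ⟨l, hl⟩ := IsAlgClosed.exists_pow_nat_eq (T * h / (t * H)) (show 0 < 10 by norm_num)
  have l0 : l ≠ 0 := by
    intro l0
    rw [l0, zero_pow (by norm_num), eq_comm, div_eq_zero_iff] at hl
    rcases hl with hl | hl
    · exact mul_ne_zero hT h0 hl
    · exact mul_ne_zero t0 hH hl
  refine ⟨![l * r, l * 1], ?_, ?_, ?_⟩ <;> simp only [cons_val_zero, cons_val_one]
  · rw [hh_smul, ← hh', show (l ^ 5) ^ 4 = (l ^ 10) ^ 2 by ring, hl, div_pow, div_mul_eq_mul_div,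
      div_eq_iff (pow_ne_zero 2 (mul_ne_zero t0 hH))]
    linear_combination hr'
  · rw [tt_smul, ← ht', show (l ^ 5) ^ 6 = (l ^ 10) ^ 3 by ring, hl, div_pow, div_mul_eq_mul_div,
      div_eq_iff (pow_ne_zero 3 (mul_ne_zero t0 hH))]
    linear_combination T * t * hr'
  · rw [ff_smul]; exact mul_ne_zero (pow_ne_zero _ l0) f0

variable {W : WeierstrassCurve ℤ} {e : QQb} {he : IsPrimitiveRoot e 5}

/-- The semilinear action of a family of substitutions. -/
def act (g : GG → Matrix (Fin 2) (Fin 2) QQb) (σ : GG) (x : Fin 2 → QQb) : Fin 2 → QQb :=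
  g σ *ᵥ (gal σ ∘ x)

/-- A vector fixed by the twisted action and independent from the given one. -/
theorem exists_invariant (g : GG → Matrix (Fin 2) (Fin 2) QQb) (q₀ : Fin 2 → QQb)
    (hq0 : q₀ 0 ≠ 0)
    (L : IntermediateField ℚ QQb) [FiniteDimensional ℚ L]
    (hL : ∀ σ : GG, (∀ x ∈ L, σ x = x) → g σ = 1)
    (hmul : ∀ σ τ, g (σ * τ) = g σ * (g τ).map (gal σ)) :
    ∃ z : Fin 2 → QQb, (∀ σ, act g σ z = z) ∧ q₀ 0 * z 1 - q₀ 1 * z 0 ≠ 0 := by
  haveI : Algebra.IsAlgebraic ℚ QQb := AlgebraicClosure.isAlgebraic ℚ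
  have hext : ∀ φ : L →ₐ[ℚ] QQb, ∃ s : GG, ∀ x : L, s x = φ x := by
    intro φ
    obtain ⟨ψ, hψ⟩ := IntermediateField.exists_algHom_of_splits (K := QQb)
      (fun x => ⟨(Algebra.IsAlgebraic.isAlgebraic x).isIntegral, IsAlgClosed.splits _⟩) φ
    refine ⟨AlgEquiv.ofBijective ψ (Algebra.IsAlgebraic.algHom_bijective ψ), fun x => ?_⟩
    exact congrArg (fun f => f x) hψ
  choose s hs using hext
  have hg : ∀ σ τ : GG, (∀ x : L, σ x = τ x) → g σ = g τ := by
    intro σ τ h
    have h1 : g (σ⁻¹ * τ) = 1 := hL _ fun x hx => by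
      have hh := h ⟨x, hx⟩
      show σ⁻¹ (τ x) = x
      rw [← hh]
      exact σ.symm_apply_apply x
    conv_rhs => rw [← mul_inv_cancel_left σ τ]
    rw [hmul, h1, Matrix.map_one _ (map_zero _) (map_one _), mul_one]
  obtain ⟨w, hw0, hw1, hwσ⟩ : ∃ w : Fin 2 → QQb, w 0 = 0 ∧ w 1 = 1 ∧ ∀ σ, gal σ ∘ w = w :=
    ⟨![0, 1], rfl, rfl, fun σ => funext fun i => by fin_cases i <;> simp⟩
  let z : L → (Fin 2 → QQb) := fun x => ∑ φ : L →ₐ[ℚ] QQb, φ x • (g (s φ) *ᵥ w)
  have hz : ∀ x σ, act g σ (z x) = z x := by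
    intro x σ
    have e1 : act g σ (z x) = ∑ φ : L →ₐ[ℚ] QQb, σ (φ x) • (g (σ * s φ) *ᵥ w) := by
      have hpush : gal σ ∘ z x =
          ∑ φ : L →ₐ[ℚ] QQb, σ (φ x) • (gal σ ∘ (g (s φ) *ᵥ w)) := by
        funext i
        simp only [z, Function.comp_apply, Finset.sum_apply, map_sum, Pi.smul_apply, smul_eq_mul,
          map_mul, gal_apply]
      rw [act, hpush, mulVec_sum]
      refine Finset.sum_congr rfl fun φ _ => ?_
      rw [mulVec_smul, hmul, ← mulVec_mulVec]
      congr 2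
      funext i
      rw [Function.comp_apply, RingHom.map_mulVec, hwσ]
    rw [e1]
    refine Fintype.sum_equiv (AlgEquiv.arrowCongr AlgEquiv.refl σ) _ _ fun φ => ?_
    congr 2
    exact hg _ _ fun y => by
      rw [hs]
      show σ (s φ y) = σ (φ y)
      rw [hs]
  by_contra hcon
  push Not at hcon
  have hzero : ∀ x : L,
      ∑ φ : L →ₐ[ℚ] QQb, (q₀ 0 * (g (s φ) *ᵥ w) 1 - q₀ 1 * (g (s φ) *ᵥ w) 0) * φ x =
        0 := fun x => by
    refine Eq.trans ?_ (hcon (z x) (hz x))
    simp only [z, Finset.sum_apply, Pi.smul_apply, smul_eq_mul, Finset.mul_sum,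
      ← Finset.sum_sub_distrib]
    exact Finset.sum_congr rfl fun φ _ => by ring
  have hli : LinearIndependent QQb (fun φ : L →ₐ[ℚ] QQb => (φ : L → QQb)) :=
    (linearIndependent_monoidHom L QQb).comp (fun φ : L →ₐ[ℚ] QQb => (φ : L →* QQb))
      fun a b h => AlgHom.ext fun x => DFunLike.congr_fun h x
  have := Fintype.linearIndependent_iff.mp hli _ (funext fun x => by
    simp only [Finset.sum_apply, Pi.smul_apply, smul_eq_mul, Pi.zero_apply]; exact hzero x) L.val
  have h1 : g (s L.val) = 1 := hL _ fun x hx => hs L.val ⟨x, hx⟩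
  rw [h1, one_mulVec, hw0, hw1, mul_one, mul_zero, sub_zero] at this
  exact hq0 this

end FLTAgent.Switch

end
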