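import Fermat.Agent.Switch.Klein
import Mathlib.Algebra.CharP.Defs
import Mathlib.Tactic.FieldSimp

/-!
# Identities between Klein's forms at the fifth roots of unity

Translates `bP e ...` of the parameter by a root of unity, the slope of the line joining two
points of the level structure, and the action of the icosahedral substitution `(uU, vU)`.
-/

set_option autoImplicit false

namespace FLTAgent.Switch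

variable {k : Type*} [Field k]

/-- `bB (e * u) v` with the powers of the root of unity `e` as separate arguments. -/
def bP (a b c d u v : k) : k :=
  u ^ 5 + 3 * d * u ^ 4 * v + 4 * c * u ^ 3 * v ^ 2 + 2 * b * u ^ 2 * v ^ 3 + a * u * v ^ 4

/-- `bC (e * u) v` with the powers of the root of unity `e` as separate arguments. -/
def cP (a b c d u v : k) : k :=
  d * u ^ 4 * v - 2 * c * u ^ 3 * v ^ 2 + 4 * b * u ^ 2 * v ^ 3 - 3 * a * u * v ^ 4 + v ^ 5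

theorem bB_scale {e : k} (he : e ^ 5 = 1) (u v : k) :
    bB (e * u) v = bP e (e ^ 2) (e ^ 3) (e ^ 4) u v := by
  simp only [bB, bP]
  linear_combination u ^ 5 * he

theorem bC_scale (e u v : k) :
    bC (e * u) v = cP e (e ^ 2) (e ^ 3) (e ^ 4) u v := by
  simp only [bC, cP]
  ring

/-- Abscissa of the distinguished point. -/
def xx (B C : k) : k := 3 * (B ^ 2 - 6 * B * C + C ^ 2)

/-- Ordinate of the distinguished point. -/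
def yy (B C : k) : k := -108 * B * C ^ 2

/-- Slope of the line through the translates by `e` and `e⁻¹` of the distinguished point. -/
def lineSlope (e u v : k) : k :=
  -3 * u ^ 5 - 6 * u ^ 4 * v - 6 * (1 + e ^ 2 + e ^ 3) * u ^ 3 * v ^ 2 -
    6 * (1 - e ^ 2 - e ^ 3) * u ^ 2 * v ^ 3 + 6 * (1 + e ^ 2 + e ^ 3) * u * v ^ 4 + 3 * v ^ 5

variable {e : k} (u v : k)

theorem pow_five_of_cyc (he : e ^ 4 + e ^ 3 + e ^ 2 + e + 1 = 0) : e ^ 5 = 1 := by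
  linear_combination (e - 1) * he

theorem line_through (he : e ^ 4 + e ^ 3 + e ^ 2 + e + 1 = 0) :
    yy (bP e (e ^ 2) (e ^ 3) (e ^ 4) u v) (cP e (e ^ 2) (e ^ 3) (e ^ 4) u v) - yy (bP (e ^ 4) (e ^ 3) (e ^ 2) e u v) (cP (e ^ 4) (e ^ 3) (e ^ 2) e u v) =
      lineSlope e u v * (xx (bP e (e ^ 2) (e ^ 3) (e ^ 4) u v) (cP e (e ^ 2) (e ^ 3) (e ^ 4) u v) - xx (bP (e ^ 4) (e ^ 3) (e ^ 2) e u v) (cP (e ^ 4) (e ^ 3) (e ^ 2) e u v)) := by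
  simp only [yy, xx, bP, cP, lineSlope]
  linear_combination (
      (-180 * e ^ 4 + 180 * e ^ 3) * u ^ 13 * v ^ 2 +
      (-324 * e ^ 8 + 324 * e ^ 7 - 144 * e ^ 4 + 540 * e ^ 3 - 396 * e ^ 2) * u ^ 12 * v ^ 3 +
      (720 * e ^ 7 - 864 * e ^ 6 + 144 * e ^ 5 - 144 * e ^ 4 + 720 * e ^ 3 - 756 * e ^ 2 + 180 * e) * u ^ 11 * v ^ 4 +
      (144 * e ^ 7 - 1800 * e ^ 6 + 2232 * e ^ 5 - 720 * e ^ 4 + 720 * e ^ 3 - 936 * e ^ 2 + 360 * e) * u ^ 10 * v ^ 5 +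
      (144 * e ^ 7 - 576 * e ^ 6 + 2628 * e ^ 5 - 1980 * e ^ 4 - 72 * e ^ 3 - 864 * e ^ 2 + 720 * e) * u ^ 9 * v ^ 6 +
      (-576 * e ^ 6 - 72 * e ^ 5 - 1728 * e ^ 4 + 1440 * e ^ 3 + 288 * e ^ 2 + 648 * e) * u ^ 8 * v ^ 7 +
      (-1440 * e ^ 5 + 1584 * e ^ 4 + 792 * e ^ 3 - 864 * e ^ 2 - 72 * e) * u ^ 7 * v ^ 8 +
      (144 * e ^ 6 - 2412 * e ^ 5 + 3132 * e ^ 4 - 1800 * e ^ 3 + 288 * e ^ 2 + 648 * e) * u ^ 6 * v ^ 9 +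
      (-504 * e ^ 7 + 1584 * e ^ 6 + 144 * e ^ 5 - 360 * e ^ 4 - 1800 * e ^ 3 + 1440 * e ^ 2 - 504 * e) * u ^ 5 * v ^ 10 +
      (-144 * e ^ 7 + 504 * e ^ 6 - 504 * e ^ 5 - 360 * e ^ 4 + 576 * e ^ 3 - 36 * e ^ 2 - 36 * e) * u ^ 4 * v ^ 11 +
      (972 * e ^ 8 - 468 * e ^ 7 - 504 * e ^ 5 + 504 * e ^ 4 - 252 * e ^ 3 - 36 * e ^ 2 - 216 * e) * u ^ 3 * v ^ 12 +
      (-396 * e ^ 4 + 180 * e ^ 3 + 216 * e) * u ^ 2 * v ^ 13) * he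

theorem line_third_x (he : e ^ 4 + e ^ 3 + e ^ 2 + e + 1 = 0) :
    (xx (-bC u v) (bB u v)) + xx (bP e (e ^ 2) (e ^ 3) (e ^ 4) u v) (cP e (e ^ 2) (e ^ 3) (e ^ 4) u v) + xx (bP (e ^ 4) (e ^ 3) (e ^ 2) e u v) (cP (e ^ 4) (e ^ 3) (e ^ 2) e u v) = lineSlope e u v ^ 2 := by
  simp only [xx, bB, bC, bP, cP, lineSlope]
  linear_combination (
      (-24 * e ^ 4 + 24 * e ^ 3) * u ^ 8 * v ^ 2 +
      (96 * e ^ 3 - 96 * e ^ 2) * u ^ 7 * v ^ 3 +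
      (-24 * e ^ 2 - 48 * e + 108) * u ^ 6 * v ^ 4 +
      (72 * e ^ 2 - 72 * e + 72) * u ^ 5 * v ^ 5 +
      (264 * e ^ 2 - 192 * e + 144) * u ^ 4 * v ^ 6 +
      (-24 * e ^ 3 - 48 * e ^ 2 - 72 * e + 72) * u ^ 3 * v ^ 7 +
      (84 * e ^ 4 - 84 * e ^ 3 - 36 * e ^ 2 - 36 * e + 36) * u ^ 2 * v ^ 8 +
      (-36) * u * v ^ 9) * he

theorem line_third_y (he : e ^ 4 + e ^ 3 + e ^ 2 + e + 1 = 0) :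
    (yy (-bC u v) (bB u v)) + lineSlope e u v * ((xx (-bC u v) (bB u v)) - xx (bP e (e ^ 2) (e ^ 3) (e ^ 4) u v) (cP e (e ^ 2) (e ^ 3) (e ^ 4) u v)) +
      yy (bP e (e ^ 2) (e ^ 3) (e ^ 4) u v) (cP e (e ^ 2) (e ^ 3) (e ^ 4) u v) = 0 := by
  simp only [yy, xx, bB, bC, bP, cP, lineSlope]
  linear_combination (
      (-180 * e ^ 4 + 180 * e ^ 3) * u ^ 13 * v ^ 2 +
      (-324 * e ^ 8 + 324 * e ^ 7 - 144 * e ^ 4 + 540 * e ^ 3 - 396 * e ^ 2) * u ^ 12 * v ^ 3 +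
      (720 * e ^ 7 - 864 * e ^ 6 + 144 * e ^ 5 - 144 * e ^ 4 + 720 * e ^ 3 - 756 * e ^ 2 + 396 * e - 216) * u ^ 11 * v ^ 4 +
      (144 * e ^ 7 - 1800 * e ^ 6 + 2232 * e ^ 5 - 720 * e ^ 4 + 720 * e ^ 3 - 720 * e ^ 2 - 72 * e + 432) * u ^ 10 * v ^ 5 +
      (144 * e ^ 7 - 576 * e ^ 6 + 2628 * e ^ 5 - 1980 * e ^ 4 + 360 * e ^ 3 - 720 * e ^ 2 - 720 * e + 1080) * u ^ 9 * v ^ 6 +
      (-576 * e ^ 6 - 72 * e ^ 5 - 2160 * e ^ 4 + 1800 * e ^ 3 + 1080 * e ^ 2 - 720 * e + 1080) * u ^ 8 * v ^ 7 +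
      (-72 * e ^ 5 + 432 * e ^ 4 + 432 * e ^ 3 + 216 * e ^ 2 - 1440 * e + 1080) * u ^ 7 * v ^ 8 +
      (432 * e ^ 4 - 1080 * e ^ 3 + 1368 * e ^ 2 - 936 * e + 1296) * u ^ 6 * v ^ 9 +
      (-1080 * e ^ 3 + 648 * e ^ 2 - 864 * e + 648) * u ^ 5 * v ^ 10 +
      (648 * e ^ 2 - 432 * e + 216) * u ^ 4 * v ^ 11 +
      (-432 * e + 216) * u ^ 3 * v ^ 12 +
      (216) * u ^ 2 * v ^ 13) * he

/-- First coordinate of five times the icosahedral substitution. -/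
def uU (e u v : k) : k := (1 + 2 * e + 3 * e ^ 2 - e ^ 3) * u + (2 + 4 * e + e ^ 2 + 3 * e ^ 3) * v

/-- Second coordinate of five times the icosahedral substitution. -/
def vU (e u v : k) : k := (2 + 4 * e + e ^ 2 + 3 * e ^ 3) * u - (1 + 2 * e + 3 * e ^ 2 - e ^ 3) * v

theorem bB_U_one (he : e ^ 4 + e ^ 3 + e ^ 2 + e + 1 = 0) :
    bB (e * uU e u v) (vU e u v) = 3125 * (bP (e ^ 4) (e ^ 3) (e ^ 2) e u v) := by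
  simp only [bB, bP, uU, vU]
  linear_combination (
      (-e ^ 16 + 25 * e ^ 15 - 245 * e ^ 14 + 1120 * e ^ 13 - 2215 * e ^ 12 + 1168 * e ^ 11 - 1825 * e ^ 10 + 5090 * e ^ 9 + 8285 * e ^ 8 + 8555 * e ^ 7 + 9817 * e ^ 6 + 1050 * e ^ 5 + 2030 * e ^ 4 + 720 * e ^ 3 + 160 * e ^ 2 + 3141 * e - 3125) * u ^ 5 +
      (15 * e ^ 16 - 295 * e ^ 15 + 2085 * e ^ 14 - 5695 * e ^ 13 + 3465 * e ^ 12 - 1955 * e ^ 11 + 18815 * e ^ 10 + 28580 * e ^ 9 + 27165 * e ^ 8 + 28870 * e ^ 7 + 1190 * e ^ 6 + 3855 * e ^ 5 + 1085 * e ^ 4 + 280 * e ^ 3 + 9415 * e ^ 2 - 9375 * e) * u ^ 4 * v +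
      (-90 * e ^ 16 + 1290 * e ^ 15 - 5570 * e ^ 14 + 4740 * e ^ 13 + 2170 * e ^ 12 + 27140 * e ^ 11 + 37620 * e ^ 10 + 33290 * e ^ 9 + 31870 * e ^ 8 - 4040 * e ^ 7 + 740 * e ^ 6 - 2410 * e ^ 5 - 2470 * e ^ 4 + 11140 * e ^ 3 - 12880 * e ^ 2 - 40 * e) * u ^ 3 * v ^ 2 +
      (270 * e ^ 16 - 2430 * e ^ 15 + 3690 * e ^ 14 + 4470 * e ^ 13 + 19410 * e ^ 12 + 24950 * e ^ 11 + 21160 * e ^ 10 + 17770 * e ^ 9 - 2190 * e ^ 8 - 220 * e ^ 7 + 490 * e ^ 6 + 2020 * e ^ 5 + 8040 * e ^ 4 - 5280 * e ^ 3 + 310 * e ^ 2 + 40 * e) * u ^ 2 * v ^ 3 +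
      (-405 * e ^ 16 + 1485 * e ^ 15 + 2295 * e ^ 14 + 6660 * e ^ 13 + 7805 * e ^ 12 + 5620 * e ^ 11 + 4405 * e ^ 10 - 3540 * e ^ 9 - 1595 * e ^ 8 - 2335 * e ^ 7 - 2325 * e ^ 6 + 1360 * e ^ 5 - 4005 * e ^ 4 - 315 * e ^ 3 - 95 * e ^ 2 - 15 * e) * u * v ^ 4 +
      (243 * e ^ 16 + 405 * e ^ 15 + 945 * e ^ 14 + 945 * e ^ 13 + 885 * e ^ 12 + 341 * e ^ 11 + 65 * e ^ 10 + 10 * e ^ 9 + 385 * e ^ 8 + 730 * e ^ 7 + 664 * e ^ 6 + 405 * e ^ 5 + 170 * e ^ 4 + 45 * e ^ 3 + 10 * e ^ 2 + 2 * e) * v ^ 5) * he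

theorem bC_U_one (he : e ^ 4 + e ^ 3 + e ^ 2 + e + 1 = 0) :
    bC (e * uU e u v) (vU e u v) = 3125 * (cP (e ^ 4) (e ^ 3) (e ^ 2) e u v) := by
  simp only [bC, cP, uU, vU]
  linear_combination (
      (3 * e ^ 15 - 20 * e ^ 14 + 105 * e ^ 13 - 185 * e ^ 12 + 140 * e ^ 11 - 124 * e ^ 10 + 565 * e ^ 9 + 965 * e ^ 8 + 920 * e ^ 7 + 1245 * e ^ 6 + 714 * e ^ 5 + 330 * e ^ 4 + 680 * e ^ 3 + 640 * e ^ 2 + 240 * e + 32) * u ^ 5 +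
      (-35 * e ^ 15 + 170 * e ^ 14 - 565 * e ^ 13 + 130 * e ^ 12 - 445 * e ^ 11 + 1190 * e ^ 10 + 1160 * e ^ 9 + 1180 * e ^ 8 + 465 * e ^ 7 - 4710 * e ^ 6 - 1325 * e ^ 5 - 4705 * e ^ 4 - 5240 * e ^ 3 + 405 * e ^ 2 - 3845 * e - 80) * u ^ 4 * v +
      (150 * e ^ 15 - 440 * e ^ 14 + 730 * e ^ 13 + 890 * e ^ 12 + 3340 * e ^ 11 + 6680 * e ^ 10 + 7180 * e ^ 9 + 7490 * e ^ 8 + 14320 * e ^ 7 + 6320 * e ^ 6 + 14840 * e ^ 5 + 17510 * e ^ 4 + 4780 * e ^ 3 + 10290 * e ^ 2 + 840 * e + 80) * u ^ 3 * v ^ 2 +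
      (-270 * e ^ 15 + 180 * e ^ 14 - 410 * e ^ 13 + 920 * e ^ 12 - 830 * e ^ 11 - 4900 * e ^ 10 - 2310 * e ^ 9 - 22180 * e ^ 8 - 10390 * e ^ 7 - 23440 * e ^ 6 - 29540 * e ^ 5 - 8870 * e ^ 4 - 22160 * e ^ 3 - 2780 * e ^ 2 - 480 * e - 40) * u ^ 2 * v ^ 3 +
      (135 * e ^ 15 + 540 * e ^ 14 + 1245 * e ^ 13 + 1335 * e ^ 12 + 6160 * e ^ 11 + 740 * e ^ 10 + 15895 * e ^ 9 + 7585 * e ^ 8 + 17880 * e ^ 7 + 24455 * e ^ 6 + 10490 * e ^ 5 + 19940 * e ^ 4 + 3795 * e ^ 3 + 910 * e ^ 2 + 135 * e + 10) * u * v ^ 4 +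
      (81 * e ^ 15 - 270 * e ^ 14 + 495 * e ^ 13 - 1890 * e ^ 12 + 835 * e ^ 11 - 4738 * e ^ 10 - 2010 * e ^ 9 - 5440 * e ^ 8 - 7995 * e ^ 7 - 4070 * e ^ 6 - 7467 * e ^ 5 - 1845 * e ^ 4 - 555 * e ^ 3 - 115 * e ^ 2 + 3110 * e - 3126) * v ^ 5) * he

theorem bB_U_two (he : e ^ 4 + e ^ 3 + e ^ 2 + e + 1 = 0) :
    bB (e ^ 2 * uU e u v) (vU e u v) = -3125 * (cP (e ^ 2) (e ^ 4) e (e ^ 3) u v) := by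
  simp only [bB, cP, uU, vU]
  linear_combination (
      (-e ^ 21 + 16 * e ^ 20 - 86 * e ^ 19 + 121 * e ^ 18 + 339 * e ^ 17 - 697 * e ^ 16 - 958 * e ^ 15 + 623 * e ^ 14 + 1052 * e ^ 13 + 3563 * e ^ 12 + 5372 * e ^ 11 + 5643 * e ^ 10 + 5762 * e ^ 9 + 5058 * e ^ 8 + 3832 * e ^ 7 + 2576 * e ^ 6 + 1424 * e ^ 5 + 576 * e ^ 4 + 144 * e ^ 3 + 16 * e ^ 2) * u ^ 5 +
      (15 * e ^ 21 - 190 * e ^ 20 + 720 * e ^ 19 - 290 * e ^ 18 - 2160 * e ^ 17 - 480 * e ^ 16 + 5 * e ^ 15 + 8240 * e ^ 14 + 21580 * e ^ 13 + 21395 * e ^ 12 + 23190 * e ^ 11 + 19785 * e ^ 10 + 8910 * e ^ 9 + 8960 * e ^ 8 + 1640 * e ^ 7 - 600 * e ^ 6 - 600 * e ^ 5 - 3245 * e ^ 4 + 3125 * e ^ 3) * u ^ 4 * v +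
      (-90 * e ^ 21 + 840 * e ^ 20 - 1900 * e ^ 19 - 610 * e ^ 18 - 790 * e ^ 17 + 2690 * e ^ 16 + 24310 * e ^ 15 + 31750 * e ^ 14 + 41710 * e ^ 13 + 38740 * e ^ 12 + 8440 * e ^ 11 + 4510 * e ^ 10 - 4050 * e ^ 9 - 7490 * e ^ 8 + 340 * e ^ 7 - 10290 * e ^ 6 - 2660 * e ^ 5 - 1300 * e ^ 4 - 360 * e ^ 3 + 6210 * e ^ 2 - 6250 * e) * u ^ 3 * v ^ 2 +
      (270 * e ^ 21 - 1620 * e ^ 20 + 1440 * e ^ 19 - 1520 * e ^ 18 + 10220 * e ^ 17 + 20900 * e ^ 16 + 26600 * e ^ 15 + 41580 * e ^ 14 + 13750 * e ^ 13 + 1750 * e ^ 12 - 10410 * e ^ 11 - 24590 * e ^ 10 + 6570 * e ^ 9 - 340 * e ^ 8 + 2740 * e ^ 7 + 3990 * e ^ 6 - 9390 * e ^ 5 + 13910 * e ^ 4 + 360 * e ^ 3 + 40 * e ^ 2) * u ^ 2 * v ^ 3 +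
      (-405 * e ^ 21 + 1080 * e ^ 20 - 270 * e ^ 19 + 7905 * e ^ 18 + 5995 * e ^ 17 + 16095 * e ^ 16 + 11480 * e ^ 15 + 1035 * e ^ 14 - 370 * e ^ 13 - 20155 * e ^ 12 - 5600 * e ^ 11 - 1425 * e ^ 10 + 915 * e ^ 9 + 10600 * e ^ 8 - 9700 * e ^ 7 - 1465 * e ^ 6 - 1260 * e ^ 5 - 555 * e ^ 4 + 9240 * e ^ 3 - 9390 * e ^ 2) * u * v ^ 4 +
      (243 * e ^ 21 + 162 * e ^ 20 + 1728 * e ^ 19 + 522 * e ^ 18 + 3948 * e ^ 17 - 764 * e ^ 16 + 2179 * e ^ 15 - 3404 * e ^ 14 - 2426 * e ^ 13 - 69 * e ^ 12 - 1176 * e ^ 11 + 4981 * e ^ 10 + 599 * e ^ 9 - 114 * e ^ 8 - 6 * e ^ 7 - 2928 * e ^ 6 + 3303 * e ^ 5 + 77 * e ^ 4 + 18 * e ^ 3 + 2 * e ^ 2 - 3125 * e + 3125) * v ^ 5) * he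

theorem bC_U_two (he : e ^ 4 + e ^ 3 + e ^ 2 + e + 1 = 0) :
    bC (e ^ 2 * uU e u v) (vU e u v) = 3125 * (bP (e ^ 2) (e ^ 4) e (e ^ 3) u v) := by
  simp only [bC, bP, uU, vU]
  linear_combination (
      (3 * e ^ 19 - 38 * e ^ 18 + 183 * e ^ 17 - 418 * e ^ 16 + 593 * e ^ 15 - 1089 * e ^ 14 + 1774 * e ^ 13 - 1699 * e ^ 12 + 2524 * e ^ 11 - 1304 * e ^ 10 + 1444 * e ^ 9 + 1116 * e ^ 8 - 976 * e ^ 7 + 1981 * e ^ 6 - 2821 * e ^ 5 + 1392 * e ^ 4 + 1648 * e ^ 3 + 992 * e ^ 2 + 3413 * e - 3093) * u ^ 5 +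
      (-35 * e ^ 19 + 320 * e ^ 18 - 995 * e ^ 17 + 1325 * e ^ 16 - 1950 * e ^ 15 + 3055 * e ^ 14 + 210 * e ^ 13 + 1840 * e ^ 12 + 4180 * e ^ 11 - 2730 * e ^ 10 + 7345 * e ^ 9 - 5505 * e ^ 8 + 3080 * e ^ 7 - 1160 * e ^ 6 - 7240 * e ^ 5 + 135 * e ^ 4 - 15775 * e ^ 3 - 2800 * e ^ 2 - 720 * e - 80) * u ^ 4 * v +
      (150 * e ^ 19 - 820 * e ^ 18 + 1070 * e ^ 17 - 880 * e ^ 16 + 2830 * e ^ 15 + 3750 * e ^ 14 + 770 * e ^ 13 + 8630 * e ^ 12 - 3920 * e ^ 11 + 4220 * e ^ 10 + 2550 * e ^ 9 + 370 * e ^ 8 + 18680 * e ^ 7 + 4330 * e ^ 6 + 20620 * e ^ 5 + 16300 * e ^ 4 + 8680 * e ^ 3 + 15620 * e ^ 2 - 11780 * e + 80) * u ^ 3 * v ^ 2 +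
      (-270 * e ^ 19 + 360 * e ^ 18 + 690 * e ^ 17 + 1230 * e ^ 16 + 3720 * e ^ 15 + 1310 * e ^ 14 + 2250 * e ^ 13 - 2800 * e ^ 12 - 7920 * e ^ 11 - 6230 * e ^ 10 - 16710 * e ^ 9 - 15130 * e ^ 8 - 21670 * e ^ 7 - 24700 * e ^ 6 - 14200 * e ^ 5 - 18580 * e ^ 4 - 5480 * e ^ 3 - 1720 * e ^ 2 - 360 * e - 40) * u ^ 2 * v ^ 3 +
      (135 * e ^ 19 + 810 * e ^ 18 + 315 * e ^ 17 + 2570 * e ^ 16 + 1705 * e ^ 15 + 1995 * e ^ 14 + 4560 * e ^ 13 + 3165 * e ^ 12 + 9700 * e ^ 11 + 11400 * e ^ 10 + 13330 * e ^ 9 + 18350 * e ^ 8 + 12675 * e ^ 7 + 13015 * e ^ 6 + 8510 * e ^ 5 + 4290 * e ^ 4 + 4780 * e ^ 3 - 2655 * e ^ 2 + 90 * e + 10) * u * v ^ 4 +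
      (81 * e ^ 19 - 216 * e ^ 18 + 81 * e ^ 17 - 771 * e ^ 16 - 1154 * e ^ 15 - 1853 * e ^ 14 - 2812 * e ^ 13 - 3488 * e ^ 12 - 3892 * e ^ 11 - 4068 * e ^ 10 - 4287 * e ^ 9 - 4153 * e ^ 8 - 3417 * e ^ 7 - 2328 * e ^ 6 - 1277 * e ^ 5 - 566 * e ^ 4 - 194 * e ^ 3 - 51 * e ^ 2 - 9 * e - 1) * v ^ 5) * he

end FLTAgent.Switch
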