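import Fermat.Agent.Switch.Rel
import Mathlib.Data.ZMod.Basic

/-!
# The icosahedral group realises every unimodular change of basis
-/

set_option autoImplicit false

namespace FLTAgent.Switch

open WeierstrassCurve Matrix

variable {k : Type*} [Field k] [CharZero k] [DecidableEq k] {e : k}

/-- A field automorphism raising `e` to the power `d`. -/
theorem rel_hom (he : IsPrimitiveRoot e 5) (τ : k →+* k) (d : ℕ) (hd : τ e = e ^ d) :
    Rel he τ 1 !![1, 1 - (d : ZMod 5); 0, (d : ZMod 5)] := by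
  refine rel_of_basis τ 1 _ (by simp) fun q H T h => ?_
  have h' : IsLev (τ H) (τ T) (((1 : Matrix (Fin 2) (Fin 2) k) *ᵥ (τ ∘ q)) 0)
      (((1 : Matrix (Fin 2) (Fin 2) k) *ᵥ (τ ∘ q)) 1) := by
    simp only [one_mulVec, Function.comp_apply]
    refine ⟨?_, ?_, ?_⟩
    · rw [← map_hh, h.h4]
    · rw [← map_tt, h.h6]
    · rw [← map_ff]; exact (map_ne_zero τ).mpr h.disc
  refine ⟨h', ?_, ?_⟩
  · rw [show (!![1, 1 - (d : ZMod 5); 0, (d : ZMod 5)] *ᵥ ![1, 0]) =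
      ![1 - ((0 : ℕ) : ZMod 5), ((0 : ℕ) : ZMod 5)] by
        funext i; fin_cases i <;> simp [Matrix.mulVec, dotProduct, Fin.sum_univ_two], h'.lev_trans]
    refine mapPt_pt τ rfl rfl _ _ ?_ ?_ <;> simp [map_bB, map_bC]
  · rw [show (!![1, 1 - (d : ZMod 5); 0, (d : ZMod 5)] *ᵥ ![0, 1]) =
      ![1 - (d : ZMod 5), (d : ZMod 5)] by
        funext i; fin_cases i <;> simp [Matrix.mulVec, dotProduct, Fin.sum_univ_two], h'.lev_trans]
    refine mapPt_pt τ rfl rfl _ _ ?_ ?_ <;> simp [map_bB, map_bC, hd]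

omit [CharZero k] [DecidableEq k] in
theorem mulVec_two {R : Type*} [CommRing R] (a b c d : R) (x : Fin 2 → R) :
    (!![a, b; c, d] *ᵥ x) 0 = a * x 0 + b * x 1 ∧ (!![a, b; c, d] *ᵥ x) 1 = c * x 0 + d * x 1 :=
  ⟨by simp [Matrix.mulVec, dotProduct, Fin.sum_univ_two],
    by simp [Matrix.mulVec, dotProduct, Fin.sum_univ_two]⟩

theorem mapPt_id {H T B C : k} (h : IsPar H T B C) :
    mapPt (RingHom.id k) (H := H) (T := T) rfl rfl h.pt = h.pt :=
  rfl

/-- The substitution `diag (e³, e²)`. -/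
theorem rel_diag (he : IsPrimitiveRoot e 5) :
    Rel he (RingHom.id k) !![e ^ 3, 0; 0, e ^ 2] !![2, 1; 4, 0] := by
  have h5 := he.pow_eq_one
  refine rel_of_basis _ _ _ ?_ fun q H T h => ?_
  · rw [det_fin_two_of]
    intro h0
    exact one_ne_zero (α := k) (by linear_combination h0 - h5)
  have q0 : (!![e ^ 3, 0; 0, e ^ 2] *ᵥ ((RingHom.id k) ∘ q)) 0 = e ^ 2 * (e * q 0) := by
    rw [(mulVec_two _ _ _ _ _).1]; simp; ring
  have q1 : (!![e ^ 3, 0; 0, e ^ 2] *ᵥ ((RingHom.id k) ∘ q)) 1 = e ^ 2 * q 1 := by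
    rw [(mulVec_two _ _ _ _ _).2]; simp
  have e10 : (e ^ 2) ^ 5 = 1 := by rw [← pow_mul, mul_comm, pow_mul, h5, one_pow]
  have h1 := h.scale h5
  have h' : IsLev ((RingHom.id k) H) ((RingHom.id k) T)
      ((!![e ^ 3, 0; 0, e ^ 2] *ᵥ ((RingHom.id k) ∘ q)) 0)
      ((!![e ^ 3, 0; 0, e ^ 2] *ᵥ ((RingHom.id k) ∘ q)) 1) := by
    rw [q0, q1]
    refine ⟨?_, ?_, ?_⟩
    · rw [hh_smul, e10, one_pow, one_mul]; exact h1.h4
    · rw [tt_smul, e10, one_pow, one_mul]; exact h1.h6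
    · rw [ff_smul]
      exact mul_ne_zero (pow_ne_zero _ (pow_ne_zero _ (he.ne_zero (by norm_num)))) h1.disc
  refine ⟨h', ?_, ?_⟩
  · rw [show (!![(2 : ZMod 5), 1; 4, 0] *ᵥ ![1, 0]) =
      ![1 - ((4 : ℕ) : ZMod 5), ((4 : ℕ) : ZMod 5)] by decide, h'.lev_trans]
    refine (mapPt_id _).trans (IsPar.pt_congr _ _ ?_ ?_) <;> rw [q0, q1, pow_zero, one_mul]
    · rw [show e ^ 4 * (e ^ 2 * (e * q 0)) = e ^ 2 * q 0 by linear_combination e ^ 2 * q 0 * h5,
        bB_smul, e10, one_mul]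
    · rw [show e ^ 4 * (e ^ 2 * (e * q 0)) = e ^ 2 * q 0 by linear_combination e ^ 2 * q 0 * h5,
        bC_smul, e10, one_mul]
  · rw [show (!![(2 : ZMod 5), 1; 4, 0] *ᵥ ![0, 1]) =
      ![1 - ((0 : ℕ) : ZMod 5), ((0 : ℕ) : ZMod 5)] by decide, h'.lev_trans]
    refine (mapPt_id _).trans (IsPar.pt_congr _ _ ?_ ?_) <;>
      rw [q0, q1, pow_zero, one_mul, pow_one]
    · rw [bB_smul, e10, one_mul]
    · rw [bC_smul, e10, one_mul]

omit [CharZero k] [DecidableEq k] in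
theorem det_uU (he : IsPrimitiveRoot e 5) :
    -(1 + 2 * e + 3 * e ^ 2 - e ^ 3) ^ 2 - (2 + 4 * e + e ^ 2 + 3 * e ^ 3) ^ 2 = (25 : k) := by
  linear_combination (-10 * e ^ 2 + 10 * e - 30) * cyc_of_prim he

/-- The icosahedral substitution composed with `diag (e³, e²)`. -/
theorem rel_ico (he : IsPrimitiveRoot e 5) :
    Rel he (RingHom.id k)
      !![e ^ 3 / 5 * (1 + 2 * e + 3 * e ^ 2 - e ^ 3), e ^ 3 / 5 * (2 + 4 * e + e ^ 2 + 3 * e ^ 3);
        e ^ 2 / 5 * (2 + 4 * e + e ^ 2 + 3 * e ^ 3), -(e ^ 2 / 5 * (1 + 2 * e + 3 * e ^ 2 - e ^ 3))]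
      !![4, 2; 1, 2] := by
  have h5 := he.pow_eq_one
  have hc := cyc_of_prim he
  set g := !![e ^ 3 / 5 * (1 + 2 * e + 3 * e ^ 2 - e ^ 3),
      e ^ 3 / 5 * (2 + 4 * e + e ^ 2 + 3 * e ^ 3);
    e ^ 2 / 5 * (2 + 4 * e + e ^ 2 + 3 * e ^ 3),
      -(e ^ 2 / 5 * (1 + 2 * e + 3 * e ^ 2 - e ^ 3))] with hg
  refine rel_of_basis _ g _ ?_ fun q H T h => ?_
  · rw [hg, det_fin_two_of]
    intro h0
    exact one_ne_zero (α := k)
      (by linear_combination h0 - h5 - e ^ 5 / 25 * det_uU he)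
  have q0 : (g *ᵥ ((RingHom.id k) ∘ q)) 0 = e ^ 2 / 5 * (e * uU e (q 0) (q 1)) := by
    rw [hg, (mulVec_two _ _ _ _ _).1]; simp [uU]; ring
  have q1 : (g *ᵥ ((RingHom.id k) ∘ q)) 1 = e ^ 2 / 5 * vU e (q 0) (q 1) := by
    rw [hg, (mulVec_two _ _ _ _ _).2]; simp [vU]; ring
  set c : k := e ^ 2 / 5 with hcdef
  have hc5 : c ^ 5 * 3125 = 1 := by
    rw [hcdef]; linear_combination (e ^ 5 + 1) * h5
  have e45 : (e ^ 4) ^ 5 = 1 := by rw [← pow_mul, mul_comm, pow_mul, h5, one_pow]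
  have e25 : (e ^ 2) ^ 5 = 1 := by rw [← pow_mul, mul_comm, pow_mul, h5, one_pow]
  have p4 := h.scale e45
  have p2 := h.scale e25
  obtain ⟨a, b, c'⟩ := IsLev.pow_facts h5
  have B0 : bB (c * (e * uU e (q 0) (q 1))) (c * vU e (q 0) (q 1)) = bB (e ^ 4 * q 0) (q 1) := by
    rw [bB_smul, bB_U_one _ _ hc, bB_scale e45, a, b, c', ← mul_assoc, hc5, one_mul]
  have C0 : bC (c * (e * uU e (q 0) (q 1))) (c * vU e (q 0) (q 1)) = bC (e ^ 4 * q 0) (q 1) := by
    rw [bC_smul, bC_U_one _ _ hc, bC_scale, a, b, c', ← mul_assoc, hc5, one_mul]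
  have h' : IsLev ((RingHom.id k) H) ((RingHom.id k) T) ((g *ᵥ ((RingHom.id k) ∘ q)) 0)
      ((g *ᵥ ((RingHom.id k) ∘ q)) 1) := by
    rw [q0, q1]
    refine ⟨?_, ?_, ?_⟩
    · rw [hh, B0, C0]; exact p4.h4
    · rw [tt, B0, C0]; exact p4.h6
    · intro h0
      refine p4.par.disc ?_
      rw [← B0, ← C0, tD_eq, h0]
      simp
  have t0 : h'.trans h5 0 = h.trans h5 4 := by
    refine IsPar.pt_congr _ _ ?_ ?_ <;> rw [q0, q1, pow_zero, one_mul]
    · exact B0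
    · exact C0
  have f2 : (e ^ 2) ^ 2 = e ^ 4 := by ring
  have f3 : (e ^ 2) ^ 3 = e := by linear_combination e * h5
  have f4 : (e ^ 2) ^ 4 = e ^ 3 := by linear_combination e ^ 3 * h5
  have t1 : h'.trans h5 1 = h.trans h5 2 + h.trans h5 2 := by
    refine Eq.trans (IsPar.pt_congr _ ?_ ?_ ?_) (IsPar.pt_add_self _).symm
    · exact p2.par.twice
    all_goals rw [q0, q1, pow_one,
      show e * (c * (e * uU e (q 0) (q 1))) = c * (e ^ 2 * uU e (q 0) (q 1)) by ring]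
    · rw [bB_smul, bB_U_two _ _ hc, bC_scale, f2, f3, f4]
      linear_combination -(cP (e ^ 2) (e ^ 4) e (e ^ 3) (q 0) (q 1)) * hc5
    · rw [bC_smul, bC_U_two _ _ hc, bB_scale e25, f2, f3, f4]
      linear_combination (bP (e ^ 2) (e ^ 4) e (e ^ 3) (q 0) (q 1)) * hc5
  have hb : ∀ a b : ℤ, h'.lev he ![(a : ZMod 5), (b : ZMod 5)] =
      h.lev he (a • ![1 - ((4 : ℕ) : ZMod 5), ((4 : ℕ) : ZMod 5)] +
        (b + b) • ![1 - ((2 : ℕ) : ZMod 5), ((2 : ℕ) : ZMod 5)]) := by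
    intro a b
    rw [h'.lev_intCast, map_add, map_zsmul, map_zsmul, h.lev_trans, h.lev_trans, t0, t1, add_smul,
      smul_add]
  refine ⟨h', ?_, ?_⟩
  · rw [show (!![(4 : ZMod 5), 2; 1, 2] *ᵥ ![1, 0]) = ![((4 : ℤ) : ZMod 5), ((1 : ℤ) : ZMod 5)]
      by decide, hb]
    exact (mapPt_id _).trans ((h.lev_trans he 0).symm.trans (congrArg _ (by decide)))
  · rw [show (!![(4 : ZMod 5), 2; 1, 2] *ᵥ ![0, 1]) = ![((2 : ℤ) : ZMod 5), ((2 : ℤ) : ZMod 5)]
      by decide, hb]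
    exact (mapPt_id _).trans ((h.lev_trans he 1).symm.trans (congrArg _ (by decide)))

/-- Every unimodular change of basis is realised by a substitution. -/
theorem exists_rel (he : IsPrimitiveRoot e 5) (M : Matrix (Fin 2) (Fin 2) (ZMod 5))
    (hM : M.det = 1) : ∃ g, Rel he (RingHom.id k) g M := by
  let S : Submonoid (Matrix (Fin 2) (Fin 2) (ZMod 5)) :=
    { carrier := {M | ∃ g, Rel he (RingHom.id k) g M}
      one_mem' := ⟨1, Rel.one⟩
      mul_mem' := fun {a b} ha hb =>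
        ⟨ha.choose * hb.choose, hb.choose_spec.comp_id ha.choose_spec⟩ }
  have hA : (!![2, 1; 4, 0] : Matrix (Fin 2) (Fin 2) (ZMod 5)) ∈ S := ⟨_, rel_diag he⟩
  have hB : (!![4, 2; 1, 2] : Matrix (Fin 2) (Fin 2) (ZMod 5)) ∈ S := ⟨_, rel_ico he⟩
  set A : Matrix (Fin 2) (Fin 2) (ZMod 5) := !![2, 1; 4, 0] with hAdef
  set B : Matrix (Fin 2) (Fin 2) (ZMod 5) := !![4, 2; 1, 2] with hBdef
  have hU : ∀ m : ℕ, (!![1, (m : ZMod 5); 0, 1] : Matrix (Fin 2) (Fin 2) (ZMod 5)) ∈ S := by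
    intro m
    induction m with
    | zero => convert S.one_mem using 1; simp [Matrix.one_fin_two]
    | succ n ih =>
      have h1 : B * B * A * B * B * B * B = !![1, 1; 0, 1] := by rw [hAdef, hBdef]; decide
      have := S.mul_mem ih
        (show B * B * A * B * B * B * B ∈ S by repeat' first | apply S.mul_mem | assumption)
      rw [h1] at this
      convert this using 1
      simp [add_comm]
  have hL : ∀ m : ℕ, (!![1, 0; (m : ZMod 5), 1] : Matrix (Fin 2) (Fin 2) (ZMod 5)) ∈ S := by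
    intro m
    induction m with
    | zero => convert S.one_mem using 1; simp [Matrix.one_fin_two]
    | succ n ih =>
      have h1 : B * B * A * A * A = !![1, 0; 1, 1] := by rw [hAdef, hBdef]; decide
      have := S.mul_mem ih
        (show B * B * A * A * A ∈ S by repeat' first | apply S.mul_mem | assumption)
      rw [h1] at this
      convert this using 1
      simp
  have hLinv : (!![1, 0; 1, 1] * !![1, 0; ((4 : ℕ) : ZMod 5), 1] :
      Matrix (Fin 2) (Fin 2) (ZMod 5)) = 1 := by decide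
  have : Fact (Nat.Prime 5) := ⟨by decide⟩
  have main : ∀ N : Matrix (Fin 2) (Fin 2) (ZMod 5), N.det = 1 → N 1 0 ≠ 0 → N ∈ S := by
    intro N hN hc
    have hU' : ∀ x : ZMod 5, (!![1, x; 0, 1] : Matrix (Fin 2) (Fin 2) (ZMod 5)) ∈ S := fun x => by
      simpa [ZMod.natCast_val] using hU x.val
    have hL' : (!![1, 0; N 1 0, 1] : Matrix (Fin 2) (Fin 2) (ZMod 5)) ∈ S := by
      simpa [ZMod.natCast_val] using hL (N 1 0).val
    convert S.mul_mem (S.mul_mem (hU' ((N 0 0 - 1) / N 1 0)) hL') (hU' ((N 1 1 - 1) / N 1 0))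
      using 1
    rw [det_fin_two] at hN
    have hb : N 0 1 = (N 0 0 * N 1 1 - 1) / N 1 0 := by
      rw [eq_div_iff hc]; linear_combination -hN
    ext i j
    fin_cases i <;> fin_cases j <;> simp [hb] <;> field_simp <;> ring
  by_cases hc : M 1 0 = 0
  · have hd : M 1 1 ≠ 0 := fun h => by
      rw [det_fin_two, hc, h] at hM
      simp at hM
    have h1 := main (M * !![1, 0; 1, 1]) (by rw [det_mul, hM, det_fin_two_of]; simp)
      (by simpa [Matrix.mul_apply, Fin.sum_univ_two, hc] using hd)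
    have h2 := S.mul_mem h1 (hL 4)
    rwa [mul_assoc, hLinv, mul_one] at h2
  · exact main M hM hc

end FLTAgent.Switch
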