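import Fermat.Agent.Switch.NoPolyRoot
import Mathlib.NumberTheory.Padics.Hensel
import Mathlib.NumberTheory.Padics.RingHoms
import Mathlib.LinearAlgebra.Vandermonde

/-!
# A quartic family without polynomial roots has members without integral roots

Integral roots at `m = p ^ e * i` follow `p`-adic power series; a suitable integral combination of
a few of them is at the same time divisible by `p ^ (d * e)` with `d ≥ 11` and of size `p ^ (10 * e)`,
hence zero, which forces the series to be polynomials.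
-/

set_option autoImplicit false

noncomputable section

open scoped Classical
open Polynomial Filter

namespace FLTAgent.Switch

/-- The derivative in `y` of `psi3`. -/
def psi3d {R : Type*} [CommRing R] (a b y : R) : R := 4 * y ^ 3 + 36 * a * y + 108 * b

theorem psi3_add {R : Type*} [CommRing R] (a b y h : R) :
    psi3 a b (y + h) =
      psi3 a b y + h * psi3d a b y + h ^ 2 * (6 * y ^ 2 + 4 * y * h + h ^ 2 + 18 * a) := by
  simp only [psi3, psi3d]; ring

theorem psi3_sub {R : Type*} [CommRing R] (a b y z : R) :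
    psi3 a b y - psi3 a b z =
      (y - z) * ((y + z) * (y ^ 2 + z ^ 2) + 18 * a * (y + z) + 108 * b) := by
  simp only [psi3]; ring

theorem map_psi3d {R S : Type*} [CommRing R] [CommRing S] (f : R →+* S) (a b y : R) :
    f (psi3d a b y) = psi3d (f a) (f b) (f y) := by simp [psi3d, map_ofNat]

section Padic

variable {p : ℕ} [Fact p.Prime]

theorem isUnit_of_toZMod_ne {x : ℤ_[p]} (hx : PadicInt.toZMod x ≠ 0) : IsUnit x := by
  by_contra h
  apply hx
  rw [← RingHom.mem_ker, PadicInt.ker_toZMod]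
  exact (IsLocalRing.mem_maximalIdeal x).mpr h

/-- A simple zero at the centre extends to a root modulo every power of the parameter. -/
theorem exists_series (a b : ℤ_[p][X]) (η : ℤ_[p])
    (h0 : psi3 (a.eval 0) (b.eval 0) η = 0) (hu : IsUnit (psi3d (a.eval 0) (b.eval 0) η)) (n : ℕ) :
    ∃ T : ℤ_[p][X], T.eval 0 = η ∧ X ^ (n + 1) ∣ psi3 a b T := by
  induction n with
  | zero =>
    refine ⟨C η, eval_C, ?_⟩
    rw [zero_add, pow_one, X_dvd_iff, coeff_zero_eq_eval_zero, ← coe_evalRingHom, map_psi3]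
    simpa using h0
  | succ n ih =>
    obtain ⟨T, hT, Q, hQ⟩ := ih
    obtain ⟨u, hu'⟩ := hu
    set c : ℤ_[p] := -(↑u⁻¹ * Q.eval 0)
    refine ⟨T + C c * X ^ (n + 1), by simp [hT], ?_⟩
    rw [psi3_add, hQ]
    have key : X ∣ Q + C c * psi3d a b T + C c ^ 2 * X ^ (n + 1) *
        (6 * T ^ 2 + 4 * T * (C c * X ^ (n + 1)) + (C c * X ^ (n + 1)) ^ 2 + 18 * a) := by
      rw [X_dvd_iff, coeff_zero_eq_eval_zero]
      have e : (psi3d a b T).eval 0 = u := by
        rw [← coe_evalRingHom, map_psi3d, hu']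
        simp [hT]
      simp only [eval_add, eval_mul, eval_C, eval_pow, eval_X, e,
        zero_pow (Nat.succ_ne_zero n), mul_zero, zero_mul, add_zero, c]
      linear_combination -Q.eval 0 * u.mul_inv
    obtain ⟨R, hR⟩ := key
    refine ⟨R, ?_⟩
    linear_combination X ^ (n + 1) * hR

/-- Roots congruent to the centre follow the series. -/
theorem pow_dvd_sub_series (a b T : ℤ_[p][X]) {N : ℕ} (hT : X ^ N ∣ psi3 a b T)
    (hu : PadicInt.toZMod (psi3d (a.eval 0) (b.eval 0) (T.eval 0)) ≠ 0) {x y : ℤ_[p]} (hx : PadicInt.toZMod x = 0)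
    (hy : psi3 (a.eval x) (b.eval x) y = 0) (hres : PadicInt.toZMod y = PadicInt.toZMod (T.eval 0)) :
    x ^ N ∣ y - T.eval x := by
  have h1 : x ^ N ∣ psi3 (a.eval x) (b.eval x) y - psi3 (a.eval x) (b.eval x) (T.eval x) := by
    rw [hy, zero_sub, dvd_neg]
    have := eval_dvd (x := x) hT
    rw [eval_pow, eval_X, ← coe_evalRingHom, map_psi3] at this
    exact this
  rw [psi3_sub] at h1
  refine (IsUnit.dvd_mul_right (isUnit_of_toZMod_ne ?_)).mp h1
  have hev : ∀ P : ℤ_[p][X], PadicInt.toZMod (P.eval x) = PadicInt.toZMod (P.eval 0) := fun P => by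
    rw [← eval_map_apply, hx, ← map_zero PadicInt.toZMod, eval_map_apply]
  simp only [map_psi3d] at hu
  simp only [map_add, map_mul, map_pow, map_ofNat, hev, hres]
  convert hu using 1
  simp only [psi3d]; ring

/-- A nonzero `p`-adic integer is not divisible by high powers of `p`. -/
theorem eventually_not_pow_dvd {x : ℤ_[p]} (hx : x ≠ 0) :
    ∀ᶠ e in atTop, ¬(p : ℤ_[p]) ^ e ∣ x := by
  obtain ⟨n, hn⟩ := FiniteMultiplicity.of_prime_left PadicInt.prime_p hx
  exact eventually_atTop.mpr ⟨n + 1, fun e he h => hn ((pow_dvd_pow _ he).trans h)⟩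

/-- Integral roots cannot follow one branch with a nonzero coefficient of degree `d > 10` at
`d + 1` points of every progression `p ^ e * i`. -/
theorem eventually_not_follow (T : ℤ_[p][X]) {d : ℕ} (hd : 10 < d) (htd : T.coeff d ≠ 0)
    (f : Fin (d + 1) → ℕ) (hf : Function.Injective f) (Cb : ℕ) :
    ∀ᶠ e in atTop, ∀ y : Fin (d + 1) → ℤ,
      (∀ j, (y j).natAbs ≤ Cb * (p ^ e) ^ 10) →
      ¬ ∀ j, ((p : ℤ_[p]) ^ e * f j) ^ (d + 1) ∣
        (y j : ℤ_[p]) - T.eval ((p : ℤ_[p]) ^ e * f j) := by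
  set V : Matrix (Fin (d + 1)) (Fin (d + 1)) ℤ := Matrix.vandermonde fun j => (f j : ℤ)
  have hdet : V.det ≠ 0 :=
    Matrix.det_vandermonde_ne_zero_iff.mpr fun a b h => hf (Nat.cast_injective h)
  set c : Fin (d + 1) → ℤ := fun j => V.adjugate (Fin.last d) j
  have hc : ∀ i : Fin (d + 1), ∑ j, c j * (f j : ℤ) ^ (i : ℕ) =
      if Fin.last d = i then V.det else 0 := fun i => by
    have := congrFun (congrFun (Matrix.adjugate_mul V) (Fin.last d)) i
    simpa [Matrix.mul_apply, V, c, Matrix.vandermonde_apply, Matrix.one_apply] using this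
  set Cz : ℕ := (∑ j, (c j).natAbs) * Cb
  have hne : T.coeff d * (V.det : ℤ_[p]) ≠ 0 := mul_ne_zero htd (Int.cast_ne_zero.mpr hdet)
  filter_upwards [eventually_not_pow_dvd hne, eventually_gt_atTop Cz] with e he hbig y hy hcon
  set q : ℤ_[p] := (p : ℤ_[p]) ^ e
  set Z : ℤ := ∑ j, c j * y j
  have hrest : X ^ (d + 1) ∣ T - ∑ i ∈ Finset.range (d + 1), C (T.coeff i) * X ^ i := by
    rw [X_pow_dvd_iff]
    intro i hi
    simp [coeff_C_mul, coeff_X_pow, Finset.mem_range, Nat.lt_succ_iff.mp hi]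
  obtain ⟨R, hR⟩ := hrest
  have hTx : ∀ x : ℤ_[p],
      T.eval x = ∑ i : Fin (d + 1), T.coeff i * x ^ (i : ℕ) + x ^ (d + 1) * R.eval x := fun x => by
    have := congrArg (eval x) hR
    simp only [eval_sub, eval_finsetSum, eval_mul, eval_C, eval_pow, eval_X] at this
    rw [Fin.sum_univ_eq_sum_range (fun i => T.coeff i * x ^ i)]
    linear_combination this
  choose w hw using hcon
  have key : (Z : ℤ_[p]) = q ^ d * (T.coeff d * (V.det : ℤ_[p])) +
      q ^ (d + 1) * ∑ j, (c j : ℤ_[p]) * (f j : ℤ_[p]) ^ (d + 1) * (w j + R.eval (q * f j)) := by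
    have h1 : ∀ j, (c j : ℤ_[p]) * (y j : ℤ_[p]) =
        (∑ i : Fin (d + 1), q ^ (i : ℕ) * T.coeff i * ((c j : ℤ_[p]) * (f j : ℤ_[p]) ^ (i : ℕ))) +
          q ^ (d + 1) *
            ((c j : ℤ_[p]) * (f j : ℤ_[p]) ^ (d + 1) * (w j + R.eval (q * f j))) := fun j => by
      rw [show (y j : ℤ_[p]) = T.eval (q * f j) + (q * f j) ^ (d + 1) * w j by
        linear_combination hw j, hTx, mul_add, mul_add, Finset.mul_sum]
      rw [add_assoc]
      refine congrArg₂ (· + ·) (Finset.sum_congr rfl fun i _ => by rw [mul_pow]; ring) ?_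
      rw [mul_pow]; ring
    simp only [Z, Int.cast_sum, Int.cast_mul, h1, Finset.sum_add_distrib, ← Finset.mul_sum]
    refine congrArg (· + _) ?_
    rw [Finset.sum_comm]
    simp only [← Finset.mul_sum]
    have hc' : ∀ i : Fin (d + 1), ∑ j, (c j : ℤ_[p]) * (f j : ℤ_[p]) ^ (i : ℕ) =
        if Fin.last d = i then (V.det : ℤ_[p]) else 0 := fun i => by
      simpa [apply_ite (Int.cast : ℤ → ℤ_[p])] using congrArg (Int.cast : ℤ → ℤ_[p]) (hc i)
    simp only [hc', mul_ite, mul_zero, Finset.sum_ite_eq, Finset.mem_univ, if_true, Fin.val_last]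
    ring
  have hdvd : ((p : ℤ) ^ (e * d)) ∣ Z := by
    rw [← PadicInt.pow_p_dvd_int_iff, key, pow_mul, pow_succ (n := d), mul_assoc]
    exact dvd_add (dvd_mul_right _ _) (dvd_mul_right _ _)
  have hZ : Z = 0 := by
    refine Int.eq_zero_of_dvd_of_natAbs_lt_natAbs hdvd ?_
    rw [Int.natAbs_pow, Int.natAbs_natCast]
    calc Z.natAbs ≤ ∑ j, (c j * y j).natAbs := Int.natAbs_sum_le _ _
      _ ≤ ∑ j, (c j).natAbs * (Cb * (p ^ e) ^ 10) := Finset.sum_le_sum fun j _ => by
          rw [Int.natAbs_mul]; exact Nat.mul_le_mul_left _ (hy j)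
      _ = Cz * (p ^ e) ^ 10 := by rw [← Finset.sum_mul, mul_assoc]
      _ < p ^ e * (p ^ e) ^ 10 := by
          refine Nat.mul_lt_mul_of_pos_right (hbig.trans (Nat.lt_pow_self ?_)) ?_
          · exact (Fact.out : p.Prime).one_lt
          · exact pow_pos (pow_pos (Fact.out : p.Prime).pos e) 10
      _ ≤ p ^ (e * d) := by
          rw [← pow_succ', ← pow_mul]
          exact Nat.pow_le_pow_right (Fact.out : p.Prime).pos (Nat.mul_le_mul_left e hd)
  rw [hZ, Int.cast_zero] at key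
  have hq0 : q ≠ 0 := pow_ne_zero _ PadicInt.prime_p.ne_zero
  refine he ⟨-∑ j, (c j : ℤ_[p]) * (f j : ℤ_[p]) ^ (d + 1) * (w j + R.eval (q * f j)), ?_⟩
  refine mul_left_cancel₀ (pow_ne_zero d hq0) ?_
  linear_combination -key

end Padic

theorem natAbs_eval_le (a : ℤ[X]) {k : ℕ} (ha : a.natDegree ≤ k) {m : ℕ} (hm : 1 ≤ m) :
    (a.eval (m : ℤ)).natAbs ≤ (∑ i ∈ Finset.range (k + 1), (a.coeff i).natAbs) * m ^ k := by
  rw [eval_eq_sum_range' (Nat.lt_succ_of_le ha), Finset.sum_mul]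
  refine (Int.natAbs_sum_le _ _).trans (Finset.sum_le_sum fun i hi => ?_)
  rw [Int.natAbs_mul, Int.natAbs_pow, Int.natAbs_natCast]
  exact Nat.mul_le_mul_left _ (Nat.pow_le_pow_right hm (Nat.lt_succ_iff.mp (Finset.mem_range.mp hi)))

theorem root_bound {a b y C s : ℤ} (h : psi3 a b y = 0) (hC : 1 ≤ C) (hs : 0 ≤ s)
    (ha : |a| ≤ C * s ^ 2) (hb : |b| ≤ C * s ^ 3) : |y| ≤ 13 * C * s := by
  by_contra hlt
  push Not at hlt
  set r := |y| with hr
  have hr0 : 0 ≤ r := abs_nonneg y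
  have hs13 : 13 * s ≤ r := by nlinarith [mul_nonneg (sub_nonneg.mpr hC) hs]
  have e1 : -(C * s ^ 2 * r ^ 2) ≤ a * y ^ 2 := by
    rw [← sq_abs y]; nlinarith [(abs_le.mp ha).1, sq_nonneg r]
  have e2 : -(C * s ^ 3 * r) ≤ b * y := by
    refine neg_le.mp ((neg_le_abs (b * y)).trans ?_)
    rw [abs_mul]; exact mul_le_mul_of_nonneg_right hb hr0
  have e3 : a ^ 2 ≤ C ^ 2 * s ^ 4 := by
    rw [← sq_abs a]; nlinarith [abs_nonneg a, mul_nonneg (le_trans zero_le_one hC) (sq_nonneg s)]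
  have e4 : r ^ 4 ≤ 18 * C * s ^ 2 * r ^ 2 + 108 * C * s ^ 3 * r + 27 * C ^ 2 * s ^ 4 := by
    have : r ^ 4 = y ^ 4 := by rw [hr, pow_abs, abs_of_nonneg]; positivity
    simp only [psi3] at h
    nlinarith
  have hC' : C ≤ C ^ 2 := by nlinarith
  have f1 : 18 * C * s ^ 2 * r ^ 2 ≤ 18 * C ^ 2 * s ^ 2 * r ^ 2 := by
    nlinarith [mul_nonneg (sub_nonneg.mpr hC') (mul_nonneg (sq_nonneg s) (sq_nonneg r))]
  have f2 : 108 * C * s ^ 3 * r ≤ 9 * C ^ 2 * s ^ 2 * r ^ 2 := by
    nlinarith [mul_nonneg (mul_nonneg (le_trans zero_le_one hC) (mul_nonneg (sq_nonneg s) hr0))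
      (sub_nonneg.mpr hs13), mul_nonneg (sub_nonneg.mpr hC') (mul_nonneg (sq_nonneg s) (sq_nonneg r))]
  have f3 : 27 * C ^ 2 * s ^ 4 ≤ C ^ 2 * s ^ 2 * r ^ 2 := by
    nlinarith [mul_nonneg (mul_nonneg (sq_nonneg C) (sq_nonneg s))
      (sub_nonneg.mpr (pow_le_pow_left₀ (mul_nonneg (by norm_num) hs) hs13 2))]
  have hrpos : 0 < r := lt_of_le_of_lt (by positivity) hlt
  have : r ^ 2 * r ^ 2 ≤ 28 * C ^ 2 * s ^ 2 * r ^ 2 := by nlinarith
  have h28 := le_of_mul_le_mul_right this (pow_pos hrpos 2)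
  nlinarith [pow_lt_pow_left₀ hlt (by positivity) (two_ne_zero), mul_nonneg (sq_nonneg C) (sq_nonneg s)]

/-- A member of the family without integral root exists beyond every bound. -/
theorem exists_no_root (a b : ℤ[X]) (ha : a.natDegree ≤ 20) (hb : b.natDegree ≤ 30)
    (hD : 4 * a.eval 0 ^ 3 + 27 * b.eval 0 ^ 2 ≠ 0)
    (hP : ∀ (p : ℕ) [Fact p.Prime] (P : ℤ_[p][X]),
      psi3 (a.map (Int.castRingHom ℤ_[p])) (b.map (Int.castRingHom ℤ_[p])) P ≠ 0)
    (M : ℕ) : ∃ m : ℕ, M < m ∧ ∀ y : ℤ, psi3 (a.eval (m : ℤ)) (b.eval (m : ℤ)) y ≠ 0 := by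
  by_contra hcon
  push Not at hcon
  have hall : ∀ m : ℕ, ∃ y : ℤ, M < m → psi3 (a.eval (m : ℤ)) (b.eval (m : ℤ)) y = 0 := fun m => by
    by_cases hm : M < m
    · obtain ⟨y, hy⟩ := hcon m hm; exact ⟨y, fun _ => hy⟩
    · exact ⟨0, fun h => absurd h hm⟩
  choose Y hY using hall
  obtain ⟨p, hp, hpP⟩ :=
    Nat.exists_infinite_primes ((4 * a.eval 0 ^ 3 + 27 * b.eval 0 ^ 2).natAbs + 4)
  rename' hpP => hpr
  have : Fact p.Prime := ⟨hpr⟩
  set π := (PadicInt.toZMod : ℤ_[p] →+* ZMod p)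
  set a' := a.map (Int.castRingHom ℤ_[p])
  set b' := b.map (Int.castRingHom ℤ_[p])
  have hev : ∀ (P : ℤ[X]) (n : ℤ),
      (P.map (Int.castRingHom ℤ_[p])).eval (n : ℤ_[p]) = ((P.eval n : ℤ) : ℤ_[p]) := fun P n => by
    rw [← eq_intCast (Int.castRingHom ℤ_[p]) n, eval_map_apply]; rfl
  -- residues of roots are simple
  have hsimple : ∀ z : ZMod p, psi3 ((a.eval 0 : ℤ) : ZMod p) ((b.eval 0 : ℤ) : ZMod p) z = 0 →
      psi3d ((a.eval 0 : ℤ) : ZMod p) ((b.eval 0 : ℤ) : ZMod p) z ≠ 0 := by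
    intro z h1 h2
    set A : ZMod p := ((a.eval 0 : ℤ) : ZMod p)
    set B : ZMod p := ((b.eval 0 : ℤ) : ZMod p)
    have small : ∀ n : ℕ, 0 < n → n < p → (n : ZMod p) ≠ 0 := fun n h0 hn => by
      rw [Ne, ZMod.natCast_eq_zero_iff]
      exact fun h => absurd (Nat.le_of_dvd h0 h) (by omega)
    have h2' : (2 : ZMod p) ≠ 0 := by exact_mod_cast small 2 (by norm_num) (by omega)
    have h3' : (3 : ZMod p) ≠ 0 := by exact_mod_cast small 3 (by norm_num) (by omega)
    have hdd : ((4 * a.eval 0 ^ 3 + 27 * b.eval 0 ^ 2 : ℤ) : ZMod p) = 0 := by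
      push_cast
      simp only [psi3, psi3d] at h1 h2
      have g0 : z ^ 3 + 9 * A * z + 27 * B = 0 := by
        refine mul_left_cancel₀ (mul_ne_zero h2' h2') ?_
        linear_combination h2
      have q0 : z ^ 2 + 3 * A = 0 := by
        refine pow_eq_zero_iff (n := 2) (by norm_num) |>.mp ?_
        refine mul_left_cancel₀ h3' ?_
        linear_combination 4 * z * g0 - h1
      have l0 : 2 * A * z + 9 * B = 0 := by
        refine mul_left_cancel₀ h3' ?_
        linear_combination g0 - z * q0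
      refine mul_left_cancel₀ h3' ?_
      linear_combination 4 * A ^ 2 * q0 - (2 * A * z - 9 * B) * l0
    rw [ZMod.intCast_zmod_eq_zero_iff_dvd, ← Int.natAbs_dvd_natAbs, Int.natAbs_natCast] at hdd
    exact absurd (Nat.le_of_dvd (Int.natAbs_pos.mpr hD) hdd) (by omega)
  set P0 : ℤ_[p][X] := psi3 (C (a.eval 0 : ℤ) : ℤ_[p][X]) (C (b.eval 0 : ℤ)) X with hP0
  have hP0' : ∀ z, P0.eval z = psi3 ((a.eval 0 : ℤ) : ℤ_[p]) (b.eval 0 : ℤ) z := fun z => by
    rw [hP0, ← coe_evalRingHom, map_psi3]; simp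
  have hP0ne : P0 ≠ 0 := by
    intro h0
    have e0 := hP0' ((0 : ℤ) : ℤ_[p])
    have e1 := hP0' ((1 : ℤ) : ℤ_[p])
    rw [h0, eval_zero, ← eq_intCast (Int.castRingHom ℤ_[p]) (a.eval 0),
      ← eq_intCast (Int.castRingHom ℤ_[p]) (b.eval 0)] at e0 e1
    rw [← eq_intCast (Int.castRingHom ℤ_[p]) 0, ← map_psi3] at e0
    rw [← eq_intCast (Int.castRingHom ℤ_[p]) 1, ← map_psi3] at e1
    simp only [eq_intCast, eq_comm (a := (0 : ℤ_[p])), Int.cast_eq_zero, psi3] at e0 e1
    have ea : a.eval 0 = 0 := by nlinarith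
    rw [ea] at e1
    omega
  set R : Finset ℤ_[p] := P0.roots.toFinset
  have hR : ∀ η ∈ R, psi3 ((a.eval 0 : ℤ) : ℤ_[p]) (b.eval 0 : ℤ) η = 0 ∧
      π (psi3d ((a.eval 0 : ℤ) : ℤ_[p]) (b.eval 0 : ℤ) η) ≠ 0 := by
    intro η hη
    have h0 := (mem_roots hP0ne).mp (Multiset.mem_toFinset.mp hη)
    rw [IsRoot.def, hP0'] at h0
    refine ⟨h0, ?_⟩
    rw [map_psi3d, map_intCast, map_intCast]
    refine hsimple _ ?_
    have := congrArg π h0
    rwa [map_psi3, map_intCast, map_intCast, map_zero] at this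
  -- one series for each centre
  set N0 : ℕ := a'.natDegree + a'.natDegree + (b'.natDegree + 60)
  have hser : ∀ η ∈ R, ∃ (T : ℤ_[p][X]) (d : ℕ), 10 < d ∧ T.coeff d ≠ 0 ∧ T.eval 0 = η ∧
      X ^ (d + 1) ∣ psi3 a' b' T := by
    intro η hη
    obtain ⟨h0, h1⟩ := hR η hη
    have e0 : a'.eval 0 = ((a.eval 0 : ℤ) : ℤ_[p]) := by rw [← hev, Int.cast_zero]
    have e1 : b'.eval 0 = ((b.eval 0 : ℤ) : ℤ_[p]) := by rw [← hev, Int.cast_zero]
    obtain ⟨T, hT0, hT⟩ := exists_series a' b' η (by rw [e0, e1]; exact h0)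
      (by rw [e0, e1]; exact isUnit_of_toZMod_ne h1) N0
    by_contra hno
    push Not at hno
    have hhi : ∀ d, 10 < d → d ≤ N0 → T.coeff d = 0 := fun d hd hdN => by
      by_contra hne
      exact hno T d hd hne hT0 (dvd_trans (pow_dvd_pow X (by omega)) hT)
    set P : ℤ_[p][X] := ∑ i ∈ Finset.range 11, C (T.coeff i) * X ^ i with hPdef
    have hPdeg : P.natDegree ≤ 10 := natDegree_sum_le_of_forall_le _ _ fun i hi =>
      (natDegree_C_mul_X_pow_le _ _).trans (by simp at hi; omega)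
    have hTP : X ^ (N0 + 1) ∣ T - P := by
      rw [X_pow_dvd_iff]
      intro i hi
      simp only [coeff_sub, hPdef, finsetSum_coeff, coeff_C_mul_X_pow, Finset.sum_ite_eq,
        Finset.mem_range]
      split_ifs with h
      · exact sub_self _
      · rw [sub_zero]; exact hhi i (by omega) (by omega)
    have hdvd : X ^ (N0 + 1) ∣ psi3 a' b' P := by
      have : X ^ (N0 + 1) ∣ psi3 a' b' T - psi3 a' b' P := by
        rw [psi3_sub]; exact dvd_mul_of_dvd_left hTP _
      simpa using dvd_sub hT this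
    refine hP p P (eq_zero_of_dvd_of_degree_lt hdvd ?_)
    rw [degree_X_pow]
    refine lt_of_le_of_lt degree_le_natDegree (Nat.cast_lt.mpr (Nat.lt_succ_of_le ?_))
    have c1 : ∀ (k : ℕ) [k.AtLeastTwo] (Q : ℤ_[p][X]),
        ((OfNat.ofNat k : ℤ_[p][X]) * Q).natDegree ≤ Q.natDegree := fun k _ Q => by
      rw [← C_ofNat]; exact natDegree_C_mul_le _ _
    refine natDegree_sub_le_of_le (natDegree_add_le_of_degree_le (natDegree_add_le_of_degree_le
      ?_ ?_) ?_) ?_ |>.trans (max_self N0).le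
    · exact (natDegree_pow_le_of_le 4 hPdeg).trans (by omega)
    · rw [mul_assoc]
      exact ((c1 18 _).trans (natDegree_mul_le_of_le (le_refl a'.natDegree)
        (natDegree_pow_le_of_le 2 hPdeg))).trans
        (by omega)
    · rw [mul_assoc]
      exact ((c1 108 _).trans (natDegree_mul_le_of_le (le_refl b'.natDegree) hPdeg)).trans (by omega)
    · exact ((c1 27 _).trans (natDegree_pow_le_of_le 2 (le_refl a'.natDegree))).trans (by omega)
  choose! T d hd hTd hT0 hTdvd using hser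
  set L : ℕ := R.sup fun η => d η + 1
  set I : Finset ℕ := Finset.Icc 1 (R.card * L + 1) with hI
  set Ca : ℕ := ∑ i ∈ Finset.range (20 + 1), (a.coeff i).natAbs
  set Cc : ℕ := ∑ i ∈ Finset.range (30 + 1), (b.coeff i).natAbs
  set Cb : ℕ := 13 * (Ca + Cc + 1) * (R.card * L + 1) ^ 10
  have hev1 : ∀ᶠ e in atTop, ∀ η ∈ R, ∀ s ∈ I.powerset, ∀ hs : s.card = d η + 1,
      ∀ y : Fin (d η + 1) → ℤ, (∀ j, (y j).natAbs ≤ Cb * (p ^ e) ^ 10) →
      ¬ ∀ j, ((p : ℤ_[p]) ^ e * (s.orderEmbOfFin hs j : ℕ)) ^ (d η + 1) ∣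
        (y j : ℤ_[p]) - (T η).eval ((p : ℤ_[p]) ^ e * (s.orderEmbOfFin hs j : ℕ)) := by
    refine (eventually_all_finset R).mpr fun η hη => (eventually_all_finset _).mpr fun s _ => ?_
    by_cases hs : s.card = d η + 1
    · filter_upwards [eventually_not_follow (T η) (hd η hη) (hTd η hη)
        (fun j => s.orderEmbOfFin hs j) (s.orderEmbOfFin hs).injective Cb] with e he _
      exact he
    · exact Eventually.of_forall fun e hs' => absurd hs' hs
  obtain ⟨e, hev', heM⟩ := (hev1.and (eventually_gt_atTop (M + 1))).exists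
  have hpe : M < p ^ e := by
    have := Nat.lt_pow_self (n := e) (Fact.out : p.Prime).one_lt
    omega
  -- centre attached to each point
  have hres : ∀ i ∈ I, ∃ η ∈ R, π (Y (p ^ e * i) : ℤ) = π η := by
    intro i hi
    rw [hI, Finset.mem_Icc] at hi
    have hm : M < p ^ e * i := lt_of_lt_of_le hpe (Nat.le_mul_of_pos_right _ hi.1)
    have hy := hY _ hm
    set y := Y (p ^ e * i)
    have hz : π (P0.eval (y : ℤ_[p])) = 0 := by
      rw [hP0', map_psi3, map_intCast, map_intCast, map_intCast]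
      have h0 := congrArg (Int.castRingHom (ZMod p)) hy
      rw [map_psi3, map_zero] at h0
      have hzero : ∀ P : ℤ[X],
          (Int.castRingHom (ZMod p)) (P.eval ((p ^ e * i : ℕ) : ℤ)) = (P.eval 0 : ℤ) := fun P => by
        rw [← eval_map_apply, ← eq_intCast (Int.castRingHom (ZMod p)) (P.eval 0), ← eval_map_apply]
        congr 1
        simp [zero_pow (show e ≠ 0 by omega)]
      rw [hzero, hzero] at h0
      exact h0
    have hder : π (P0.derivative.eval (y : ℤ_[p])) ≠ 0 := by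
      have e' : P0.derivative.eval (y : ℤ_[p]) =
          psi3d ((a.eval 0 : ℤ) : ℤ_[p]) (b.eval 0 : ℤ) y := by
        simp [hP0, psi3, psi3d, derivative_pow]; ring
      rw [e', map_psi3d, map_intCast, map_intCast, map_intCast]
      refine hsimple _ ?_
      rwa [hP0', map_psi3, map_intCast, map_intCast, map_intCast] at hz
    have hnorm : ‖P0.derivative.aeval (y : ℤ_[p])‖ = 1 := by
      rw [coe_aeval_eq_eval]; exact PadicInt.isUnit_iff.mp (isUnit_of_toZMod_ne hder)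
    have hlt : ‖P0.aeval (y : ℤ_[p])‖ < ‖P0.derivative.aeval (y : ℤ_[p])‖ ^ 2 := by
      rw [hnorm, one_pow, coe_aeval_eq_eval, PadicInt.norm_lt_one_iff_dvd,
        ← Ideal.mem_span_singleton, ← PadicInt.maximalIdeal_eq_span_p, ← PadicInt.ker_toZMod]
      exact hz
    obtain ⟨η, hη0, hηy, -, -⟩ := hensels_lemma hlt
    refine ⟨η, Multiset.mem_toFinset.mpr ((mem_roots hP0ne).mpr ?_), ?_⟩
    · simpa using hη0
    · rw [hnorm, PadicInt.norm_lt_one_iff_dvd, ← Ideal.mem_span_singleton,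
        ← PadicInt.maximalIdeal_eq_span_p, ← PadicInt.ker_toZMod, RingHom.mem_ker, map_sub,
        sub_eq_zero] at hηy
      exact hηy.symm
  choose! η hηR hηy using hres
  obtain ⟨η₀, hη₀, hcard⟩ := Finset.exists_lt_card_fiber_of_mul_lt_card_of_maps_to
    (f := η) (s := I) (t := R) (n := L) (fun i hi => hηR i hi) (by simp [hI])
  obtain ⟨s, hsub, hs⟩ := Finset.exists_subset_card_eq
    (n := d η₀ + 1) (le_trans (Finset.le_sup (f := fun η => d η + 1) hη₀) hcard.le)
  have hsI : s ⊆ I := hsub.trans (Finset.filter_subset _ _)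
  refine hev' η₀ hη₀ s (Finset.mem_powerset.mpr hsI) hs
    (fun j => Y (p ^ e * s.orderEmbOfFin hs j)) (fun j => ?_) (fun j => ?_)
  · set i := s.orderEmbOfFin hs j
    have hi := Finset.mem_Icc.mp (hsI (s.orderEmbOfFin_mem hs j))
    have hm : M < p ^ e * i := lt_of_lt_of_le hpe (Nat.le_mul_of_pos_right _ hi.1)
    set m := p ^ e * i with hmdef
    have h1 : 1 ≤ m := by omega
    have ba : |a.eval (m : ℤ)| ≤ ((Ca + Cc + 1 : ℕ) : ℤ) * ((m : ℤ) ^ 10) ^ 2 := by
      rw [← Int.natCast_natAbs, ← pow_mul]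
      exact_mod_cast (natAbs_eval_le a ha h1).trans (Nat.mul_le_mul_right _ (by omega))
    have bb : |b.eval (m : ℤ)| ≤ ((Ca + Cc + 1 : ℕ) : ℤ) * ((m : ℤ) ^ 10) ^ 3 := by
      rw [← Int.natCast_natAbs, ← pow_mul]
      exact_mod_cast (natAbs_eval_le b hb h1).trans (Nat.mul_le_mul_right _ (by omega))
    have := root_bound (hY m hm) (by omega) (by positivity) ba bb
    rw [← Int.natCast_natAbs] at this
    have h' : (Y m).natAbs ≤ 13 * (Ca + Cc + 1) * m ^ 10 := by exact_mod_cast this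
    refine h'.trans ?_
    rw [hmdef, mul_pow]
    calc 13 * (Ca + Cc + 1) * ((p ^ e) ^ 10 * i ^ 10)
        = 13 * (Ca + Cc + 1) * i ^ 10 * (p ^ e) ^ 10 := by ring
      _ ≤ Cb * (p ^ e) ^ 10 :=
          Nat.mul_le_mul_right _ (Nat.mul_le_mul_left _ (Nat.pow_le_pow_left hi.2 10))
  · set i := s.orderEmbOfFin hs j
    have hfib := Finset.mem_filter.mp (hsub (s.orderEmbOfFin_mem hs j))
    have hi := Finset.mem_Icc.mp hfib.1
    have hm : M < p ^ e * i := lt_of_lt_of_le hpe (Nat.le_mul_of_pos_right _ hi.1)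
    refine pow_dvd_sub_series a' b' (T η₀) (hTdvd η₀ hη₀) ?_ ?_ ?_ ?_
    · have e0 : a'.eval 0 = ((a.eval 0 : ℤ) : ℤ_[p]) := by rw [← hev, Int.cast_zero]
      have e1 : b'.eval 0 = ((b.eval 0 : ℤ) : ℤ_[p]) := by rw [← hev, Int.cast_zero]
      rw [hT0 η₀ hη₀, e0, e1]; exact (hR η₀ hη₀).2
    · simp [zero_pow (show e ≠ 0 by omega)]
    · have hx : (p : ℤ_[p]) ^ e * (i : ℕ) = (((p ^ e * i : ℕ) : ℤ) : ℤ_[p]) := by push_cast; ring
      have h0 := congrArg (Int.castRingHom ℤ_[p]) (hY _ hm)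
      rw [map_psi3, map_zero] at h0
      rw [hx, hev, hev]
      exact h0
    · rw [hT0 η₀ hη₀, ← hfib.2]
      exact hηy i hfib.1

end FLTAgent.Switch

end
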