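import Mathlib.Tactic.LinearCombination
import Mathlib.AlgebraicGeometry.EllipticCurve.Weierstrass
import Mathlib.RingTheory.Int.Basic

/-!
# Klein's icosahedral family of elliptic curves with level five structure

The pair `(bB u v, bC u v)` is the parameter of a Tate normal curve
`y² + (C - B)xy - BC²y = x³ - BCx²`; its invariants `c₄`, `c₆` are Klein's forms of degree
20 and 30 and its discriminant is the fifth power of the form of degree 12.
-/

set_option autoImplicit false

namespace FLTAgent.Switch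

variable {R : Type*} [CommRing R]

/-- The numerator of the parameter. -/
def bB (u v : R) : R := u * (u ^ 4 + 3 * u ^ 3 * v + 4 * u ^ 2 * v ^ 2 + 2 * u * v ^ 3 + v ^ 4)

/-- The denominator of the parameter. -/
def bC (u v : R) : R := v * (u ^ 4 - 2 * u ^ 3 * v + 4 * u ^ 2 * v ^ 2 - 3 * u * v ^ 3 + v ^ 4)

/-- The form of degree twelve. -/
def ff (u v : R) : R := u * v * (u ^ 10 - 11 * u ^ 5 * v ^ 5 - v ^ 10)

/-- The invariant `c₄` of the Tate normal curve. -/
def tc4 (B C : R) : R := (B ^ 2 - 6 * B * C + C ^ 2) ^ 2 + 24 * B * C ^ 2 * (C - B)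

/-- The invariant `c₆` of the Tate normal curve. -/
def tc6 (B C : R) : R :=
  -(B ^ 2 - 6 * B * C + C ^ 2) ^ 3 - 36 * (B ^ 2 - 6 * B * C + C ^ 2) * (B * C ^ 2 * (C - B)) -
    216 * (B * C ^ 2) ^ 2

/-- The discriminant of the Tate normal curve. -/
def tD (B C : R) : R := B ^ 5 * C ^ 5 * (B ^ 2 - 11 * B * C - C ^ 2)

theorem tc_relation (B C : R) : tc4 B C ^ 3 - tc6 B C ^ 2 = 1728 * tD B C := by
  simp only [tc4, tc6, tD]; ring

/-- The invariant `c₄` of the family. -/
def hh (u v : R) : R := tc4 (bB u v) (bC u v)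

/-- The invariant `c₆` of the family. -/
def tt (u v : R) : R := tc6 (bB u v) (bC u v)

theorem bB_bC_quad (u v : R) :
    bB u v ^ 2 - 11 * bB u v * bC u v - bC u v ^ 2 = (u ^ 2 - u * v - v ^ 2) ^ 5 := by
  simp only [bB, bC]; ring

theorem bB_mul_bC (u v : R) :
    bB u v * bC u v * (u ^ 2 - u * v - v ^ 2) = ff u v := by
  simp only [bB, bC, ff]; ring

theorem tD_eq (u v : R) : tD (bB u v) (bC u v) = ff u v ^ 5 := by
  rw [← bB_mul_bC, tD, bB_bC_quad]; ring

/-- The form of degree twenty, expanded. -/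
theorem hh_eq (u v : R) : hh u v =
    u ^ 20 + 228 * u ^ 15 * v ^ 5 + 494 * u ^ 10 * v ^ 10 - 228 * u ^ 5 * v ^ 15 + v ^ 20 := by
  simp only [hh, tc4, bB, bC]; ring

/-- The form of degree thirty, expanded. -/
theorem tt_eq (u v : R) : tt u v =
    -(u ^ 30 - 522 * u ^ 25 * v ^ 5 - 10005 * u ^ 20 * v ^ 10 - 10005 * u ^ 10 * v ^ 20 +
      522 * u ^ 5 * v ^ 25 + v ^ 30) := by
  simp only [tt, tc6, bB, bC]; ring

theorem hh_tt_relation (u v : R) : hh u v ^ 3 - tt u v ^ 2 = 1728 * ff u v ^ 5 := by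
  rw [hh, tt, tc_relation, tD_eq]

theorem bB_smul (c u v : R) : bB (c * u) (c * v) = c ^ 5 * bB u v := by simp only [bB]; ring

theorem bC_smul (c u v : R) : bC (c * u) (c * v) = c ^ 5 * bC u v := by simp only [bC]; ring

theorem ff_smul (c u v : R) : ff (c * u) (c * v) = c ^ 12 * ff u v := by simp only [ff]; ring

theorem hh_smul (c u v : R) : hh (c * u) (c * v) = (c ^ 5) ^ 4 * hh u v := by
  simp only [hh, tc4, bB_smul, bC_smul]; ring

theorem tt_smul (c u v : R) : tt (c * u) (c * v) = (c ^ 5) ^ 6 * tt u v := by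
  simp only [tt, tc6, bB_smul, bC_smul]; ring

theorem hh_scale {e : R} (he : e ^ 5 = 1) (u v : R) : hh (e * u) v = hh u v := by
  have h : ∀ m, (e * u) ^ (5 * m) = u ^ (5 * m) := fun m => by
    rw [mul_pow, pow_mul, he, one_pow, one_mul]
  rw [hh_eq, hh_eq, show (20 : ℕ) = 5 * 4 by rfl, h, show (15 : ℕ) = 5 * 3 by rfl, h,
    show (10 : ℕ) = 5 * 2 by rfl, h, show (5 : ℕ) = 5 * 1 by rfl]
  rw [h]

theorem tt_scale {e : R} (he : e ^ 5 = 1) (u v : R) : tt (e * u) v = tt u v := by
  have h : ∀ m, (e * u) ^ (5 * m) = u ^ (5 * m) := fun m => by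
    rw [mul_pow, pow_mul, he, one_pow, one_mul]
  have h5 : (e * u) ^ 5 = u ^ 5 := h 1
  rw [tt_eq, tt_eq, show (30 : ℕ) = 5 * 6 by rfl, h, show (25 : ℕ) = 5 * 5 by rfl, h,
    show (20 : ℕ) = 5 * 4 by rfl, h, show (10 : ℕ) = 5 * 2 by rfl, h, h5]

theorem ff_scale {e : R} (he : e ^ 5 = 1) (u v : R) : ff (e * u) v = e * ff u v := by
  have h5 : (e * u) ^ 5 = u ^ 5 := by rw [mul_pow, he, one_mul]
  have h10 : (e * u) ^ 10 = u ^ 10 := by rw [show (10 : ℕ) = 5 * 2 by rfl, pow_mul, h5, ← pow_mul]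
  simp only [ff, h5, h10]; ring

theorem map_bB {S : Type*} [CommRing S] (f : R →+* S) (u v : R) :
    f (bB u v) = bB (f u) (f v) := by simp [bB, map_ofNat]

theorem map_bC {S : Type*} [CommRing S] (f : R →+* S) (u v : R) :
    f (bC u v) = bC (f u) (f v) := by simp [bC, map_ofNat]

theorem map_ff {S : Type*} [CommRing S] (f : R →+* S) (u v : R) :
    f (ff u v) = ff (f u) (f v) := by simp [ff, map_ofNat]

theorem map_hh {S : Type*} [CommRing S] (f : R →+* S) (u v : R) :
    f (hh u v) = hh (f u) (f v) := by simp [hh, tc4, map_bB, map_bC, map_ofNat]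

theorem map_tt {S : Type*} [CommRing S] (f : R →+* S) (u v : R) :
    f (tt u v) = tt (f u) (f v) := by simp [tt, tc6, map_bB, map_bC, map_ofNat]

section Domain

variable {k : Type*} [Field k] [CharZero k]

/-- The three forms have no common zero apart from the origin. -/
theorem eq_zero_of_hh_ff {u v : k} (h : hh u v = 0) (hf : ff u v = 0) : u = 0 ∧ v = 0 := by
  rw [hh_eq] at h
  rcases mul_eq_zero.mp hf with hf | hf
  · rcases mul_eq_zero.mp hf with rfl | rfl
    · refine ⟨rfl, pow_eq_zero_iff (n := 20) (by norm_num) |>.mp ?_⟩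
      linear_combination h
    · refine ⟨pow_eq_zero_iff (n := 20) (by norm_num) |>.mp ?_, rfl⟩
      linear_combination h
  · have h1 : 3125 * u ^ 10 * v ^ 10 = 0 := by
      linear_combination h - (u ^ 10 + 239 * u ^ 5 * v ^ 5 - v ^ 10) * hf
    rcases mul_eq_zero.mp h1 with h2 | h2
    · have hu : u = 0 := pow_eq_zero_iff (n := 10) (by norm_num) |>.mp
        ((mul_eq_zero.mp h2).resolve_left (by norm_num))
      subst hu
      exact ⟨rfl, pow_eq_zero_iff (n := 10) (by norm_num) |>.mp (by linear_combination -hf)⟩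
    · have hv : v = 0 := pow_eq_zero_iff (n := 10) (by norm_num) |>.mp h2
      subst hv
      exact ⟨pow_eq_zero_iff (n := 10) (by norm_num) |>.mp (by linear_combination hf), rfl⟩

end Domain

end FLTAgent.Switch
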