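import Fermat.Agent.Switch.Points

/-!
# Level five structures on the curves of Klein's family
-/

set_option autoImplicit false

namespace FLTAgent.Switch

open WeierstrassCurve

variable {k : Type*} [Field k] {H T u v e : k}

theorem cyc_of_prim (he : IsPrimitiveRoot e 5) : e ^ 4 + e ^ 3 + e ^ 2 + e + 1 = 0 := by
  have h := he.geom_sum_eq_zero (by norm_num)
  simp only [Finset.sum_range_succ, Finset.sum_range_zero] at h
  linear_combination h

variable [CharZero k]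

namespace IsLev

omit [CharZero k] in
theorem scale_one (h : IsLev H T u v) (he : IsPrimitiveRoot e 5) :
    IsPar H T (bP e (e ^ 2) (e ^ 3) (e ^ 4) u v) (cP e (e ^ 2) (e ^ 3) (e ^ 4) u v) := by
  rw [← bB_scale he.pow_eq_one, ← bC_scale]
  exact (h.scale he.pow_eq_one).par

omit [CharZero k] in
theorem pow_facts (he : e ^ 5 = 1) :
    (e ^ 4) ^ 2 = e ^ 3 ∧ (e ^ 4) ^ 3 = e ^ 2 ∧ (e ^ 4) ^ 4 = e := by
  refine ⟨?_, ?_, ?_⟩
  · linear_combination e ^ 3 * he
  · linear_combination (e ^ 7 + e ^ 2) * he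
  · linear_combination (e ^ 11 + e ^ 6 + e) * he

omit [CharZero k] in
theorem scale_four (h : IsLev H T u v) (he : IsPrimitiveRoot e 5) :
    IsPar H T (bP (e ^ 4) (e ^ 3) (e ^ 2) e u v) (cP (e ^ 4) (e ^ 3) (e ^ 2) e u v) := by
  have h' := h.scale_one (he.pow_of_coprime 4 (by norm_num))
  obtain ⟨a, b, c⟩ := pow_facts he.pow_eq_one
  rwa [a, b, c] at h'

theorem xx_ne (h : IsLev H T u v) (he : IsPrimitiveRoot e 5) :
    xx (bP e (e ^ 2) (e ^ 3) (e ^ 4) u v) (cP e (e ^ 2) (e ^ 3) (e ^ 4) u v) ≠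
      xx (bP (e ^ 4) (e ^ 3) (e ^ 2) e u v) (cP (e ^ 4) (e ^ 3) (e ^ 2) e u v) := by
  intro hx
  have h5 := he.pow_eq_one
  have hc := cyc_of_prim he
  have p1 := h.scale_one he
  have p4 := h.scale_four he
  set B1 := bP e (e ^ 2) (e ^ 3) (e ^ 4) u v with hB1
  set C1 := cP e (e ^ 2) (e ^ 3) (e ^ 4) u v with hC1
  set B4 := bP (e ^ 4) (e ^ 3) (e ^ 2) e u v with hB4
  set C4 := cP (e ^ 4) (e ^ 3) (e ^ 2) e u v with hC4
  have hyy : yy B1 C1 ^ 2 = yy B4 C4 ^ 2 := by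
    have e1 := (Affine.equation_iff _ _).mp p1.nonsingular.left
    have e4 := (Affine.equation_iff _ _).mp p4.nonsingular.left
    rw [hx] at e1
    simp only [crv] at e1 e4
    linear_combination e1 - e4
  have hpm : (B1 = B4 ∧ C1 = C4) ∨ (B1 = -B4 ∧ C1 = -C4) := by
    rcases eq_or_eq_neg_of_sq_eq_sq _ _ hyy with hy | hy
    · exact Or.inl (p1.par_of_coords p4 hx hy)
    · refine Or.inr (p1.par_of_coords p4.neg ?_ ?_)
      · rw [hx]; simp only [xx]; ring
      · rw [hy]; simp only [yy]; ring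
  have hbc : B1 * C1 = B4 * C4 := by
    rcases hpm with ⟨r, s⟩ | ⟨r, s⟩ <;> rw [r, s]
    ring
  have f1 : B1 * C1 * ((e * u) ^ 2 - e * u * v - v ^ 2) = e * ff u v := by
    rw [hB1, hC1, ← bB_scale h5, ← bC_scale, bB_mul_bC, ff_scale h5]
  have f4 : B4 * C4 * ((e ^ 4 * u) ^ 2 - e ^ 4 * u * v - v ^ 2) = e ^ 4 * ff u v := by
    have h45 : (e ^ 4) ^ 5 = 1 := by rw [← pow_mul, mul_comm, pow_mul, h5, one_pow]
    have hb := bB_scale h45 u v
    have hc' := bC_scale (e ^ 4) u v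
    obtain ⟨a, b, c⟩ := pow_facts h5
    rw [a, b, c] at hb hc'
    rw [hB4, hC4, ← hb, ← hc', bB_mul_bC, ff_scale h45]
  have hne : B4 * C4 ≠ 0 := mul_ne_zero p4.b_ne p4.c_ne
  rw [hbc] at f1
  have hq : (e ^ 3 - 1) * (u ^ 2 + v ^ 2) = 0 := by
    refine mul_left_cancel₀ hne ?_
    linear_combination f4 - e ^ 3 * f1 - B4 * C4 * u ^ 2 * (e ^ 3 - 1) * h5
  have he3 : e ^ 3 - 1 ≠ 0 := fun h0 => he.pow_ne_one_of_pos_of_lt (by norm_num)
    (by norm_num : 3 < 5) (sub_eq_zero.mp h0)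
  have huv := (mul_eq_zero.mp hq).resolve_left he3
  have hu := h.u_ne
  have hu4 : u ^ 4 ≠ 0 := pow_ne_zero 4 hu
  have hu2 : u ^ 2 ≠ 0 := pow_ne_zero 2 hu
  set s := e + e ^ 4 with hs
  have hss : s ^ 2 + s - 1 = 0 := by
    rw [hs]; linear_combination (e ^ 4 - e ^ 3 + 2 * e - 1) * hc
  have hfin : ∀ p q : k, p * u + q * v = 0 → p ^ 2 + q ^ 2 = 0 := by
    intro p q hpq
    refine mul_right_cancel₀ hu2 ?_
    linear_combination (p * u - q * v) * hpq + q ^ 2 * huv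
  have hs3 : s = -3 := by
    rcases hpm with ⟨r, -⟩ | ⟨r, -⟩
    · have hl : -((e ^ 4 - e) + 4 * (e ^ 3 - e ^ 2)) * u +
          (3 * (e ^ 4 - e) + 2 * (e ^ 3 - e ^ 2)) * v = 0 := by
        refine mul_left_cancel₀ hu4 ?_
        rw [hB1, hB4] at r
        simp only [bP] at r
        linear_combination r + ((4 * (e ^ 2 - e ^ 3)) * u ^ 3 + (2 * (e ^ 3 - e ^ 2)) * u ^ 2 * v +
          (e ^ 4 - e) * u * (v ^ 2 - u ^ 2)) * huv
      have h2 := hfin _ _ hl
      refine mul_left_cancel₀ (show (30 : k) ≠ 0 by norm_num) ?_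
      rw [hs]
      linear_combination -h2 + (10 * e ^ 4 + 10 * e ^ 3 - 20 * e ^ 2 - 60 * e + 90) * hc
    · have hl : (6 + 5 * s) * u + (2 + 5 * s) * v = 0 := by
        refine mul_left_cancel₀ hu4 ?_
        rw [hB1, hB4] at r
        simp only [bP] at r
        rw [hs]
        linear_combination r + (-4 * (e ^ 2 + e ^ 3) * u ^ 3 - 2 * (e ^ 3 + e ^ 2) * u ^ 2 * v -
          (e + e ^ 4) * u * (v ^ 2 - u ^ 2)) * huv + (4 * u ^ 5 + 2 * u ^ 4 * v) * hc
      have h2 := hfin _ _ hl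
      linear_combination h2 / 30 - (5 / 3) * hss
  rw [hs3] at hss
  norm_num at hss

variable [DecidableEq k]

/-- The translates by `e` and `e⁻¹` add up to twice the distinguished point. -/
theorem pt_translates (h : IsLev H T u v) (he : IsPrimitiveRoot e 5) :
    (h.scale_one he).pt + (h.scale_four he).pt = h.par.twice.pt := by
  have hc := cyc_of_prim he
  have hx := h.xx_ne he
  have hsl : (crv H T).toAffine.slope
      (xx (bP e (e ^ 2) (e ^ 3) (e ^ 4) u v) (cP e (e ^ 2) (e ^ 3) (e ^ 4) u v))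
      (xx (bP (e ^ 4) (e ^ 3) (e ^ 2) e u v) (cP (e ^ 4) (e ^ 3) (e ^ 2) e u v))
      (yy (bP e (e ^ 2) (e ^ 3) (e ^ 4) u v) (cP e (e ^ 2) (e ^ 3) (e ^ 4) u v))
      (yy (bP (e ^ 4) (e ^ 3) (e ^ 2) e u v) (cP (e ^ 4) (e ^ 3) (e ^ 2) e u v)) =
      lineSlope e u v := by
    rw [Affine.slope_of_X_ne hx, div_eq_iff (sub_ne_zero.mpr hx)]
    exact line_through u v hc
  rw [IsPar.pt, IsPar.pt, Affine.Point.add_of_X_ne hx]
  simp only [IsPar.pt, Affine.Point.some.injEq, Affine.addX, Affine.addY, Affine.negAddY,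
    Affine.negY, hsl]
  simp only [crv]
  refine ⟨?_, ?_⟩
  · linear_combination -line_third_x u v hc
  · linear_combination -line_third_y u v hc + lineSlope e u v * line_third_x u v hc

end IsLev

end FLTAgent.Switch
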