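import Fermat.Agent.Switch.Arith

/-!
# The three division polynomial of the family has no polynomial root
-/

set_option autoImplicit false
set_option linter.style.haveILetI false

noncomputable section

open scoped Classical
open Polynomial

namespace FLTAgent.Switch

local notation "QQb" => AlgebraicClosure ℚ

/-- Three times the abscissa of a point of order three on `y² = x³ + a x + b` is a zero of this
form. -/
def psi3 {R : Type*} [CommRing R] (a b y : R) : R :=
  y ^ 4 + 18 * a * y ^ 2 + 108 * b * y - 27 * a ^ 2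

theorem map_psi3 {R S : Type*} [CommRing R] [CommRing S] (f : R →+* S) (a b y : R) :
    f (psi3 a b y) = psi3 (f a) (f b) (f y) := by simp [psi3, map_ofNat]

theorem psi3_identity {K : Type*} [CommRing K] (a b X : K) :
    144 * X ^ 2 * (4 * a ^ 3 + 27 * b ^ 2) - 9 * (X ^ 2 + 3 * a) * (3 * X ^ 2 + a) ^ 3 =
      -psi3 a b (3 * X) * (3 * X ^ 4 + 6 * a * X ^ 2 - a ^ 2 - 12 * b * X) := by
  simp only [psi3]; ring

/-- No polynomial is a root of the three division polynomial of the family. -/
theorem psi3_ne_zero {A B : ℚ[X]} (h : FamilyData A B) {K : Type*} [Field K] [CharZero K]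
    [IsAlgClosed K] [Algebra ℚ K] (y : K[X]) :
    psi3 (-27 * A.map (algebraMap ℚ K)) (-54 * B.map (algebraMap ℚ K)) y ≠ 0 := by
  intro hy
  obtain ⟨hdeg, F₀, hF₀, hnd₀, hcard₀, hco₀⟩ := h
  haveI : Algebra.IsAlgebraic ℚ QQb := AlgebraicClosure.isAlgebraic ℚ
  let φ : QQb →ₐ[ℚ] K := IsAlgClosed.lift
  set F := F₀.map φ.toRingHom with hFdef
  have hcomp : φ.toRingHom.comp (algebraMap ℚ QQb) = algebraMap ℚ K := φ.comp_algebraMap
  have hroots : F.roots = F₀.roots.map φ.toRingHom :=
    ((IsAlgClosed.splits F₀).roots_map φ.toRingHom)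
  have hnd : F.roots.Nodup := by rw [hroots]; exact hnd₀.map φ.toRingHom.injective
  have hcard : Multiset.card F.roots = 12 := by rw [hroots, Multiset.card_map, hcard₀]
  have hF0 : F ≠ 0 := fun h0 => by simp [h0] at hcard
  set a : K[X] := -27 * A.map (algebraMap ℚ K)
  set b : K[X] := -54 * B.map (algebraMap ℚ K)
  set D : K[X] := 4 * a ^ 3 + 27 * b ^ 2 with hD
  have hDF : D = C (-78732 * 1728) * F ^ 5 := by
    have := congrArg (Polynomial.map φ.toRingHom) hF₀
    rw [Polynomial.map_map, hcomp, Polynomial.map_sub, Polynomial.map_pow, Polynomial.map_pow,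
      Polynomial.map_mul, map_C, Polynomial.map_pow, ← hFdef, map_ofNat, map_ofNat] at this
    rw [hD, map_mul, map_neg, map_ofNat, map_ofNat]
    simp only [a, b]
    linear_combination (-78732 : K[X]) * this
  have hA : ∀ x, F.eval x = 0 → a.eval x ≠ 0 := by
    intro x hx
    have hx' : x ∈ F.roots := (mem_roots hF0).mpr hx
    rw [hroots, Multiset.mem_map] at hx'
    obtain ⟨x₀, hx₀, rfl⟩ := hx'
    have e : (A.map (algebraMap ℚ K)).eval (φ.toRingHom x₀) =
        φ.toRingHom ((A.map (algebraMap ℚ QQb)).eval x₀) := by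
      rw [← eval_map_apply, Polynomial.map_map, hcomp]
    have := hco₀ x₀ ((mem_roots'.mp hx₀).2)
    simp only [a, eval_mul, eval_neg, eval_ofNat, e]
    exact mul_ne_zero (by norm_num) ((map_ne_zero φ.toRingHom).mpr this)
  obtain ⟨x₁, hx₁⟩ : ∃ x, x ∈ F.roots :=
    Multiset.card_pos_iff_exists_mem.mp (by rw [hcard]; norm_num)
  have ha0 : a ≠ 0 := fun h0 => hA x₁ ((mem_roots hF0).mp hx₁) (by rw [h0, eval_zero])
  obtain ⟨Xx, h3⟩ : ∃ Xx : K[X], 3 * Xx = y := ⟨C (3⁻¹) * y, by
    rw [← mul_assoc, ← C_ofNat 3, ← map_mul, mul_inv_cancel₀ (by norm_num), map_one, one_mul]⟩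
  set G : K[X] := Xx ^ 2 + 3 * a with hG
  set H : K[X] := 3 * Xx ^ 2 + a with hH
  have hid : 9 * G * H ^ 3 = 144 * Xx ^ 2 * D := by
    have := psi3_identity a b Xx
    rw [h3, hy, neg_zero, zero_mul, sub_eq_zero] at this
    exact this.symm
  have hDne : D ≠ 0 := by
    rw [hDF]; exact mul_ne_zero (C_ne_zero.mpr (by norm_num)) (pow_ne_zero 5 hF0)
  have hX0 : Xx ≠ 0 := by
    intro h0
    apply ha0
    have : 9 * (3 * a) * a ^ 3 = 0 := by
      rw [hG, hH, h0] at hid; linear_combination hid
    simpa using this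
  have hprod : 9 * G * H ^ 3 ≠ 0 := by
    rw [hid]; exact mul_ne_zero (mul_ne_zero (by norm_num) (pow_ne_zero 2 hX0)) hDne
  have hG0 : G ≠ 0 := fun h0 => hprod (by rw [h0]; ring)
  have hH0 : H ≠ 0 := fun h0 => hprod (by rw [h0]; ring)
  have hFdeg : F.natDegree = 12 := by
    rw [← hcard]; exact (IsAlgClosed.splits F).natDegree_eq_card_roots
  have hDdeg : D.natDegree = 60 := by
    rw [hDF, natDegree_C_mul (by norm_num), natDegree_pow, hFdeg]
  have hadeg : a.natDegree ≤ 20 := by
    simp only [a, ← C_ofNat, ← map_neg]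
    exact (natDegree_C_mul_le _ _).trans (natDegree_map_le.trans hdeg)
  have hXdeg : Xx.natDegree ≤ 10 := by
    by_contra hlt
    have e3 : (3 * Xx ^ 2).natDegree = 2 * Xx.natDegree := by
      rw [← C_ofNat 3, natDegree_C_mul (by norm_num), natDegree_pow]
    have eX : (Xx ^ 2).natDegree = 2 * Xx.natDegree := natDegree_pow _ _
    have h3a : (3 * a).natDegree ≤ 20 := by
      rw [← C_ofNat 3]; exact (natDegree_C_mul_le _ _).trans hadeg
    have dG : G.natDegree = 2 * Xx.natDegree := by
      rw [hG, natDegree_add_eq_left_of_natDegree_lt (by omega), eX]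
    have dH : H.natDegree = 2 * Xx.natDegree := by
      rw [hH, natDegree_add_eq_left_of_natDegree_lt (by omega), e3]
    have := congrArg natDegree hid
    rw [natDegree_mul (mul_ne_zero (by norm_num) hG0) (pow_ne_zero 3 hH0),
      ← C_ofNat 9, ← C_ofNat 144, natDegree_C_mul (by norm_num), natDegree_pow, dG, dH,
      natDegree_mul (mul_ne_zero (C_ne_zero.mpr (by norm_num)) (pow_ne_zero 2 hX0)) hDne,
      natDegree_C_mul (by norm_num), natDegree_pow, hDdeg] at this
    omega
  have hGdeg : G.natDegree ≤ 20 := by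
    rw [hG]
    refine natDegree_add_le_of_degree_le ((natDegree_pow_le_of_le 2 hXdeg).trans (by norm_num)) ?_
    rw [← C_ofNat 3]; exact (natDegree_C_mul_le _ _).trans hadeg
  have hmult : ∀ x ∈ F.roots, 5 ≤ G.roots.count x := by
    intro x hx
    have hFx : F.eval x = 0 := (mem_roots hF0).mp hx
    have hax := hA x hFx
    have hc := congrArg (fun P : K[X] => P.roots.count x) hid
    have h1 : F.roots.count x = 1 := Multiset.count_eq_one_of_mem hnd hx
    simp only [← C_ofNat 9, ← C_ofNat 144, hDF] at hc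
    rw [roots_mul (mul_ne_zero (mul_ne_zero (C_ne_zero.mpr (by norm_num)) hG0) (pow_ne_zero 3 hH0)),
      roots_C_mul _ (by norm_num), roots_pow, roots_mul (mul_ne_zero
        (mul_ne_zero (C_ne_zero.mpr (by norm_num)) (pow_ne_zero 2 hX0))
        (mul_ne_zero (C_ne_zero.mpr (by norm_num)) (pow_ne_zero 5 hF0))),
      roots_C_mul _ (by norm_num), roots_pow, roots_C_mul _ (by norm_num), roots_pow,
      Multiset.count_add, Multiset.count_add, Multiset.count_nsmul, Multiset.count_nsmul,
      Multiset.count_nsmul, h1] at hc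
    by_contra hlt
    by_cases hGx : G.eval x = 0
    · have hX' : Xx.eval x ≠ 0 := fun h0 => hax (by
        simp only [hG, eval_add, eval_mul, eval_pow, eval_ofNat, h0] at hGx
        linear_combination hGx / 3)
      have hH' : H.eval x ≠ 0 := fun h0 => hax (by
        simp only [hG, hH, eval_add, eval_mul, eval_pow, eval_ofNat] at hGx h0
        linear_combination (3 * hGx - h0) / 8)
      rw [Multiset.count_eq_zero_of_notMem (fun m => hX' ((mem_roots hX0).mp m)),
        Multiset.count_eq_zero_of_notMem (fun m => hH' ((mem_roots hH0).mp m))] at hc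
      omega
    · rw [Multiset.count_eq_zero_of_notMem (fun m => hGx ((mem_roots hG0).mp m))] at hc
      have hX' : Xx.eval x ≠ 0 := by
        intro h0
        have hHx : H.eval x ≠ 0 := fun hz => hax (by
          simp only [hH, eval_add, eval_mul, eval_pow, eval_ofNat, h0] at hz
          linear_combination hz)
        rw [Multiset.count_eq_zero_of_notMem (fun m => hHx ((mem_roots hH0).mp m))] at hc
        omega
      rw [Multiset.count_eq_zero_of_notMem (fun m => hX' ((mem_roots hX0).mp m))] at hc
      omega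
  have hle : 5 • F.roots ≤ G.roots := by
    rw [Multiset.le_iff_count]
    intro x
    rw [Multiset.count_nsmul]
    by_cases hx : x ∈ F.roots
    · rw [Multiset.count_eq_one_of_mem hnd hx]; simpa using hmult x hx
    · rw [Multiset.count_eq_zero_of_notMem hx, mul_zero]; exact Nat.zero_le _
  have := (Multiset.card_le_card hle).trans (card_roots' G)
  rw [Multiset.card_nsmul, hcard] at this
  omega

end FLTAgent.Switch

end
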