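import Fermat.Agent.Switch.Forms
import Mathlib.AlgebraicGeometry.EllipticCurve.Affine.Point
import Mathlib.RingTheory.RootsOfUnity.PrimitiveRoots
import Mathlib.Data.ZMod.Basic

/-!
# The points of order five on the curves of Klein's family
-/

set_option autoImplicit false

namespace FLTAgent.Switch

open WeierstrassCurve

variable {k : Type*} [Field k]

/-- The short Weierstrass curve with invariants proportional to `(H, T)`. -/
def crv (H T : k) : WeierstrassCurve k := ⟨0, 0, 0, -27 * H, -54 * T⟩

theorem crv_Δ (H T : k) : (crv H T).Δ = 1259712 * (H ^ 3 - T ^ 2) := by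
  simp only [crv, WeierstrassCurve.Δ, WeierstrassCurve.b₂, WeierstrassCurve.b₄,
    WeierstrassCurve.b₆, WeierstrassCurve.b₈]
  ring

/-- `(B, C)` parametrises a point of order five on the curve `crv H T`. -/
structure IsPar (H T B C : k) : Prop where
  h4 : tc4 B C = H
  h6 : tc6 B C = T
  disc : tD B C ≠ 0

namespace IsPar

variable {H T B C : k}

theorem neg (h : IsPar H T B C) : IsPar H T (-B) (-C) := by
  refine ⟨?_, ?_, ?_⟩
  · rw [← h.h4, tc4, tc4]; ring
  · rw [← h.h6, tc6, tc6]; ring
  · intro hD; apply h.disc; rw [← hD, tD, tD]; ring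

theorem twice (h : IsPar H T B C) : IsPar H T (-C) B := by
  refine ⟨?_, ?_, ?_⟩
  · rw [← h.h4, tc4, tc4]; ring
  · rw [← h.h6, tc6, tc6]; ring
  · intro hD; apply h.disc; rw [← hD, tD, tD]; ring

theorem b_ne (h : IsPar H T B C) : B ≠ 0 := by
  rintro rfl; exact h.disc (by simp [tD])

theorem c_ne (h : IsPar H T B C) : C ≠ 0 := by
  rintro rfl; exact h.disc (by simp [tD])

variable [CharZero k]

theorem cube_ne (h : IsPar H T B C) : H ^ 3 - T ^ 2 ≠ 0 := by
  rw [← h.h4, ← h.h6, tc_relation]
  exact mul_ne_zero (by norm_num) h.disc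

theorem crv_disc (h : IsPar H T B C) : (crv H T).Δ ≠ 0 := by
  rw [crv_Δ]; exact mul_ne_zero (by norm_num) h.cube_ne

theorem nonsingular (h : IsPar H T B C) :
    (crv H T).toAffine.Nonsingular (xx B C) (yy B C) := by
  refine (Affine.equation_iff_nonsingular_of_Δ_ne_zero (W := (crv H T).toAffine) h.crv_disc).mp ?_
  rw [Affine.equation_iff, crv, ← h.h4, ← h.h6]
  simp only [xx, yy, tc4, tc6]
  ring

theorem yy_ne (h : IsPar H T B C) : yy B C ≠ 0 :=
  mul_ne_zero (mul_ne_zero (by norm_num) h.b_ne) (pow_ne_zero 2 h.c_ne)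

/-- The point of order five with parameter `(B, C)`. -/
def pt (h : IsPar H T B C) : (crv H T).toAffine.Point := .some _ _ h.nonsingular

theorem pt_congr (h : IsPar H T B C) {B' C' : k} (h' : IsPar H T B' C') (hB : B = B')
    (hC : C = C') : h.pt = h'.pt := by
  subst hB; subst hC; rfl

theorem pt_neg (h : IsPar H T B C) : h.neg.pt = -h.pt := by
  simp only [pt, Affine.Point.neg_some, Affine.Point.some.injEq]
  refine ⟨?_, ?_⟩
  · simp only [xx]; ring
  · simp only [Affine.negY, crv, yy]; ring

theorem pt_ne_zero (h : IsPar H T B C) : h.pt ≠ 0 := Affine.Point.some_ne_zero _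

/-- A point of order five and the invariant `c₄` determine the parameter. -/
theorem par_of_coords {B' C' : k} (h : IsPar H T B C) (h' : IsPar H T B' C')
    (hx : xx B C = xx B' C') (hy : yy B C = yy B' C') : B = B' ∧ C = C' := by
  simp only [xx, mul_right_inj' (show (3 : k) ≠ 0 by norm_num)] at hx
  simp only [yy, mul_assoc, mul_right_inj' (show (-108 : k) ≠ 0 by norm_num)] at hy
  have hb : B * C ^ 2 ≠ 0 := mul_ne_zero h.b_ne (pow_ne_zero 2 h.c_ne)
  have h1 : 24 * (B * C ^ 2) * (C - B) = 24 * (B * C ^ 2) * (C' - B') := by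
    have h4 := h.h4.trans h'.h4.symm
    simp only [tc4] at h4
    linear_combination h4 - ((B ^ 2 - 6 * B * C + C ^ 2) + (B' ^ 2 - 6 * B' * C' + C' ^ 2)) * hx -
      24 * (C' - B') * hy
  have h2 : C - B = C' - B' := mul_left_cancel₀ (mul_ne_zero (by norm_num) hb) h1
  have h3 : B * C = B' * C' := by
    refine mul_left_cancel₀ (show (4 : k) ≠ 0 by norm_num) ?_
    linear_combination (C - B + (C' - B')) * h2 - hx
  have hBC : B * C ≠ 0 := mul_ne_zero h.b_ne h.c_ne
  have h5 : C = C' := mul_left_cancel₀ hBC (by linear_combination hy - C' * h3)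
  exact ⟨by linear_combination h5 - h2, h5⟩

theorem par_of_pt_eq {B' C' : k} (h : IsPar H T B C) (h' : IsPar H T B' C') (he : h.pt = h'.pt) :
    B = B' ∧ C = C' := by
  simp only [pt, Affine.Point.some.injEq] at he
  exact par_of_coords h h' he.1 he.2

variable [DecidableEq k]

/-- Doubling replaces `(B, C)` by `(-C, B)`. -/
theorem pt_add_self (h : IsPar H T B C) : h.pt + h.pt = h.twice.pt := by
  have hy : yy B C ≠ (crv H T).toAffine.negY (xx B C) (yy B C) := by
    simp only [Affine.negY, crv]
    intro he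
    exact h.yy_ne (by linear_combination he / 2)
  have hs : (crv H T).toAffine.slope (xx B C) (xx B C) (yy B C) (yy B C) = 3 * (C - B) := by
    rw [Affine.slope_of_Y_ne rfl hy]
    simp only [Affine.negY, crv, ← h.h4, zero_mul, mul_zero, add_zero, sub_zero]
    rw [div_eq_iff (by intro he; exact h.yy_ne (by linear_combination he / 2))]
    simp only [xx, yy, tc4]
    ring
  rw [pt, Affine.Point.add_self_of_Y_ne hy]
  simp only [pt, Affine.Point.some.injEq, Affine.addX, Affine.addY, Affine.negAddY, Affine.negY,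
    hs]
  refine ⟨?_, ?_⟩ <;> simp only [crv, xx, yy] <;> ring

theorem five_zsmul_pt (h : IsPar H T B C) : (5 : ℤ) • h.pt = 0 := by
  have h4 : h.pt + h.pt + (h.pt + h.pt) = -h.pt := by
    rw [h.pt_add_self, h.twice.pt_add_self, ← h.pt_neg]
  rw [show (5 : ℤ) = 1 + 1 + (1 + 1) + 1 by rfl, add_smul, add_smul, add_smul, one_smul, h4,
    neg_add_cancel]

end IsPar

/-- `(u, v)` is a parameter of a level five structure on `crv H T`. -/
structure IsLev (H T u v : k) : Prop where
  h4 : hh u v = H
  h6 : tt u v = T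
  disc : ff u v ≠ 0

namespace IsLev

variable {H T u v e : k}

theorem par (h : IsLev H T u v) : IsPar H T (bB u v) (bC u v) :=
  ⟨h.h4, h.h6, by rw [tD_eq]; exact pow_ne_zero 5 h.disc⟩

theorem scale (h : IsLev H T u v) (he : e ^ 5 = 1) : IsLev H T (e * u) v :=
  ⟨by rw [hh_scale he, h.h4], by rw [tt_scale he, h.h6], by
    rw [ff_scale he]
    exact mul_ne_zero (fun h0 => by simp [h0] at he) h.disc⟩

theorem u_ne (h : IsLev H T u v) : u ≠ 0 := by
  rintro rfl; exact h.disc (by simp [ff])

theorem v_ne (h : IsLev H T u v) : v ≠ 0 := by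
  rintro rfl; exact h.disc (by simp [ff])

end IsLev

end FLTAgent.Switch
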