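import Fermat.Agent.Switch.Basis
import Mathlib.LinearAlgebra.Matrix.NonsingularInverse
import Mathlib.LinearAlgebra.Matrix.Notation

/-!
# Substitutions permuting the level five structures
-/

set_option autoImplicit false

namespace FLTAgent.Switch

open WeierstrassCurve Matrix

variable {k : Type*} [Field k]

/-- The coordinates of a point. -/
def coord {W : WeierstrassCurve k} : W.toAffine.Point → Option (k × k)
  | .zero => none
  | .some x y _ => some (x, y)

theorem coord_injective {W : WeierstrassCurve k} :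
    Function.Injective (coord : W.toAffine.Point → Option (k × k)) := by
  rintro (_ | _) (_ | _) h <;> simp_all [coord]

theorem crv_map (τ : k →+* k) (H T : k) : (crv H T).map τ = crv (τ H) (τ T) := by
  simp [crv, WeierstrassCurve.map, map_ofNat]

variable [DecidableEq k]

/-- The map on points induced by a ring homomorphism. -/
def mapPt (τ : k →+* k) {H T H' T' : k} (hH : τ H = H') (hT : τ T = T') :
    (crv H T).toAffine.Point →+ (crv H' T').toAffine.Point where
  toFun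
    | .zero => .zero
    | .some x y h => .some (τ x) (τ y) (by
        have := ((crv H T).toAffine.map_nonsingular τ.injective x y).mpr h
        rwa [show (crv H T).toAffine.map τ = crv (τ H) (τ T) from crv_map τ H T, hH, hT] at this)
  map_zero' := rfl
  map_add' := by
    subst hH hT
    have hcrv : (crv H T).map τ = crv (τ H) (τ T) := crv_map τ H T
    rintro (_ | ⟨x₁, y₁, h₁⟩) (_ | ⟨x₂, y₂, h₂⟩)
    any_goals rfl
    have hneg : ∀ x y, (crv (τ H) (τ T)).toAffine.negY (τ x) (τ y) =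
        τ ((crv H T).toAffine.negY x y) := fun x y => by
      simp [Affine.negY, crv]
    by_cases hxy : x₁ = x₂ ∧ y₁ = (crv H T).toAffine.negY x₂ y₂
    · rw [Affine.Point.add_of_Y_eq hxy.left hxy.right]
      exact (Affine.Point.add_of_Y_eq (congrArg τ hxy.left) (by rw [hneg, hxy.right])).symm
    · have hxy' : ¬(τ x₁ = τ x₂ ∧ τ y₁ = (crv (τ H) (τ T)).toAffine.negY (τ x₂) (τ y₂)) := by
        rw [hneg]; exact fun h => hxy ⟨τ.injective h.1, τ.injective h.2⟩
      rw [Affine.Point.add_some hxy]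
      simp only [Affine.Point.add_some hxy', Affine.Point.some.injEq]
      have hs : (crv (τ H) (τ T)).toAffine.slope (τ x₁) (τ x₂) (τ y₁) (τ y₂) =
          τ ((crv H T).toAffine.slope x₁ x₂ y₁ y₂) := by
        rw [← hcrv]; exact Affine.map_slope ..
      simp only [hs, Affine.addX, Affine.addY, Affine.negAddY, Affine.negY]
      simp [crv]

theorem coord_mapPt (τ : k →+* k) {H T H' T' : k} (hH : τ H = H') (hT : τ T = T')
    (P : (crv H T).toAffine.Point) :
    coord (mapPt τ hH hT P) = (coord P).map (Prod.map τ τ) := by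
  cases P <;> rfl

theorem mapPt_pt (τ : k →+* k) {H T H' T' B C B' C' : k} [CharZero k] (hH : τ H = H')
    (hT : τ T = T') (h : IsPar H T B C) (h' : IsPar H' T' B' C') (hB : τ B = B') (hC : τ C = C') :
    mapPt τ hH hT h.pt = h'.pt := by
  subst hB hC
  simp [IsPar.pt, mapPt, xx, yy, map_ofNat]

variable [CharZero k]

/-- The coordinates of the level structure with parameter `q`. -/
noncomputable def V {e : k} (he : IsPrimitiveRoot e 5) (q : Fin 2 → k) (a : Fin 2 → ZMod 5) :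
    Option (k × k) :=
  if h : ff (q 0) (q 1) ≠ 0 then coord ((IsLev.mk rfl rfl h).lev he a) else none

theorem V_eq {e : k} (he : IsPrimitiveRoot e 5) {H T : k} {q : Fin 2 → k}
    (h : IsLev H T (q 0) (q 1)) (a : Fin 2 → ZMod 5) : V he q a = coord (h.lev he a) := by
  obtain ⟨rfl, rfl, hf⟩ := h
  rw [V, dif_pos hf]

/-- `τ` followed by the substitution `g` carries the level structure to itself, with basis
change `M`. -/
structure Rel {e : k} (he : IsPrimitiveRoot e 5) (τ : k →+* k) (g : Matrix (Fin 2) (Fin 2) k)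
    (M : Matrix (Fin 2) (Fin 2) (ZMod 5)) : Prop where
  det : g.det ≠ 0
  good : ∀ q, ff (q 0) (q 1) ≠ 0 → ff ((g *ᵥ (τ ∘ q)) 0) ((g *ᵥ (τ ∘ q)) 1) ≠ 0
  inv4 : ∀ q, ff (q 0) (q 1) ≠ 0 →
    hh ((g *ᵥ (τ ∘ q)) 0) ((g *ᵥ (τ ∘ q)) 1) = τ (hh (q 0) (q 1))
  inv6 : ∀ q, ff (q 0) (q 1) ≠ 0 →
    tt ((g *ᵥ (τ ∘ q)) 0) ((g *ᵥ (τ ∘ q)) 1) = τ (tt (q 0) (q 1))
  pts : ∀ q, ff (q 0) (q 1) ≠ 0 → ∀ a,
    (V he q a).map (Prod.map τ τ) = V he (g *ᵥ (τ ∘ q)) (M *ᵥ a)

variable {e : k} {he : IsPrimitiveRoot e 5}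

/-- A relation may be checked on the two basis points. -/
theorem rel_of_basis (τ : k →+* k) (g : Matrix (Fin 2) (Fin 2) k)
    (M : Matrix (Fin 2) (Fin 2) (ZMod 5)) (hdet : g.det ≠ 0)
    (key : ∀ (q : Fin 2 → k) (H T : k) (h : IsLev H T (q 0) (q 1)),
      ∃ h' : IsLev (τ H) (τ T) ((g *ᵥ (τ ∘ q)) 0) ((g *ᵥ (τ ∘ q)) 1),
        mapPt τ rfl rfl (h.trans he.pow_eq_one 0) = h'.lev he (M *ᵥ ![1, 0]) ∧
          mapPt τ rfl rfl (h.trans he.pow_eq_one 1) = h'.lev he (M *ᵥ ![0, 1])) :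
    Rel he τ g M := by
  refine ⟨hdet, fun q hq => (key q _ _ ⟨rfl, rfl, hq⟩).1.disc,
    fun q hq => (key q _ _ ⟨rfl, rfl, hq⟩).1.h4, fun q hq => (key q _ _ ⟨rfl, rfl, hq⟩).1.h6,
    fun q hq a => ?_⟩
  obtain ⟨h', h0, h1⟩ := key q _ _ ⟨rfl, rfl, hq⟩
  have h : IsLev (hh (q 0) (q 1)) (tt (q 0) (q 1)) (q 0) (q 1) := ⟨rfl, rfl, hq⟩
  rw [V_eq he h, V_eq he h', ← coord_mapPt τ rfl rfl]
  congr 1
  obtain ⟨m, hm⟩ := ZMod.intCast_surjective (a 0)
  obtain ⟨n, hn⟩ := ZMod.intCast_surjective (a 1)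
  have ha : a = m • ![(1 : ZMod 5), 0] + n • ![(0 : ZMod 5), 1] := by
    funext i; fin_cases i <;> simp [hm, hn]
  have l0 : h.lev he ![1, 0] = h.trans he.pow_eq_one 0 := by simpa using h.lev_trans he 0
  have l1 : h.lev he ![0, 1] = h.trans he.pow_eq_one 1 := by simpa using h.lev_trans he 1
  rw [ha, mulVec_add, mulVec_smul, mulVec_smul]
  simp only [map_add, map_zsmul, l0, l1, h0, h1]

theorem Rel.one : Rel he (RingHom.id k) 1 1 :=
  ⟨by simp, fun q hq => by simpa using hq, fun q _ => by simp, fun q _ => by simp,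
    fun q _ a => by simp⟩

theorem Rel.comp {σ τ : k →+* k} {g h : Matrix (Fin 2) (Fin 2) k}
    {M N : Matrix (Fin 2) (Fin 2) (ZMod 5)} (r : Rel he τ g M) (r' : Rel he σ h N) :
    Rel he (σ.comp τ) (h * g.map σ) (N * M) := by
  have key : ∀ q : Fin 2 → k,
      (h * g.map σ) *ᵥ (σ.comp τ ∘ q) = h *ᵥ (σ ∘ (g *ᵥ (τ ∘ q))) := by
    intro q
    rw [← mulVec_mulVec]
    congr 1
    funext i
    exact (RingHom.map_mulVec σ g (τ ∘ q) i).symm
  refine ⟨?_, fun q hq => ?_, fun q hq => ?_, fun q hq => ?_, fun q hq a => ?_⟩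
  · rw [det_mul, ← RingHom.mapMatrix_apply, ← RingHom.map_det]
    exact mul_ne_zero r'.det ((map_ne_zero σ).mpr r.det)
  · rw [key]; exact r'.good _ (r.good q hq)
  · rw [key, r'.inv4 _ (r.good q hq), r.inv4 q hq]; rfl
  · rw [key, r'.inv6 _ (r.good q hq), r.inv6 q hq]; rfl
  · rw [key, ← mulVec_mulVec, ← r'.pts _ (r.good q hq), ← r.pts q hq, Option.map_map]
    rfl

theorem Rel.comp_id {g h : Matrix (Fin 2) (Fin 2) k} {M N : Matrix (Fin 2) (Fin 2) (ZMod 5)}
    (r : Rel he (RingHom.id k) g M) (r' : Rel he (RingHom.id k) h N) :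
    Rel he (RingHom.id k) (h * g) (N * M) := by
  simpa using r.comp r'

end FLTAgent.Switch
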