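import Fermat.Agent.Switch.Descent

/-!
# The family of curves with a given five torsion
-/

set_option autoImplicit false
set_option linter.style.haveILetI false

noncomputable section

open scoped Classical
open WeierstrassCurve WeierstrassCurve.Affine.Point Matrix Polynomial

namespace FLTAgent.Switch

local notation "QQb" => AlgebraicClosure ℚ
local notation "GG" => (AlgebraicClosure ℚ ≃ₐ[ℚ] AlgebraicClosure ℚ)

section Poly

variable {k : Type*} [Field k] (q z : Fin 2 → k)

/-- A coordinate of the line through `q` in direction `z`. -/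
def lineP (i : Fin 2) : k[X] := C (q i) + C (z i) * X

theorem eval_lineP (i : Fin 2) (t : k) : (lineP q z i).eval t = q i + z i * t := by simp [lineP]

theorem natDegree_lineP_le (i : Fin 2) : (lineP q z i).natDegree ≤ 1 := by
  rw [lineP]; compute_degree

theorem mono_bound (a b : ℕ) :
    (lineP q z 0 ^ a * lineP q z 1 ^ b).natDegree ≤ a + b ∧
      (lineP q z 0 ^ a * lineP q z 1 ^ b).coeff (a + b) = z 0 ^ a * z 1 ^ b := by
  have ha : (lineP q z 0 ^ a).natDegree ≤ a := by
    simpa using natDegree_pow_le_of_le a (natDegree_lineP_le q z 0)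
  have hb : (lineP q z 1 ^ b).natDegree ≤ b := by
    simpa using natDegree_pow_le_of_le b (natDegree_lineP_le q z 1)
  refine ⟨natDegree_mul_le_of_le ha hb, ?_⟩
  rw [coeff_mul_add_eq_of_natDegree_le ha hb]
  have ca := coeff_pow_of_natDegree_le (m := a) (natDegree_lineP_le q z 0)
  have cb := coeff_pow_of_natDegree_le (m := b) (natDegree_lineP_le q z 1)
  rw [mul_one] at ca cb
  rw [ca, cb]
  simp [lineP, coeff_C]

theorem natDegree_hh_lineP : (hh (lineP q z 0) (lineP q z 1)).natDegree ≤ 20 := by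
  rw [hh_eq, show (228 : k[X]) = C 228 from (map_ofNat C 228).symm,
    show (494 : k[X]) = C 494 from (map_ofNat C 494).symm]
  refine natDegree_add_le_of_degree_le ((natDegree_sub_le _ _).trans
    (max_le (natDegree_add_le_of_degree_le (natDegree_add_le_of_degree_le ?_ ?_) ?_) ?_)) ?_
  · simpa using (mono_bound q z 20 0).1
  · rw [mul_assoc]; exact (natDegree_C_mul_le _ _).trans (mono_bound q z 15 5).1
  · rw [mul_assoc]; exact (natDegree_C_mul_le _ _).trans (mono_bound q z 10 10).1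
  · rw [mul_assoc]; exact (natDegree_C_mul_le _ _).trans (mono_bound q z 5 15).1
  · simpa using (mono_bound q z 0 20).1

theorem coeff_ff_lineP :
    (ff (lineP q z 0) (lineP q z 1)).natDegree ≤ 12 ∧
      (ff (lineP q z 0) (lineP q z 1)).coeff 12 = ff (z 0) (z 1) := by
  have e : ff (lineP q z 0) (lineP q z 1) =
      lineP q z 0 ^ 11 * lineP q z 1 ^ 1 - C 11 * (lineP q z 0 ^ 6 * lineP q z 1 ^ 6) -
        lineP q z 0 ^ 1 * lineP q z 1 ^ 11 := by
    rw [ff, map_ofNat]; ring
  obtain ⟨a, a'⟩ := mono_bound q z 11 1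
  obtain ⟨b, b'⟩ := mono_bound q z 6 6
  obtain ⟨c, c'⟩ := mono_bound q z 1 11
  simp only [Nat.reduceAdd] at a a' b b' c c'
  rw [e]
  refine ⟨natDegree_sub_le_of_le (natDegree_sub_le_of_le a ((natDegree_C_mul_le _ _).trans b)) c
    |>.trans (by norm_num), ?_⟩
  simp only [coeff_sub, coeff_C_mul, a', b', c', ff]
  ring

variable [CharZero k] [IsAlgClosed k]

/-- The form of degree twelve has twelve distinct zeros on a line avoiding the origin. -/
theorem roots_ff_lineP (hind : q 0 * z 1 - q 1 * z 0 ≠ 0) (hz : ff (z 0) (z 1) ≠ 0) :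
    (ff (lineP q z 0) (lineP q z 1)).roots.Nodup ∧
      Multiset.card (ff (lineP q z 0) (lineP q z 1)).roots = 12 := by
  obtain ⟨hle, hc⟩ := coeff_ff_lineP q z
  set F := ff (lineP q z 0) (lineP q z 1) with hF
  have hdeg : F.natDegree = 12 :=
    le_antisymm hle (le_natDegree_of_ne_zero (by rw [hc]; exact hz))
  have hF0 : F ≠ 0 := fun h => by simp [h] at hdeg
  refine ⟨?_, by rw [← hdeg]; exact (IsAlgClosed.splits F).natDegree_eq_card_roots.symm⟩
  rw [nodup_roots_iff_of_splits hF0 (IsAlgClosed.splits F)]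
  refine isCoprime_iff_aeval_ne_zero_of_isAlgClosed k k _ _ |>.mpr fun x => ?_
  simp only [coe_aeval_eq_eval]
  by_contra hcon
  rw [not_or, not_not, not_not] at hcon
  obtain ⟨h1, h2⟩ := hcon
  set u := q 0 + z 0 * x with hu
  set v := q 1 + z 1 * x with hv
  have hf : ff u v = 0 := by
    have := map_ff (evalRingHom x) (lineP q z 0) (lineP q z 1)
    simp only [coe_evalRingHom, eval_lineP] at this
    rw [← this]; exact h1
  set fu := v * (11 * u ^ 10 - 66 * u ^ 5 * v ^ 5 - v ^ 10) with hfu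
  set fv := u * (u ^ 10 - 66 * u ^ 5 * v ^ 5 - 11 * v ^ 10) with hfv
  have hder : z 0 * fu + z 1 * fv = 0 := by
    rw [← h2, hF, hfu, hfv, hu, hv]
    simp [ff, lineP, derivative_pow]
    ring
  have heu : u * fu + v * fv = 0 := by
    rw [hfu, hfv]; simp only [ff] at hf; linear_combination 12 * hf
  have hdet : u * z 1 - v * z 0 ≠ 0 := by
    rw [hu, hv]; intro h0; exact hind (by linear_combination h0)
  have fu0 : fu = 0 := by
    refine (mul_eq_zero.mp ?_).resolve_left hdet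
    linear_combination z 1 * heu - v * hder
  have fv0 : fv = 0 := by
    refine (mul_eq_zero.mp ?_).resolve_left hdet
    linear_combination u * hder - z 0 * heu
  have huv : u = 0 ∧ v = 0 := by
    rcases eq_or_ne u 0 with h0 | h0
    · refine ⟨h0, pow_eq_zero_iff (n := 11) (by norm_num) |>.mp ?_⟩
      rw [hfu, h0] at fu0
      linear_combination -fu0
    rcases eq_or_ne v 0 with h0' | h0'
    · refine ⟨pow_eq_zero_iff (n := 11) (by norm_num) |>.mp ?_, h0'⟩
      rw [hfv, h0'] at fv0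
      linear_combination fv0
    rw [hfu, mul_eq_zero, or_iff_right h0'] at fu0
    have hq : u ^ 10 - 11 * u ^ 5 * v ^ 5 - v ^ 10 = 0 :=
      (mul_eq_zero.mp hf).resolve_left (mul_ne_zero h0 h0')
    have h55 : 55 * u ^ 5 + 10 * v ^ 5 = 0 := by
      refine (mul_eq_zero.mp ?_).resolve_left (pow_ne_zero 5 h0')
      linear_combination fu0 - 11 * hq
    exfalso
    refine pow_ne_zero 10 h0' ?_
    linear_combination (121 / 125) * hq - (11 / 625 * u ^ 5 - 123 / 625 * v ^ 5) * h55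
  apply hdet
  rw [huv.1, huv.2]; ring

end Poly

variable {W : WeierstrassCurve ℤ}

/-- The rational line of curves with the five torsion of `W`. -/
theorem exists_twist (hΔ : W.Δ ≠ 0) (h4 : W.c₄ ≠ 0) (h6 : W.c₆ ≠ 0) :
    ∃ (A B : ℚ[X]) (F : QQb[X]), A.eval 0 = W.c₄ ∧ B.eval 0 = W.c₆ ∧ A.natDegree ≤ 20 ∧
      (A ^ 3 - B ^ 2).map (algebraMap ℚ QQb) = C 1728 * F ^ 5 ∧
      F.roots.Nodup ∧ Multiset.card F.roots = 12 ∧
      (∀ x, F.eval x = 0 → (A.map (algebraMap ℚ QQb)).eval x ≠ 0) ∧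
      ∀ (t : ℚ) (W' : WeierstrassCurve ℤ), W'.Δ ≠ 0 → (W'.c₄ : ℚ) = A.eval t →
        (W'.c₆ : ℚ) = B.eval t → ∀ σ : GG,
          LinearMap.trace (ZMod 5) _
              (galoisRepModuleEnd (K := QQb) ℚ (W'.map (Int.castRingHom ℚ)) 5 σ) =
            LinearMap.trace (ZMod 5) _
              (galoisRepModuleEnd (K := QQb) ℚ (W.map (Int.castRingHom ℚ)) 5 σ) := by
  haveI : Algebra.IsAlgebraic ℚ QQb := AlgebraicClosure.isAlgebraic ℚ
  haveI : IsAlgClosure ℚ QQb := ⟨inferInstance, inferInstance⟩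
  haveI : IsGalois ℚ QQb := { to_normal := IsAlgClosure.normal ℚ QQb }
  obtain ⟨e, he⟩ := HasEnoughRootsOfUnity.exists_primitiveRoot QQb 5
  have hd : ((W.c₄ : ℤ) : QQb) ^ 3 - ((W.c₆ : ℤ) : QQb) ^ 2 ≠ 0 := by
    have : (W.c₄ ^ 3 - W.c₆ ^ 2 : ℤ) ≠ 0 := by
      rw [← W.c_relation]; exact mul_ne_zero (by norm_num) hΔ
    exact_mod_cast this
  obtain ⟨q₀, hq⟩ := exists_param (Int.cast_ne_zero.mpr h4) (Int.cast_ne_zero.mpr h6) hd
  choose g M hr hfix using exists_cocycle hΔ hq he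
  have hsurj : ∀ σ : GG, Function.Surjective (gal σ) := fun σ => σ.surjective
  have hmul : ∀ σ τ, g (σ * τ) = g σ * (g τ).map (gal σ) := by
    intro σ τ
    refine ((hr (σ * τ)).unique (hsurj _) (?_ : Rel he (gal (σ * τ)) _ (M σ * M τ)) hq.disc
      (hfix _) ?_).2
    · rw [gal_mul]; exact (hr τ).comp (hr σ)
    · have e1 : gal (σ * τ) ∘ q₀ = gal σ ∘ (gal τ ∘ q₀) := rfl
      have e2 : (g τ).map (gal σ) *ᵥ (gal σ ∘ (gal τ ∘ q₀)) = gal σ ∘ q₀ := by
        conv_rhs => rw [← hfix τ]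
        funext i
        exact (RingHom.map_mulVec (gal σ) (g τ) _ i).symm
      rw [e1, ← mulVec_mulVec, e2, hfix]
  set L := IntermediateField.adjoin ℚ ({e, q₀ 0, q₀ 1} : Set QQb)
  haveI : FiniteDimensional ℚ L :=
    IntermediateField.finiteDimensional_adjoin fun x _ =>
      (Algebra.IsAlgebraic.isAlgebraic x).isIntegral
  have hL : ∀ σ : GG, (∀ x ∈ L, σ x = x) → g σ = 1 := by
    intro σ hσ
    have hm : ∀ x ∈ ({e, q₀ 0, q₀ 1} : Set QQb), gal σ x = x := fun x hx =>
      hσ x (IntermediateField.subset_adjoin ℚ _ hx)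
    refine ((hr σ).unique (hsurj _) (rel_hom he (gal σ) 1 (by rw [pow_one]; exact hm e (by simp)))
      hq.disc (hfix σ) ?_).2
    rw [one_mulVec]
    funext i
    exact hm _ (by fin_cases i <;> simp)
  obtain ⟨z₁, hz₁, hind₁⟩ := exists_invariant g q₀ hq.u_ne L hL hmul
  have hadd : ∀ (σ : GG) (x y : Fin 2 → QQb) (c : ℚ),
      act g σ (x + (c : QQb) • y) = act g σ x + (c : QQb) • act g σ y := by
    intro σ x y c
    simp only [act]
    rw [← mulVec_smul, ← mulVec_add]
    congr 1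
    funext i
    simp
  obtain ⟨c, hc⟩ : ∃ c : ℚ, ff ((z₁ + (c : QQb) • q₀) 0) ((z₁ + (c : QQb) • q₀) 1) ≠ 0 := by
    by_contra hcon
    push Not at hcon
    have h0 : ff (lineP z₁ q₀ 0) (lineP z₁ q₀ 1) = 0 := by
      refine Polynomial.eq_zero_of_infinite_isRoot _
        (Set.Infinite.mono ?_ (Set.infinite_range_of_injective (Rat.cast_injective (α := QQb))))
      rintro _ ⟨c, rfl⟩
      show eval _ _ = 0
      rw [← coe_evalRingHom, map_ff, coe_evalRingHom, eval_lineP, eval_lineP]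
      simpa [mul_comm] using hcon c
    have := (coeff_ff_lineP z₁ q₀).2
    rw [h0, coeff_zero] at this
    exact hq.disc this.symm
  set z := z₁ + (c : QQb) • q₀ with hzdef
  have hz : ∀ σ, act g σ z = z := fun σ => by
    rw [hzdef, hadd, hz₁, show act g σ q₀ = q₀ from hfix σ]
  have hind : q₀ 0 * z 1 - q₀ 1 * z 0 ≠ 0 := by
    intro h0
    apply hind₁
    rw [← h0]
    simp [hzdef]
    ring
  set F := ff (lineP q₀ z 0) (lineP q₀ z 1) with hF
  set A' := hh (lineP q₀ z 0) (lineP q₀ z 1) with hA'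
  set B' := tt (lineP q₀ z 0) (lineP q₀ z 1) with hB'
  have hline : ∀ (σ : GG) (t : ℚ), act g σ (q₀ + (t : QQb) • z) = q₀ + (t : QQb) • z :=
    fun σ t => by rw [hadd, hz, show act g σ q₀ = q₀ from hfix σ]
  have hev : ∀ (x : QQb), A'.eval x = hh ((q₀ + x • z) 0) ((q₀ + x • z) 1) ∧
      B'.eval x = tt ((q₀ + x • z) 0) ((q₀ + x • z) 1) ∧
      F.eval x = ff ((q₀ + x • z) 0) ((q₀ + x • z) 1) := by
    intro x
    simp only [hA', hB', hF, ← coe_evalRingHom, map_hh, map_tt, map_ff]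
    simp [eval_lineP, mul_comm]
  obtain ⟨hnd, hcard⟩ := roots_ff_lineP q₀ z hind hc
  have hF0 : F ≠ 0 := fun h => by simp [← hF, h] at hcard
  have hfixed : ∀ σ : GG, A'.map (gal σ) = A' ∧ B'.map (gal σ) = B' := by
    intro σ
    have hinf : Set.Infinite {x : QQb | (A'.map (gal σ)).eval x = A'.eval x ∧
        (B'.map (gal σ)).eval x = B'.eval x} := by
      refine Set.Infinite.mono ?_
        ((Set.infinite_range_of_injective (Rat.cast_injective (α := QQb))).sdiff
          (F.roots.toFinset.finite_toSet))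
      rintro _ ⟨⟨t, rfl⟩, hroot⟩
      have hgood : ff ((q₀ + (t : QQb) • z) 0) ((q₀ + (t : QQb) • z) 1) ≠ 0 := by
        rw [← (hev _).2.2]
        exact fun h => hroot (Multiset.mem_toFinset.mpr ((mem_roots hF0).mpr h))
      have e1 : ∀ P : QQb[X], (P.map (gal σ)).eval (t : QQb) = gal σ (P.eval (t : QQb)) :=
        fun P => by
        conv_lhs => rw [← gal_ratCast σ t]
        rw [eval_map_apply]
      constructor
      · rw [e1, (hev _).1, ← (hr σ).inv4 _ hgood]
        change hh (act g σ _ 0) (act g σ _ 1) = _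
        rw [hline]
      · rw [e1, (hev _).2.1, ← (hr σ).inv6 _ hgood]
        change tt (act g σ _ 0) (act g σ _ 1) = _
        rw [hline]
    exact ⟨Polynomial.eq_of_infinite_eval_eq _ _ (hinf.mono fun x hx => hx.1),
      Polynomial.eq_of_infinite_eval_eq _ _ (hinf.mono fun x hx => hx.2)⟩
  have hlift : ∀ P : QQb[X], (∀ σ, P.map (gal σ) = P) →
      ∃ P₀ : ℚ[X], P₀.map (algebraMap ℚ QQb) = P ∧ P₀.natDegree = P.natDegree := by
    intro P hP
    have : P ∈ lifts (algebraMap ℚ QQb) := by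
      refine (lifts_iff_coeff_lifts P).mpr fun n => ?_
      refine (InfiniteGalois.mem_range_algebraMap_iff_fixed _).mpr fun σ => ?_
      have := congrArg (fun p => p.coeff n) (hP σ)
      simpa [coeff_map, gal_apply] using this
    obtain ⟨P₀, hP₀⟩ := (mem_lifts P).mp this
    exact ⟨P₀, hP₀, by rw [← hP₀, natDegree_map]⟩
  obtain ⟨A, hA, hAd⟩ := hlift A' fun σ => (hfixed σ).1
  obtain ⟨B, hB, -⟩ := hlift B' fun σ => (hfixed σ).2
  have hval : ∀ t : ℚ, ((A.eval t : ℚ) : QQb) = A'.eval (t : QQb) ∧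
      ((B.eval t : ℚ) : QQb) = B'.eval (t : QQb) := fun t => by
    rw [← hA, ← hB, ← eq_ratCast (algebraMap ℚ QQb) t, eval_map_apply, eval_map_apply]
    simp
  refine ⟨A, B, F, ?_, ?_, ?_, ?_, hnd, hcard, ?_, ?_⟩
  · apply Rat.cast_injective (α := QQb)
    rw [(hval 0).1, Rat.cast_intCast, (hev _).1]
    simp [hq.h4]
  · apply Rat.cast_injective (α := QQb)
    rw [(hval 0).2, Rat.cast_intCast, (hev _).2.1]
    simp [hq.h6]
  · rw [hAd]; exact natDegree_hh_lineP q₀ z
  · rw [Polynomial.map_sub, Polynomial.map_pow, Polynomial.map_pow, hA, hB, hA', hB', hF,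
      map_ofNat, hh_tt_relation]
  · intro x hx hA0
    rw [hA, (hev x).1] at hA0
    rw [(hev x).2.2] at hx
    obtain ⟨h0, h1⟩ := eq_zero_of_hh_ff hA0 hx
    apply hind
    simp only [Pi.add_apply, Pi.smul_apply, smul_eq_mul] at h0 h1
    linear_combination z 1 * h0 - z 0 * h1
  · intro t W' hΔ' ht4 ht6 σ
    set qt := q₀ + (t : QQb) • z with hqt
    have hlev : IsLev ((W'.c₄ : ℤ) : QQb) ((W'.c₆ : ℤ) : QQb) (qt 0) (qt 1) := by
      have e4 : hh (qt 0) (qt 1) = ((W'.c₄ : ℤ) : QQb) := by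
        rw [← (hev _).1, ← (hval t).1, ← ht4, Rat.cast_intCast]
      have e6 : tt (qt 0) (qt 1) = ((W'.c₆ : ℤ) : QQb) := by
        rw [← (hev _).2.1, ← (hval t).2, ← ht6, Rat.cast_intCast]
      refine ⟨e4, e6, fun h0 => ?_⟩
      have := hh_tt_relation (qt 0) (qt 1)
      rw [e4, e6, h0, zero_pow (by norm_num), mul_zero] at this
      have hne : (W'.c₄ ^ 3 - W'.c₆ ^ 2 : ℤ) ≠ 0 := by
        rw [← W'.c_relation]; exact mul_ne_zero (by norm_num) hΔ'
      exact hne (by exact_mod_cast this)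
    have hM0 : ∀ a, (V he q₀ a).map (Prod.map (gal σ) (gal σ)) = V he q₀ (M σ *ᵥ a) := fun a => by
      rw [(hr σ).pts _ hq.disc, hfix]
    have hMt : ∀ a, (V he qt a).map (Prod.map (gal σ) (gal σ)) = V he qt (M σ *ᵥ a) := fun a => by
      rw [(hr σ).pts _ hlev.disc]
      change V he (act g σ qt) _ = _
      rw [hqt, hline]
    rw [(det_trace_galois_matrix hΔ' hlev he σ _ hMt).2,
      (det_trace_galois_matrix hΔ hq he σ _ hM0).2]

end FLTAgent.Switch

end
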